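import Fermat.Agent.GT.Loc.Over
import Fermat.Agent.GT.Glue.Defs
import Fermat.Agent.GS.Abs.LocNode

/-!
GT-LOC, abstract layer, file `Cross`: the local data `Glue.CrossLoc` at a triple point, from `Over`
+ uniqueness of the point above its image.
-/

set_option autoImplicit false

namespace Fermat.Agent.GT.Loc

open Fermat.Agent.GR.E Fermat.Agent.GS Fermat.Agent.GT

variable {R : Type*} [CommRing R] {F1 F : Type*} [Field F1] [Field F] [Algebra R F1] [Algebra R F]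
variable {ι : Type*} {ϖ : R} {φ : F1 →ₐ[R] F} {𝒪₁ 𝒪₂ : ValuationSubring F1}
variable {C1 : Subalgebra R F1} {𝒪 : ι → ValuationSubring F} {C : Subalgebra R F} {i₀ : ι}

/-- What is needed of the norm `Nm : F → F1` along `φ`, and the fact that the components `i ≠ i₀`
map isomorphically onto the component `𝒪₁` of level `q N₀`. -/
structure OverNorm (φ : F1 →ₐ[R] F) (C1 : Subalgebra R F1) (𝒪 : ι → ValuationSubring F)
    (C : Subalgebra R F) (i₀ : ι) (Nm : F →* F1) : Prop where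
  surj : ∀ i, i ≠ i₀ → ∀ c ∈ C, ∃ c1 ∈ C1, c - φ c1 ∈ (𝒪 i).nonunits
  norm_mem : ∀ c ∈ C, Nm c ∈ C1
  norm_map : ∃ d : ℕ, ∀ s : F1, Nm (φ s) = s ^ d

/-- `Over.insep` follows from the reduction formula of the norm (`Glue.NormVal.red_ins`). -/
theorem insep_of_red_ins {Nm : F →* F1} {q : ℕ} (hq : 0 < q) (hle : ∀ x ∈ C, x ∈ 𝒪 i₀)
    (hN : ∀ c ∈ C, Nm c ∈ C1) (hred : ∀ a ∈ 𝒪 i₀, φ (Nm a) - a ^ q ∈ (𝒪 i₀).nonunits) :
    ∀ z ∈ C, ∃ k : ℕ, 0 < k ∧ ∃ c ∈ C1, z ^ k - φ c ∈ (𝒪 i₀).nonunits := by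
  intro z hz
  refine ⟨q, hq, Nm z, hN z hz, ?_⟩
  have h := (𝒪 i₀).nonunits.neg_mem (hred z (hle z hz))
  rwa [neg_sub] at h

/-- If `𝔪` is the only maximal ideal of `C` above `𝔫 = 𝔪 ∩ C1`, then `C_𝔪 = C ⊗ C1_𝔫`: every
element of `locAt C 𝔪` has a denominator in `φ (C1 ∖ 𝔫)`.
[`x = c / t`, `t ∉ 𝔪`.  If the ideal `(t C) ∩ C1` were contained in `𝔫` there would be a prime of
`C` containing `t` above `𝔫` (`Ideal.exists_ideal_over_prime_of_isIntegral`), maximal, hence `= 𝔪`.]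
-/
theorem Over.exists_denom (hO : Over ϖ φ 𝒪₁ 𝒪₂ C1 𝒪 C i₀) (𝔪 : Ideal C) (h𝔪 : 𝔪.IsMaximal)
    (huniq : ∀ 𝔪' : Ideal C, 𝔪'.IsMaximal →
      𝔪.comap (pull φ C1 C hO.map_mem) = 𝔪'.comap (pull φ C1 C hO.map_mem) → 𝔪 = 𝔪')
    {x : F} (hx : haveI := h𝔪.isPrime; x ∈ locAt C 𝔪) :
    ∃ s : C1, s ∉ 𝔪.comap (pull φ C1 C hO.map_mem) ∧ x * φ s ∈ C := by
  obtain ⟨t, ht, hxt⟩ := hx
  let f := pull φ C1 C hO.map_mem
  let _ : Algebra C1 C := f.toRingHom.toAlgebra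
  have hint : Algebra.IsIntegral C1 C := ⟨hO.integral⟩
  have h𝔫 : (𝔪.comap f).IsMaximal := hO.comap_isMaximal 𝔪 h𝔪
  have h𝔫p : (𝔪.comap f).IsPrime := h𝔫.isPrime
  have hnot : ¬ (Ideal.span {t}).comap f ≤ 𝔪.comap f := by
    intro hle
    obtain ⟨Q, hQ, hQp, hQc⟩ :=
      Ideal.exists_ideal_over_prime_of_isIntegral (R := C1) (S := C) (𝔪.comap f)
        (Ideal.span {t}) hle
    have hQc' : Q.comap f = 𝔪.comap f := hQc
    have hQm : Q.IsMaximal := by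
      apply Ideal.isMaximal_of_isIntegral_of_isMaximal_comap (R := C1) (S := C) Q
      have : Ideal.comap (algebraMap C1 C) Q = 𝔪.comap f := hQc
      rw [this]
      exact h𝔫
    have := huniq Q hQm hQc'.symm
    apply ht
    rw [this]
    exact hQ (Ideal.subset_span rfl)
  obtain ⟨s, hs, hs'⟩ := SetLike.not_le_iff_exists.1 hnot
  refine ⟨s, hs', ?_⟩
  obtain ⟨c, hc⟩ := Ideal.mem_span_singleton.1 (Ideal.mem_comap.1 hs)
  have h1 : φ s = (t : F) * (c : F) := congrArg Subtype.val hc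
  rw [h1, ← mul_assoc]
  exact C.mul_mem hxt c.2

/-- `Glue.CrossLoc` with `Λ' = locAt C1 (𝔪 ∩ C1)`.  `a`, `b` are the two components `≠ i₀`. -/
theorem Over.crossLoc (hO : Over ϖ φ 𝒪₁ 𝒪₂ C1 𝒪 C i₀) {Nm : F →* F1}
    (hN : OverNorm φ C1 𝒪 C i₀ Nm) (hG₁ : GaussRing ϖ 𝒪₁) (hle₁ : ∀ x ∈ C1, x ∈ 𝒪₁)
    (hcl : ∀ x : F1, IsIntegral C1 x → x ∈ C1) (hC : SatChartI ϖ 𝒪 C)
    (𝔪 : Ideal C) (h𝔪 : 𝔪.IsMaximal)
    (h₁ : vert ϖ 𝒪₁ C1 ≤ 𝔪.comap (pull φ C1 C hO.map_mem))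
    (huniq : ∀ 𝔪' : Ideal C, 𝔪'.IsMaximal →
      𝔪.comap (pull φ C1 C hO.map_mem) = 𝔪'.comap (pull φ C1 C hO.map_mem) → 𝔪 = 𝔪')
    {a b : ι} (ha : a ≠ i₀) (hb : b ≠ i₀) :
    haveI := h𝔪.isPrime
    haveI : (𝔪.comap (pull φ C1 C hO.map_mem)).IsPrime := Ideal.comap_isPrime _ _
    Glue.CrossLoc φ Nm (𝒪 a) (𝒪 b) 𝒪₁ (locAt C 𝔪)
      (locAt C1 (𝔪.comap (pull φ C1 C hO.map_mem))) := by
  have hp : 𝔪.IsPrime := h𝔪.isPrime
  have hp' : (𝔪.comap (pull φ C1 C hO.map_mem)).IsPrime := Ideal.comap_isPrime _ _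
  have hlift : ∀ i, i ≠ i₀ → ∀ x ∈ locAt C 𝔪,
      ∃ y ∈ locAt C1 (𝔪.comap (pull φ C1 C hO.map_mem)), x - φ y ∈ (𝒪 i).nonunits := by
    intro i hi x hx
    obtain ⟨s, hs, hc⟩ := hO.exists_denom 𝔪 h𝔪 huniq hx
    obtain ⟨c1, hc1, hcc⟩ := hN.surj i hi _ hc
    have hs0 : (s : F1) ≠ 0 := Loc_coe_ne_zero _ hs
    have hφs0 : φ (s : F1) ≠ 0 := (map_ne_zero φ).2 hs0
    refine ⟨c1 / s, ⟨s, hs, ?_⟩, ?_⟩
    · rw [div_mul_cancel₀ _ hs0]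
      exact hc1
    · have hinv : (φ (s : F1))⁻¹ ∈ 𝒪 i := by
        rw [← map_inv₀, hO.comap i hi]
        exact Loc_inv_mem hG₁ hle₁ _ h₁ hs
      have : x - φ (c1 / s) = (φ (s : F1))⁻¹ * (x * φ s - φ c1) := by
        rw [map_div₀]
        field_simp
      rw [this]
      exact basic_mul_mem_nonunits hinv hcc
  refine ⟨?_, ?_, ?_, ?_, hlift a ha, hlift b hb⟩
  · rintro y ⟨s, hs, hy⟩
    refine ⟨pull φ C1 C hO.map_mem s, hs, ?_⟩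
    rw [coe_pull, ← map_mul]
    exact hO.map_mem _ hy
  · rintro y ⟨s, hs, hy⟩
    have hs0 : (s : F1) ≠ 0 := Loc_coe_ne_zero _ hs
    have : y = y * (s : F1) * (s : F1)⁻¹ := by field_simp
    rw [this]
    exact 𝒪₁.mul_mem _ _ (hle₁ _ hy) (Loc_inv_mem hG₁ hle₁ _ h₁ hs)
  · intro x hx
    obtain ⟨s, hs, hc⟩ := hO.exists_denom 𝔪 h𝔪 huniq hx
    obtain ⟨d, hd⟩ := hN.norm_map
    refine ⟨s ^ d, fun h => hs (hp'.mem_of_pow_mem d h), ?_⟩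
    have h1 := hN.norm_mem _ hc
    rw [map_mul, hd] at h1
    exact h1
  · rintro y n hn ⟨s, hs, hy⟩
    refine ⟨s, hs, hcl _ (IsIntegral.of_pow hn ?_)⟩
    have h2 : (y * (s : F1)) ^ n ∈ C1 := by
      obtain ⟨m, rfl⟩ : ∃ m, n = m + 1 := ⟨n - 1, by omega⟩
      have : (y * (s : F1)) ^ (m + 1) = y ^ (m + 1) * s * (s : F1) ^ m := by ring
      rw [this]
      exact C1.mul_mem hy (C1.pow_mem s.2 m)
    exact isIntegral_algebraMap (R := C1) (x := ⟨_, h2⟩)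

end Fermat.Agent.GT.Loc
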