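import Fermat.Agent.GT.Loc.Unit

/-!
GT-LOC, abstract layer, file `Mid`: how `MidAt` is produced.  A `MidPiece` is a triple `(Y, γ, s₀)`
which works on the open subset `s₀ ≠ 0` of the chart.
-/

set_option autoImplicit false

namespace Fermat.Agent.GT.Loc

open Fermat.Agent.GR.E Fermat.Agent.GS Fermat.Agent.GT

variable {R : Type*} [CommRing R] {F : Type*} [Field F] [Algebra R F] {ι : Type*}
variable {ϖ : R} {𝒪 : ι → ValuationSubring F} {C : Subalgebra R F}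

/-- `Y ^ e / ϖ ≡ - γ` along `𝒪b`, `γ` a unit of `𝒪b`; `s₀ Y ∈ C`, `s₀ γ, s₀ γ⁻¹ ∈ C[1/ϖ]`. -/
def MidPiece (ϖ : R) (e : ℕ) (𝒪b : ValuationSubring F) (C : Subalgebra R F) (s₀ : C) : Prop :=
  ∃ Y γ : F, γ ≠ 0 ∧ (s₀ : F) * Y ∈ C ∧
    (∃ m : ℕ, algebraMap R F ϖ ^ m * ((s₀ : F) * γ) ∈ C) ∧
    (∃ m : ℕ, algebraMap R F ϖ ^ m * ((s₀ : F) * γ⁻¹) ∈ C) ∧ γ ∈ 𝒪b ∧ γ⁻¹ ∈ 𝒪b ∧
    Y ^ e / algebraMap R F ϖ + γ ∈ 𝒪b.nonunits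

/-- change of uniformizer: if `T ≠ 0` is a uniformizer of `V`, `T ^ e / π ∈ V` and `π / Y ^ e ∈ V`,
then `Y` is a uniformizer of `V`.   [`(T / Y) ^ e = (T ^ e / π) * (Y ^ e / π)⁻¹ ∈ V`, and `V` is
integrally closed: `x ^ e ∈ V → x ∈ V`; `x / Y = (x / T) * (T / Y)`.] -/
theorem div_mem_of_uniformizer {V : ValuationSubring F} {e : ℕ} (he : 0 < e) {π T Y : F}
    (hπ : π ≠ 0) (hT0 : T ≠ 0) (hT : ∀ x ∈ V.nonunits, x / T ∈ V) (hTe : T ^ e / π ∈ V)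
    (hY : (Y ^ e / π)⁻¹ ∈ V) : ∀ x ∈ V.nonunits, x / Y ∈ V := by
  intro x hx
  by_cases hY0 : Y = 0
  · rw [hY0, div_zero]
    exact V.zero_mem
  have h1 : (T / Y) ^ e ∈ V := by
    have e1 : (T / Y) ^ e = T ^ e / π * (Y ^ e / π)⁻¹ := by
      rw [div_pow, inv_div, div_mul_div_comm, mul_comm (T ^ e) π,
        mul_div_mul_left _ _ hπ]
    rw [e1]
    exact V.mul_mem _ _ hTe hY
  have h2 : T / Y ∈ V := by
    rcases V.mem_or_inv_mem (T / Y) with h | h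
    · exact h
    · obtain ⟨k, rfl⟩ : ∃ k, e = k + 1 := ⟨e - 1, by omega⟩
      have hTY : T / Y ≠ 0 := div_ne_zero hT0 hY0
      have e2 : T / Y = (T / Y) ^ (k + 1) * ((T / Y)⁻¹) ^ k := by
        rw [pow_succ, inv_pow, mul_right_comm, mul_inv_cancel₀ (pow_ne_zero k hTY), one_mul]
      rw [e2]
      exact V.mul_mem _ _ h1 (V.pow_mem h k)
  have e3 : x / Y = x / T * (T / Y) := by
    rw [div_mul_div_cancel₀ hT0]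
  rw [e3]
  exact V.mul_mem _ _ (hT x hx) h2

/-- `MidPiece` + `s₀ ∉ 𝔪` + (`𝔪` lies only on the component `i₀`) ⟹ `MidAt`.
[`Y ∈ locAt` is clear; `γ, γ⁻¹ ∈ locAt` by the unit principle `mem_locAt_of_forall_mem`.] -/
theorem midAt_of_midPiece [Finite ι] (hV : VertFam ϖ 𝒪) (hC : SatChartI ϖ 𝒪 C) (𝔪 : Ideal C)
    [𝔪.IsPrime] (i₀ : ι) (hone : ∀ i, i ≠ i₀ → ¬ vertI (𝒪 i) C ≤ 𝔪) {e : ℕ} (he : 0 < e)
    {T : F} (hT0 : T ≠ 0) (hT : ∀ x ∈ (𝒪 i₀).nonunits, x / T ∈ 𝒪 i₀)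
    (hTe : T ^ e / algebraMap R F ϖ ∈ 𝒪 i₀)
    {s₀ : C} (hs₀ : s₀ ∉ 𝔪) (hP : MidPiece ϖ e (𝒪 i₀) C s₀) : MidAt ϖ (𝒪 i₀) C 𝔪 e := by
  obtain ⟨Y, γ, hγ0, hsY, ⟨m1, hm1⟩, ⟨m2, hm2⟩, hγ, hγi, hcong⟩ := hP
  have hi : ∀ i, vertI (𝒪 i) C ≤ 𝔪 → i = i₀ := fun i hi => by
    by_contra hne
    exact hone i hne hi
  refine ⟨Y, γ, hγ0, ⟨s₀, hs₀, by rw [mul_comm]; exact hsY⟩,
    mem_locAt_of_forall_mem hV hC 𝔪 hs₀ hm1 (fun i h => by rw [hi i h]; exact hγ),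
    mem_locAt_of_forall_mem hV hC 𝔪 hs₀ hm2 (fun i h => by rw [hi i h]; exact hγi), hcong, ?_⟩
  refine div_mem_of_uniformizer he hV.ne_zero hT0 hT hTe ?_
  by_contra hcon
  have h1 : Y ^ e / algebraMap R F ϖ ∈ (𝒪 i₀).nonunits :=
    ((𝒪 i₀).mem_nonunits_iff_or).2 (Or.inr hcon)
  have h2 : γ ∈ (𝒪 i₀).nonunits := by
    have e1 : γ = (Y ^ e / algebraMap R F ϖ + γ) + -(Y ^ e / algebraMap R F ϖ) := by ring
    rw [e1]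
    refine (𝒪 i₀).nonunits.add_mem hcong ?_
    rw [ValuationSubring.mem_nonunits_iff] at h1 ⊢
    rwa [Valuation.map_neg]
  rcases ((𝒪 i₀).mem_nonunits_iff_or).1 h2 with h | h
  · exact hγ0 h
  · exact h hγi

end Fermat.Agent.GT.Loc
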