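import Fermat.Agent.GT.Loc.Reg
import Fermat.Agent.GT.Loc.Cross
import Fermat.Agent.GT.Loc.Mid
import Fermat.Agent.GT.Abs.LocGen

/-!
GT-LOC, abstract layer, file `Export`: THE EXPORTS OF LOC in the shape consumed by GT-GLUE
(`Glue.PointsOK`, `Glue.LocFree`).
-/

set_option autoImplicit false

namespace Fermat.Agent.GT.Loc

open Fermat.Agent.GR.E Fermat.Agent.GS Fermat.Agent.GT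

variable {R : Type*} [CommRing R] {F1 F : Type*} [Field F1] [Field F] [Algebra R F1] [Algebra R F]
variable {ϖ : R} {e : ℕ} {φ₁ φ₂ : F1 →ₐ[R] F} {𝒪oo 𝒪0 : ValuationSubring F1}
  {C1 : Subalgebra R F1} {𝒪 : Fin 3 → ValuationSubring F} {C : Subalgebra R F}

theorem regAt_iff (𝔪 : Ideal C) :
    RegAt 𝒪 C 𝔪 ↔ ∃ i, vertI (𝒪 i) C ≤ 𝔪 ∧ ∃ X : C, PrincipalAt (𝒪 i) C 𝔪 X := Iff.rfl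

/-- `Level2.mid` from a covering by `MidPiece`s. -/
theorem mid_of_midPieces (hV : VertFam ϖ 𝒪) (hC : SatChartI ϖ 𝒪 C) (he : 0 < e)
    {T : F} (hT0 : T ≠ 0) (hT : ∀ x ∈ (𝒪 1).nonunits, x / T ∈ 𝒪 1)
    (hTe : T ^ e / algebraMap R F ϖ ∈ 𝒪 1)
    (hcov : ∀ 𝔪 : Ideal C, 𝔪.IsMaximal → vertI (𝒪 1) C ≤ 𝔪 → ¬ vertI (𝒪 0) C ≤ 𝔪 →
      ¬ vertI (𝒪 2) C ≤ 𝔪 → ∃ s₀ : C, s₀ ∉ 𝔪 ∧ MidPiece ϖ e (𝒪 1) C s₀) :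
    ∀ (𝔪 : Ideal C) (h : 𝔪.IsMaximal), vertI (𝒪 1) C ≤ 𝔪 → ¬ vertI (𝒪 0) C ≤ 𝔪 →
      ¬ vertI (𝒪 2) C ≤ 𝔪 → haveI := h.isPrime; MidAt ϖ (𝒪 1) C 𝔪 e := by
  intro 𝔪 h h1 h0 h2
  have := h.isPrime
  obtain ⟨s₀, hs₀, hP⟩ := hcov 𝔪 h h1 h0 h2
  refine midAt_of_midPiece hV hC 𝔪 1 ?_ he hT0 hT hTe hs₀ hP
  intro i hi
  fin_cases i
  · exact h0
  · exact absurd rfl hi
  · exact h2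

/-- EXPORT 1: the closed points of the special fibre (`ii = 0`, `im = 1`, `iz = 2`). -/
theorem Level2.pointsOK (H : Level2 ϖ e φ₁ φ₂ 𝒪oo 𝒪0 C1 𝒪 C) {N1 N2 : F →* F1}
    (hN1 : OverNorm φ₁ C1 𝒪 C 2 N1) (hN2 : OverNorm φ₂ C1 𝒪 C 0 N2)
    (hcl : ∀ x : F1, IsIntegral C1 x → x ∈ C1) :
    Glue.PointsOK ϖ 𝒪 0 1 2 𝒪oo 𝒪0 φ₁ φ₂ N1 N2 C := by
  intro 𝔪 h𝔪 _
  by_cases hex : ∃ i j : Fin 3, i ≠ j ∧ vertI (𝒪 i) C ≤ 𝔪 ∧ vertI (𝒪 j) C ≤ 𝔪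
  · obtain ⟨i, j, hij, hi, hj⟩ := hex
    have h3 := H.inc 𝔪 h𝔪 hij hi hj
    have c1 := H.over₁.crossLoc hN1 H.gauss_oo H.le_oo hcl H.sat 𝔪 h𝔪
        (H.node₁ 𝔪 (h3 2) (Or.inl (h3 0))).1
        (fun 𝔪' h𝔪' h => H.unique₁ 𝔪 𝔪' h𝔪 h𝔪' h3 h) (a := 0) (b := 1) (by decide) (by decide)
    have c2 := H.over₂.crossLoc hN2 H.gauss_0 H.le_0 hcl H.sat 𝔪 h𝔪
        (H.node₂ 𝔪 (h3 0) (Or.inl (h3 1))).2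
        (fun 𝔪' h𝔪' h => H.unique₂ 𝔪 𝔪' h𝔪 h𝔪' h3 h) (a := 2) (b := 1) (by decide) (by decide)
    exact Or.inr ⟨h3, ⟨_, c1⟩, ⟨_, c2⟩⟩
  · left
    by_cases hne : ∃ i, vertI (𝒪 i) C ≤ 𝔪
    · obtain ⟨i₁, hi₁⟩ := hne
      refine ⟨i₁, fun i hi => ?_⟩
      by_contra hcon
      exact hex ⟨i, i₁, hcon, hi, hi₁⟩
    · exact ⟨0, fun i hi => absurd ⟨i, hi⟩ hne⟩

/-- EXPORT 2: local freeness. -/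
theorem Level2.exists_locGen [IsDomain R] [IsDiscreteValuationRing R]
    (H : Level2 ϖ e φ₁ φ₂ 𝒪oo 𝒪0 C1 𝒪 C) (hϖ : Irreducible ϖ) (hC : MultiChart ϖ 𝒪 C)
    {n : ℕ} (hn : 0 < n) {w : F} (hw : ∀ i, w ∈ 𝒪 i) (hw' : ∀ i, w⁻¹ ∈ 𝒪 i) (hw0 : w ≠ 0)
    (hdiv : DivisibleAtPlaces R n w) (𝔪 : Ideal C) (h𝔪 : 𝔪.IsMaximal)
    (hϖ𝔪 : algebraMap R C ϖ ∈ 𝔪) :
    haveI := h𝔪.isPrime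
    ∃ a : F, a ≠ 0 ∧ a ^ n * w ∈ locAt C 𝔪 ∧ (a ^ n * w)⁻¹ ∈ locAt C 𝔪 :=
  exists_locGen' hϖ H.vertFam hC hn hw hw' hw0 hdiv 𝔪 h𝔪 hϖ𝔪 (H.regAt 𝔪 h𝔪 hϖ𝔪)

end Fermat.Agent.GT.Loc
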