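import Fermat.Agent.GT.Loc.Three
import Fermat.Agent.GT.Loc.Export
import Fermat.Agent.GT.Glue.GeoDefs

/-!
GT-LOC, semi-abstract layer, file `MidThree`: the two `MidPiece`s covering the points which lie only
on the middle component (blueprint #1030 (9) "b only"), and the ASSEMBLY of `Level2`.

`τ = t ∈ F0` the base function of the chart, `V τ = w1 τ`, `V² τ = w2 τ`.
* away from the cusps (`τ ∉ 𝔪`): `Y = V² s - s`, `γ = γ₀`, `s₀ = (τ V²τ)^k`;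
* at the cusps (`τ ∈ 𝔪`): `Y = V² τ / τ - 1`, `γ = γ_t`, `s₀ = e s₁`, `e = τ^q / V τ`.
-/

set_option autoImplicit false

namespace Fermat.Agent.GT.Loc

open Fermat.Agent.GR.E Fermat.Agent.GS Fermat.Agent.GT

variable {R : Type*} [CommRing R] [IsDomain R] [IsDiscreteValuationRing R]
  {F0 F1 F : Type*} [Field F0] [Field F1] [Field F]
  [Algebra R F0] [Algebra R F1] [Algebra R F] [Algebra F0 F1] [Algebra F1 F] [Algebra F0 F]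
  [IsScalarTower R F0 F1] [IsScalarTower R F1 F] [IsScalarTower R F0 F] [IsScalarTower F0 F1 F]

local notation "C1[" t "]" => GR.E.chart R ({algebraMap F0 F1 t} : Set F1)
local notation "C2[" t "]" => GR.E.chart R ({algebraMap F0 F t} : Set F)

/-- The inputs at the middle component, for one chart (from UNIT + VAL). -/
structure MidIn (ϖ : R) (q : ℕ) (𝒪oo : ValuationSubring F1) (𝒪 : Fin 3 → ValuationSubring F)
    (w1 : F1 ≃ₐ[R] F1) (w2 : F ≃ₐ[R] F) (t : F0) : Prop where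
  one_lt : 1 < q
  /-- a uniformizer of the middle valuation ring (`Val.MidData.unif_mid`, `T_ne`, `T_ram'`) -/
  unif : ∃ T : F, T ≠ 0 ∧ (∀ x ∈ (𝒪 1).nonunits, x / T ∈ 𝒪 1) ∧
    T ^ (q - 1) / algebraMap R F ϖ ∈ 𝒪 1
  /-- away from the cusps: `s`, `γ = γ₀` -/
  nc : ∃ (s : F0) (γ : F1) (k : ℕ), γ ≠ 0 ∧ t ^ k * s ∈ GR.E.chart R ({t} : Set F0) ∧
    (∃ m : ℕ, algebraMap R F1 ϖ ^ m * (algebraMap F0 F1 t ^ k * γ) ∈ C1[t]) ∧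
    (∃ m : ℕ, algebraMap R F1 ϖ ^ m * (algebraMap F0 F1 t ^ k * γ⁻¹) ∈ C1[t]) ∧
    γ ∈ 𝒪oo ∧ γ⁻¹ ∈ 𝒪oo ∧
    (w2 (algebraMap F0 F s) - algebraMap F0 F s) ^ (q - 1) / algebraMap R F ϖ +
      algebraMap F1 F γ ∈ (𝒪 1).nonunits
  /-- at the cusps: `e = τ^q / V τ`, `γ = γ_t`, `s₁` a denominator of `γ_t^{±1}` which does not
  vanish at the cusps of the component `∞` of level `q N₀` -/
  cusp : ∃ e γ s₁ : F1, e ∈ C1[t] ∧ e * w1 (algebraMap F0 F1 t) = algebraMap F0 F1 t ^ q ∧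
    e - 1 ∈ 𝒪oo.nonunits ∧ γ ≠ 0 ∧
    (∃ h : s₁ ∈ C1[t], ∀ 𝔫 : Ideal C1[t], 𝔫.IsPrime → vert ϖ 𝒪oo C1[t] ≤ 𝔫 →
      (⟨algebraMap F0 F1 t, Val.subset_chart rfl⟩ : C1[t]) ∈ 𝔫 → (⟨s₁, h⟩ : C1[t]) ∉ 𝔫) ∧
    (∃ m : ℕ, algebraMap R F1 ϖ ^ m * (s₁ * γ) ∈ C1[t]) ∧
    (∃ m : ℕ, algebraMap R F1 ϖ ^ m * (s₁ * γ⁻¹) ∈ C1[t]) ∧ γ ∈ 𝒪oo ∧ γ⁻¹ ∈ 𝒪oo ∧
    (w2 (algebraMap F0 F t) / algebraMap F0 F t - 1) ^ (q - 1) / algebraMap R F ϖ +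
      algebraMap F1 F γ ∈ (𝒪 1).nonunits

variable {ϖ : R} {q : ℕ} {𝒪0 : ValuationSubring F0} {𝒪oo 𝒪z : ValuationSubring F1}
  {𝒪 : Fin 3 → ValuationSubring F} {w1 : F1 ≃ₐ[R] F1} {w2 : F ≃ₐ[R] F} {t : F0}

/-- `C1 ⊆ 𝒪oo`. -/
theorem MidThree_le_oo (H : Three ϖ q 𝒪0 𝒪oo 𝒪z 𝒪 w1 w2 t) : ∀ x ∈ C1[t], x ∈ 𝒪oo := fun x hx =>
  (H.comap1 x).1 (H.chart.le H.tower 1 _ (algebraMap_mem_chart₁₂ hx))

/-- nonunits of `𝒪oo` map to nonunits of the middle valuation ring. -/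
theorem MidThree_map_nonunits (H : Three ϖ q 𝒪0 𝒪oo 𝒪z 𝒪 w1 w2 t) {x : F1}
    (hx : x ∈ 𝒪oo.nonunits) : algebraMap F1 F x ∈ (𝒪 1).nonunits := by
  rw [Over_mem_nonunits_iff] at hx ⊢
  rw [← map_inv₀, H.comap1, map_eq_zero]
  exact hx

/-- `V² τ ≡ τ` on the middle component. -/
theorem MidThree_sub_mem (H : Three ϖ q 𝒪0 𝒪oo 𝒪z 𝒪 w1 w2 t) :
    (⟨w2 (algebraMap F0 F t), H.stable2 _ (Val.subset_chart rfl)⟩ : C2[t]) -
      ⟨algebraMap F0 F t, Val.subset_chart rfl⟩ ∈ vertI (𝒪 1) C2[t] :=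
  Ideal.subset_span (H.mid_sq t (H.chart.good.le _ (Val.subset_chart rfl)))

/-- `e * V²τ / τ ∈ C`: its `q`-th power is `e^(q-1) * w2 e`. -/
theorem Three.mul_div_mem (H : Three ϖ q 𝒪0 𝒪oo 𝒪z 𝒪 w1 w2 t) {e : F1} (he : e ∈ C1[t])
    (ht : t ≠ 0) (hew : e * w1 (algebraMap F0 F1 t) = algebraMap F0 F1 t ^ q) :
    algebraMap F1 F e * (w2 (algebraMap F0 F t) / algebraMap F0 F t) ∈ C2[t] := by
  have hq := H.q_pos
  have hτ : algebraMap F0 F t = algebraMap F1 F (algebraMap F0 F1 t) :=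
    IsScalarTower.algebraMap_apply F0 F1 F t
  have hτ0 : algebraMap F0 F t ≠ 0 := (map_ne_zero _).2 ht
  have hτ10 : algebraMap F0 F1 t ≠ 0 := (map_ne_zero _).2 ht
  have hprod : e * w1 (algebraMap F0 F1 t) ≠ 0 := by
    rw [hew]
    exact pow_ne_zero _ hτ10
  have he0 : algebraMap F1 F e ≠ 0 := (map_ne_zero _).2 (left_ne_zero_of_mul hprod)
  have hw0 : algebraMap F1 F (w1 (algebraMap F0 F1 t)) ≠ 0 :=
    (map_ne_zero _).2 (right_ne_zero_of_mul hprod)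
  have h1 : algebraMap F1 F e * algebraMap F1 F (w1 (algebraMap F0 F1 t)) =
      algebraMap F0 F t ^ q := by
    rw [← map_mul, hew, map_pow, ← hτ]
  have h2 : w2 (algebraMap F1 F e) * algebraMap F1 F (w1 (algebraMap F0 F1 t)) =
      w2 (algebraMap F0 F t) ^ q := by
    have := congrArg w2 h1
    rwa [map_mul, map_pow, H.fix_V t] at this
  have heC : algebraMap F1 F e ∈ C2[t] := algebraMap_mem_chart₁₂ he
  have hweC : w2 (algebraMap F1 F e) ∈ C2[t] := H.stable2 _ heC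
  obtain ⟨k, rfl⟩ : ∃ k, q = k + 1 := ⟨q - 1, by omega⟩
  have hpow : (algebraMap F1 F e * (w2 (algebraMap F0 F t) / algebraMap F0 F t)) ^ (k + 1) =
      algebraMap F1 F e ^ k * w2 (algebraMap F1 F e) := by
    rw [mul_pow, div_pow, ← h1, ← h2, pow_succ]
    field_simp
  have hmem : (algebraMap F1 F e * (w2 (algebraMap F0 F t) / algebraMap F0 F t)) ^ (k + 1) ∈
      C2[t] := by
    rw [hpow]
    exact Subalgebra.mul_mem _ (Subalgebra.pow_mem _ heC k) hweC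
  exact Val.chart_closed _ _
    (IsIntegral.of_pow hq (isIntegral_algebraMap (R := C2[t]) (x := ⟨_, hmem⟩)))

/-- the piece away from the cusps. -/
theorem Three.exists_midPiece_nc (H : Three ϖ q 𝒪0 𝒪oo 𝒪z 𝒪 w1 w2 t)
    (M : MidIn ϖ q 𝒪oo 𝒪 w1 w2 t) :
    ∃ s₀ : C2[t], MidPiece ϖ (q - 1) (𝒪 1) C2[t] s₀ ∧
      ∀ 𝔪 : Ideal C2[t], 𝔪.IsPrime → vertI (𝒪 1) C2[t] ≤ 𝔪 →
        (⟨algebraMap F0 F t, Val.subset_chart rfl⟩ : C2[t]) ∉ 𝔪 → s₀ ∉ 𝔪 := by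
  obtain ⟨s, γ, k, hγ0, hs, ⟨m1, hm1⟩, ⟨m2, hm2⟩, hγ, hγi, hcong⟩ := M.nc
  have hτ : algebraMap F0 F t = algebraMap F1 F (algebraMap F0 F1 t) :=
    IsScalarTower.algebraMap_apply F0 F1 F t
  have hϖ' : algebraMap R F ϖ = algebraMap F1 F (algebraMap R F1 ϖ) :=
    IsScalarTower.algebraMap_apply R F1 F ϖ
  have hτC : algebraMap F0 F t ∈ C2[t] := Val.subset_chart rfl
  have hwτC : w2 (algebraMap F0 F t) ∈ C2[t] := H.stable2 _ hτC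
  have hsC : algebraMap F0 F t ^ k * algebraMap F0 F s ∈ C2[t] := by
    rw [← map_pow, ← map_mul]
    exact Val.algebraMap_mem_chart hs
  refine ⟨(⟨algebraMap F0 F t, hτC⟩ : C2[t]) ^ k * (⟨w2 (algebraMap F0 F t), hwτC⟩ : C2[t]) ^ k,
    ⟨w2 (algebraMap F0 F s) - algebraMap F0 F s, algebraMap F1 F γ, (map_ne_zero _).2 hγ0, ?_,
      ⟨m1, ?_⟩, ⟨m2, ?_⟩, (H.comap1 γ).2 hγ, ?_, hcong⟩, ?_⟩
  · have e1 : (((⟨algebraMap F0 F t, hτC⟩ : C2[t]) ^ k *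
        (⟨w2 (algebraMap F0 F t), hwτC⟩ : C2[t]) ^ k : C2[t]) : F) *
        (w2 (algebraMap F0 F s) - algebraMap F0 F s) =
        algebraMap F0 F t ^ k * w2 (algebraMap F0 F t ^ k * algebraMap F0 F s) -
          w2 (algebraMap F0 F t) ^ k * (algebraMap F0 F t ^ k * algebraMap F0 F s) := by
      rw [map_mul, map_pow]
      push_cast
      ring
    rw [e1]
    exact Subalgebra.sub_mem _ (Subalgebra.mul_mem _ (Subalgebra.pow_mem _ hτC k) (H.stable2 _ hsC))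
      (Subalgebra.mul_mem _ (Subalgebra.pow_mem _ hwτC k) hsC)
  · have e1 : algebraMap R F ϖ ^ m1 * ((((⟨algebraMap F0 F t, hτC⟩ : C2[t]) ^ k *
        (⟨w2 (algebraMap F0 F t), hwτC⟩ : C2[t]) ^ k : C2[t]) : F) * algebraMap F1 F γ) =
        w2 (algebraMap F0 F t) ^ k *
          algebraMap F1 F (algebraMap R F1 ϖ ^ m1 * (algebraMap F0 F1 t ^ k * γ)) := by
      rw [map_mul, map_mul, map_pow, map_pow, ← hτ, ← hϖ']
      push_cast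
      ring
    rw [e1]
    exact Subalgebra.mul_mem _ (Subalgebra.pow_mem _ hwτC k) (algebraMap_mem_chart₁₂ hm1)
  · have e1 : algebraMap R F ϖ ^ m2 * ((((⟨algebraMap F0 F t, hτC⟩ : C2[t]) ^ k *
        (⟨w2 (algebraMap F0 F t), hwτC⟩ : C2[t]) ^ k : C2[t]) : F) * (algebraMap F1 F γ)⁻¹) =
        w2 (algebraMap F0 F t) ^ k *
          algebraMap F1 F (algebraMap R F1 ϖ ^ m2 * (algebraMap F0 F1 t ^ k * γ⁻¹)) := by
      rw [map_mul, map_mul, map_pow, map_pow, map_inv₀, ← hτ, ← hϖ']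
      push_cast
      ring
    rw [e1]
    exact Subalgebra.mul_mem _ (Subalgebra.pow_mem _ hwτC k) (algebraMap_mem_chart₁₂ hm2)
  · rw [← map_inv₀]
    exact (H.comap1 _).2 hγi
  · intro 𝔪 h𝔪 hle hτ𝔪 hmem
    rcases h𝔪.mem_or_mem hmem with h | h
    · exact hτ𝔪 (h𝔪.mem_of_pow_mem k h)
    · apply hτ𝔪
      have h1 := h𝔪.mem_of_pow_mem k h
      have h2 := 𝔪.sub_mem h1 (hle (MidThree_sub_mem H))
      rwa [sub_sub_cancel] at h2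

/-- the piece at the cusps. -/
theorem Three.exists_midPiece_cusp (H : Three ϖ q 𝒪0 𝒪oo 𝒪z 𝒪 w1 w2 t) (ht : t ≠ 0)
    (M : MidIn ϖ q 𝒪oo 𝒪 w1 w2 t) :
    ∃ s₀ : C2[t], MidPiece ϖ (q - 1) (𝒪 1) C2[t] s₀ ∧
      ∀ 𝔪 : Ideal C2[t], 𝔪.IsPrime → vertI (𝒪 1) C2[t] ≤ 𝔪 →
        (⟨algebraMap F0 F t, Val.subset_chart rfl⟩ : C2[t]) ∈ 𝔪 → s₀ ∉ 𝔪 := by
  obtain ⟨e, γ, s₁, he, hew, he1, hγ0, ⟨hs₁, hs₁𝔫⟩, ⟨m1, hm1⟩, ⟨m2, hm2⟩, hγ, hγi, hcong⟩ := M.cusp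
  have hτ : algebraMap F0 F t = algebraMap F1 F (algebraMap F0 F1 t) :=
    IsScalarTower.algebraMap_apply F0 F1 F t
  have hϖ' : algebraMap R F ϖ = algebraMap F1 F (algebraMap R F1 ϖ) :=
    IsScalarTower.algebraMap_apply R F1 F ϖ
  have heC : algebraMap F1 F e ∈ C2[t] := algebraMap_mem_chart₁₂ he
  have hsC : algebraMap F1 F s₁ ∈ C2[t] := algebraMap_mem_chart₁₂ hs₁
  have hdiv := H.mul_div_mem he ht hew
  refine ⟨(⟨algebraMap F1 F e, heC⟩ : C2[t]) * (⟨algebraMap F1 F s₁, hsC⟩ : C2[t]),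
    ⟨w2 (algebraMap F0 F t) / algebraMap F0 F t - 1, algebraMap F1 F γ, (map_ne_zero _).2 hγ0, ?_,
      ⟨m1, ?_⟩, ⟨m2, ?_⟩, (H.comap1 γ).2 hγ, ?_, hcong⟩, ?_⟩
  · have e1 : (((⟨algebraMap F1 F e, heC⟩ : C2[t]) * (⟨algebraMap F1 F s₁, hsC⟩ : C2[t]) : C2[t]) :
        F) * (w2 (algebraMap F0 F t) / algebraMap F0 F t - 1) =
        algebraMap F1 F s₁ * (algebraMap F1 F e * (w2 (algebraMap F0 F t) / algebraMap F0 F t)) -
          algebraMap F1 F s₁ * algebraMap F1 F e := by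
      push_cast
      ring
    rw [e1]
    exact Subalgebra.sub_mem _ (Subalgebra.mul_mem _ hsC hdiv) (Subalgebra.mul_mem _ hsC heC)
  · have e1 : algebraMap R F ϖ ^ m1 * ((((⟨algebraMap F1 F e, heC⟩ : C2[t]) *
        (⟨algebraMap F1 F s₁, hsC⟩ : C2[t]) : C2[t]) : F) * algebraMap F1 F γ) =
        algebraMap F1 F e * algebraMap F1 F (algebraMap R F1 ϖ ^ m1 * (s₁ * γ)) := by
      rw [map_mul, map_mul, map_pow, ← hϖ']
      push_cast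
      ring
    rw [e1]
    exact Subalgebra.mul_mem _ heC (algebraMap_mem_chart₁₂ hm1)
  · have e1 : algebraMap R F ϖ ^ m2 * ((((⟨algebraMap F1 F e, heC⟩ : C2[t]) *
        (⟨algebraMap F1 F s₁, hsC⟩ : C2[t]) : C2[t]) : F) * (algebraMap F1 F γ)⁻¹) =
        algebraMap F1 F e * algebraMap F1 F (algebraMap R F1 ϖ ^ m2 * (s₁ * γ⁻¹)) := by
      rw [map_mul, map_mul, map_pow, map_inv₀, ← hϖ']
      push_cast
      ring
    rw [e1]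
    exact Subalgebra.mul_mem _ heC (algebraMap_mem_chart₁₂ hm2)
  · rw [← map_inv₀]
    exact (H.comap1 _).2 hγi
  · intro 𝔪 h𝔪 hle hτ𝔪 hmem
    have hC : SatChartI ϖ 𝒪 C2[t] := H.chart.satChartI H.tower
    rcases h𝔪.mem_or_mem hmem with h | h
    · -- `e ≡ 1`
      have h1 : (⟨algebraMap F1 F e, heC⟩ : C2[t]) - 1 ∈ vertI (𝒪 1) C2[t] := by
        refine Ideal.subset_span ?_
        show algebraMap F1 F e - 1 ∈ (𝒪 1).nonunits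
        have := MidThree_map_nonunits H he1
        rwa [map_sub, map_one] at this
      have h2 := 𝔪.sub_mem h (hle h1)
      rw [sub_sub_cancel] at h2
      exact h𝔪.ne_top ((Ideal.eq_top_iff_one _).2 h2)
    · have hO := H.over₁
      have hcomap := hO.comap_vertI H.gauss_oo (MidThree_le_oo H) hC 1 (by decide)
      refine hs₁𝔫 (𝔪.comap (pull (phiOne R F1 F) C1[t] C2[t] hO.map_mem)) (Ideal.comap_isPrime _ _)
        ?_ ?_ ?_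
      · rw [← hcomap]
        exact Ideal.comap_mono hle
      · rw [Ideal.mem_comap]
        have e2 : pull (phiOne R F1 F) C1[t] C2[t] hO.map_mem
            (⟨algebraMap F0 F1 t, Val.subset_chart rfl⟩ : C1[t]) =
            (⟨algebraMap F0 F t, Val.subset_chart rfl⟩ : C2[t]) := Subtype.ext hτ.symm
        rw [e2]
        exact hτ𝔪
      · rw [Ideal.mem_comap]
        have e2 : pull (phiOne R F1 F) C1[t] C2[t] hO.map_mem (⟨s₁, hs₁⟩ : C1[t]) =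
            (⟨algebraMap F1 F s₁, hsC⟩ : C2[t]) := Subtype.ext rfl
        rw [e2]
        exact h

/-- ASSEMBLY. -/
theorem Three.level2 (H : Three ϖ q 𝒪0 𝒪oo 𝒪z 𝒪 w1 w2 t) (ht : t ≠ 0)
    (M : MidIn ϖ q 𝒪oo 𝒪 w1 w2 t) (hle_oo : ∀ x ∈ C1[t], x ∈ 𝒪oo) (hle_z : ∀ x ∈ C1[t], x ∈ 𝒪z)
    (hnode : ∀ 𝔫 : Ideal C1[t], 𝔫.IsMaximal → vert ϖ 𝒪oo C1[t] ≤ 𝔫 → vert ϖ 𝒪z C1[t] ≤ 𝔫 →
      RegNode ϖ 𝒪oo 𝒪z C1[t] 𝔫) :
    Level2 ϖ (q - 1) (phiOne R F1 F) (phiTwo w1 w2) 𝒪oo 𝒪z C1[t] 𝒪 C2[t] := by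
  have he : 0 < q - 1 := Nat.sub_pos_of_lt M.one_lt
  have hV : VertFam ϖ 𝒪 := H.tower.vertFam
  have hC : SatChartI ϖ 𝒪 C2[t] := H.chart.satChartI H.tower
  obtain ⟨T, hT0, hT, hTe⟩ := M.unif
  obtain ⟨s₀, hP, hs₀⟩ := H.exists_midPiece_nc M
  obtain ⟨s₀', hP', hs₀'⟩ := H.exists_midPiece_cusp ht M
  exact
    { e_pos := he
      vertFam := hV
      sat := hC
      gauss_oo := H.gauss_oo
      gauss_0 := H.gauss_z
      le_oo := hle_oo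
      le_0 := hle_z
      over₁ := H.over₁
      over₂ := H.over₂
      node := hnode
      mid := mid_of_midPieces hV hC he hT0 hT hTe (fun 𝔪 h𝔪 h1 _ _ => by
        by_cases hτ : (⟨algebraMap F0 F t, Val.subset_chart rfl⟩ : C2[t]) ∈ 𝔪
        · exact ⟨s₀', hs₀' 𝔪 h𝔪.isPrime h1 hτ, hP'⟩
        · exact ⟨s₀, hs₀ 𝔪 h𝔪.isPrime h1 hτ, hP⟩) }

/-- EXPORT to GLUE, for one chart. -/
theorem Three.export (hϖ : Irreducible ϖ)
    (H : Three ϖ q 𝒪0 𝒪oo 𝒪z 𝒪 w1 w2 t) (ht : t ≠ 0)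
    (M : MidIn ϖ q 𝒪oo 𝒪 w1 w2 t) (hle_oo : ∀ x ∈ C1[t], x ∈ 𝒪oo) (hle_z : ∀ x ∈ C1[t], x ∈ 𝒪z)
    (hnode : ∀ 𝔫 : Ideal C1[t], 𝔫.IsMaximal → vert ϖ 𝒪oo C1[t] ≤ 𝔫 → vert ϖ 𝒪z C1[t] ≤ 𝔫 →
      RegNode ϖ 𝒪oo 𝒪z C1[t] 𝔫) :
    Glue.PointsOK ϖ 𝒪 0 1 2 𝒪oo 𝒪z (phiOne R F1 F) (phiTwo w1 w2) (nmOne F1 F) (nmTwo w1 w2)
        C2[t] ∧
      Glue.RegPts ϖ 𝒪 C2[t] :=
  have L := H.level2 ht M hle_oo hle_z hnode
  ⟨L.pointsOK (H.overNorm₁ hϖ) (H.overNorm₂ hϖ) (Val.chart_closed _),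
    fun 𝔪 h𝔪 hm => L.regAt 𝔪 h𝔪 hm⟩

end Fermat.Agent.GT.Loc
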