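import Fermat.Agent.GT.Loc.N1Defs
import Fermat.Agent.C36.Unit.Case
import Fermat.Agent.GS.Inst.ChartH
import Fermat.Agent.GR.D.Top.Main

/-!
# GT-LOC (L2-node), concrete layer, file N1CChart: `TowerChart` for `τ = t ^ ε`, `t = c.tF`

`towerChart_baseFn` (GS-INST) with `H = Lib.Hauptmodul.h2 / h3`, `IsHaupt` from `isHaupt_h2 / isHaupt_h3`,
`ModelData` from `(D.Top.hasModel_h2 N0 _ q hq hqN A hA).model L hdvr`; the element `⟨baseFn L H, _⟩` is `c.tF L hr0`
(`Subtype.ext`, `D.Top.CaseH2_baseFn`, `caseH3_…`); `zpow_one`, `zpow_neg_one`; `CharP` from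
`D.Top.charP_residueField`; `IsWQ` from `GS.Inst.isWQ_wQ` with `ι := S24.iotaC.comp (algebraMap L Qb)`.
-/

set_option autoImplicit false
set_option synthInstance.maxHeartbeats 400000

namespace Fermat.Agent.GT.Loc

open Fermat.Agent.GR Fermat.Agent.GR.E Fermat.Agent.GR.D.Vert Fermat.Agent.GS Fermat.Agent.GS.Inst
  Fermat.Agent.C36.Unit ModularCurve IntermediateField

set_option maxHeartbeats 2000000 in
theorem N1C_towerChart (c : BaseCase) {q N0 : ℕ} [NeZero q] [NeZero N0] [NeZero (q * N0)]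
    (hq : q.Prime) (hqN : ¬ q ∣ N0) (hr0 : c.r ∣ N0) (A : ValuationSubring Qb)
    (hA : A.LiesOverPrime q) (L : IntermediateField ℚ Qb) [FiniteDimensional ℚ L]
    [IsDiscreteValuationRing (A.comap (algebraMap L Qb))] {ϖ : A.comap (algebraMap L Qb)}
    (hϖ : Irreducible ϖ) (ε : ℤ) (hε : ε = 1 ∨ ε = -1) :
    TowerChart ϖ (gaussO (A.comap (algebraMap L Qb)) N0) (gaussO (A.comap (algebraMap L Qb)) (q * N0))
      ((GT.EMB.wQ L q N0).restrictScalars (A.comap (algebraMap L Qb))) q (c.tF L hr0 ^ ε) := by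
  have : CharP (IsLocalRing.ResidueField (A.comap (algebraMap L Qb))) q :=
    GR.D.Top.charP_residueField A q hq hA L
  have hw : IsWQ L q N0 (GT.EMB.wQ L q N0) :=
    GS.Inst.isWQ_wQ (Fermat.Agent.S24.iotaC.comp (algebraMap L Qb)) hq hqN
  cases c
  · have hM := GR.D.Top.hasModel_h2 N0 hr0 q hq hqN A hA
    obtain ⟨𝒪, M⟩ := hM.model L inferInstance
    have key := GS.Inst.towerChart_baseFn isHaupt_h2 hq hqN hr0 (hM.mem L) M hw hϖ
    have e : (⟨baseFn L Fermat.Agent.Lib.Hauptmodul.h2, hM.mem L⟩ : FF L N0) =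
        BaseCase.two.tF L hr0 := Subtype.ext (GR.D.Top.CaseH2_baseFn L)
    rw [e] at key
    rcases hε with rfl | rfl
    · rw [zpow_one]; exact key.1
    · rw [zpow_neg_one]; exact key.2
  · have hM := GR.D.Top.hasModel_h3 N0 hr0 q hq hqN A hA
    obtain ⟨𝒪, M⟩ := hM.model L inferInstance
    have key := GS.Inst.towerChart_baseFn isHaupt_h3 hq hqN hr0 (hM.mem L) M hw hϖ
    have e : (⟨baseFn L Fermat.Agent.Lib.Hauptmodul.h3, hM.mem L⟩ : FF L N0) =
        BaseCase.three.tF L hr0 := Subtype.ext (GR.D.Top.caseH3_baseFn L)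
    rw [e] at key
    rcases hε with rfl | rfl
    · rw [zpow_one]; exact key.1
    · rw [zpow_neg_one]; exact key.2

end Fermat.Agent.GT.Loc
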