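import Fermat.Agent.GT.Loc.N1Defs
import Fermat.Agent.C36.Unit.Gamma
import Fermat.Agent.GS.Inst.Setup

/-!
# GT-LOC (L2-node), concrete layer, file N1CDer: the derivation `D = θ / θ s`

* `N1C_isGInt_Dd`  : `D` preserves the Gauss ring `R((X))_(ϖ)` inside `L((X))`;
* `N1C_Dd_qExpand` : `D (f(X ^ q)) = q γ₀ (D f)(X ^ q)`.
-/

set_option autoImplicit false
set_option synthInstance.maxHeartbeats 400000

namespace Fermat.Agent.GT.Loc

open Fermat.Agent.GR Fermat.Agent.GR.E Fermat.Agent.GR.D.Vert Fermat.Agent.GS Fermat.Agent.GS.Inst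
  Fermat.Agent.C36.Unit ModularCurve IntermediateField Fermat.Agent.S28

variable (c : BaseCase)

/-- (D1) `D` preserves the Gauss ring. From `embL s * x = embL y`: `embL (s ^ 2) * D x =
embL (s * D y - y * D s)` (`Dd_mul`, `coeffMap_Dd`). -/
theorem N1C_isGInt_Dd {R : Type*} [CommRing R] [IsDomain R] [IsDiscreteValuationRing R]
    {L : Type*} [Field L] [Algebra R L] [IsFractionRing R L] {x : LaurentSeries L}
    (hx : IsGInt R x) : IsGInt R (c.Dd L x) := by
  obtain ⟨s, y, hs, hy⟩ := hx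
  refine ⟨s * s, s * c.Dd R y - y * c.Dd R s, by rw [map_mul]; exact mul_ne_zero hs hs, ?_⟩
  have h1 := congrArg (c.Dd L) hy
  rw [BaseCase.Dd_mul] at h1
  have e1 : c.Dd L (embL R L s) = embL R L (c.Dd R s) := (c.coeffMap_Dd _ s).symm
  have e2 : c.Dd L (embL R L y) = embL R L (c.Dd R y) := (c.coeffMap_Dd _ y).symm
  rw [e1, e2] at h1
  rw [map_mul, map_sub, map_mul, map_mul, ← h1, ← hy]
  ring

/-- `D (f(X ^ q)) = q γ₀ (D f)(X ^ q)` -/
theorem N1C_Dd_qExpand (q : ℕ) [NeZero q] (A : Type*) [CommRing A] (f : LaurentSeries A) :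
    c.Dd A (qExpand A q f) = (q : LaurentSeries A) * c.gamma0 q A * qExpand A q (c.Dd A f) := by
  have h : qExpand A q (c.thS A) * qExpand A q (c.thSInv A) = 1 := by
    rw [← map_mul, c.thS_mul_thSInv, map_one]
  rw [BaseCase.Dd, theta_qExpand, BaseCase.gamma0, BaseCase.Dd, map_mul]
  linear_combination (-(q : LaurentSeries A) * qExpand A q (theta A f) * c.thSInv A) * h

end Fermat.Agent.GT.Loc
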