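import Mathlib

/-!
# GT-LOC (L2-node), concrete layer, file N1CFin: the residue ring of a DVR of a number field is finite

`L` a number field, `R ⊆ L` a valuation subring, `q` a prime number which is not a unit of `R`.
Then `R / q R` is finite.

Proof.  Put `n = [L : ℚ]`.  `V = R ⧸ (q)` is a `ZMod q`-vector space (`ZMod.algebra` / `Module` from `CharP`,
or work with `AddCommGroup` of exponent `q`).  Any `n + 1` elements `x_0 … x_n` of `R` are linearly dependent
over `ℚ`; clear denominators and divide by the gcd: `∑ a_i x_i = 0` with `a_i ∈ ℤ` not all divisible by `q`; reduce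
mod `q`.  So `dim V ≤ n` (`rank_le`), and `V` is finite (`Module.finite_of_finite`).
-/

set_option autoImplicit false

namespace Fermat.Agent.GT.Loc

theorem N1CFin_finite_of_rank {q : ℕ} [Fact q.Prime] {V : Type*} [AddCommGroup V]
    [Module (ZMod q) V] {n : ℕ} (h : Module.rank (ZMod q) V ≤ n) : Finite V := by
  have hlt : Module.rank (ZMod q) V < Cardinal.aleph0 :=
    lt_of_le_of_lt h (Cardinal.natCast_lt_aleph0)
  have hfin : Module.Finite (ZMod q) V := Module.rank_lt_aleph0_iff.1 hlt
  exact Module.finite_of_finite (ZMod q)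

theorem N1C_finite_quot {L : Type*} [Field L] [CharZero L] [FiniteDimensional ℚ L]
    (R : ValuationSubring L) {q : ℕ} (hq : q.Prime) :
    Finite (R ⧸ Ideal.span {((q : ℕ) : R)}) := by
  classical
  have : Fact q.Prime := ⟨hq⟩
  set I : Ideal R := Ideal.span {((q : ℕ) : R)} with hI
  have hq0 : ∀ x : R ⧸ I, q • x = 0 := by
    intro x
    obtain ⟨y, rfl⟩ := Ideal.Quotient.mk_surjective x
    rw [← map_nsmul, Ideal.Quotient.eq_zero_iff_mem, nsmul_eq_mul]
    exact Ideal.mul_mem_right _ _ (Ideal.subset_span rfl)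
  let _ : Module (ZMod q) (R ⧸ I) := AddCommGroup.zmodModule hq0
  have hrank : Module.rank (ZMod q) (R ⧸ I) ≤ (Module.finrank ℚ L : ℕ) := by
    apply rank_le
    intro s hs
    by_contra hlt
    rw [not_le] at hlt
    -- lifts
    let y : s → R := fun i => Quotient.out (i : R ⧸ I)
    have hy : ∀ i : s, Ideal.Quotient.mk I (y i) = (i : R ⧸ I) := fun i =>
      Quotient.out_eq (i : R ⧸ I)
    let x : s → L := fun i => ((y i : R) : L)
    have hnot : ¬ LinearIndependent ℚ x := by
      intro h
      have h1 := h.fintype_card_le_finrank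
      rw [Fintype.card_coe] at h1
      omega
    rw [← LinearIndependent.iff_fractionRing ℤ ℚ, Fintype.not_linearIndependent_iff] at hnot
    obtain ⟨g, hg, i₀, hi₀⟩ := hnot
    obtain ⟨g', hg', hgcd⟩ := Finset.extract_gcd g (s := Finset.univ) ⟨i₀, Finset.mem_univ _⟩
    have hd : (Finset.univ.gcd g) ≠ 0 := by
      intro h0
      rw [Finset.gcd_eq_zero_iff] at h0
      exact hi₀ (h0 i₀ (Finset.mem_univ _))
    have h1 : ∑ i, g' i • x i = 0 := by
      have h2 : (Finset.univ.gcd g) • ∑ i, g' i • x i = 0 := by
        rw [Finset.smul_sum, ← hg]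
        refine Finset.sum_congr rfl fun i _ => ?_
        rw [smul_smul, ← hg' i (Finset.mem_univ _)]
      exact (smul_eq_zero.1 h2).resolve_left hd
    have h2 : ∑ i, g' i • y i = 0 := by
      apply Subtype.ext
      have h3 : ((∑ i, g' i • y i : R) : L) = ∑ i, g' i • x i := by
        rw [← ValuationSubring.subtype_apply, map_sum]
        refine Finset.sum_congr rfl fun i _ => ?_
        rw [map_zsmul]
        rfl
      rw [h3, h1]
      rfl
    have h3 : ∑ i : s, ((g' i : ℤ) : ZMod q) • (i : R ⧸ I) = 0 := by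
      have h4 := congrArg (Ideal.Quotient.mk I) h2
      rw [map_sum, map_zero] at h4
      rw [← h4]
      refine Finset.sum_congr rfl fun i _ => ?_
      rw [map_zsmul, hy, Int.cast_smul_eq_zsmul]
    have h4 := Fintype.linearIndependent_iff.1 hs _ h3
    have h5 : (q : ℤ) ∣ Finset.univ.gcd g' := by
      apply Finset.dvd_gcd
      intro i _
      exact (ZMod.intCast_zmod_eq_zero_iff_dvd _ _).1 (h4 i)
    rw [hgcd] at h5
    have h6 := Int.eq_one_of_dvd_one (by positivity) h5
    have h7 : q = 1 := by exact_mod_cast h6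
    exact hq.one_lt.ne' h7
  exact N1CFin_finite_of_rank hrank

end Fermat.Agent.GT.Loc
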