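import Fermat.Agent.GT.Loc.N1Defs
import Fermat.Agent.C36.Unit.CuspInt
import Fermat.Agent.GS.Inst.Wq
import Fermat.Agent.GS.Bridge.Cert

/-!
# GT-LOC (L2-node), concrete layer, file N1CInt: the integrality fields of `UnitData`

`τ = t ^ ε`, `ε = ± 1`, `ι : FF L N0 → FF L (q N0)` the inclusion.
* `N1C_s_int` : `(ι τ) ^ k s ∈ chart R {ι τ}`  (`k = 0` for `ε = 1`: `s ^ r = t w(s)` is a monic equation over `ℤ[t]`;
  `k = 1` for `ε = -1`: `u = τ s` satisfies `u² = u + 16 τ`, resp. `u³ = u² + 9 τ u + 27 τ²`);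
* `N1C_gamma_int` : `ϖ ^ m (ι τ) ^ k γ₀⁻¹ ∈ chart R {ι τ}` (`exists_isIntegral_gamma0F` +
  `GS.exists_pow_mul_mem_chart_of_isIntegral`);
* `N1C_e_int` : `ϖ ^ m (ι τ) ^ q / w (ι τ) ∈ chart R {ι τ}` (`isIntegral_ea`, `N1C_w_tau`).
-/

set_option autoImplicit false
set_option synthInstance.maxHeartbeats 400000
set_option linter.unusedSectionVars false

namespace Fermat.Agent.GT.Loc

open Fermat.Agent.GR Fermat.Agent.GR.E Fermat.Agent.GR.D.Vert Fermat.Agent.GS Fermat.Agent.GS.Inst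
  Fermat.Agent.C36.Unit ModularCurve IntermediateField

/-! ### helpers -/

theorem N1CInt_isIntegral_quad {A B : Type*} [CommRing A] [CommRing B] [Algebra A B]
    (y : B) (a0 a1 : A) (h : y ^ 2 + algebraMap A B a1 * y + algebraMap A B a0 = 0) :
    IsIntegral A y := by
  nontriviality A
  refine ⟨Polynomial.X ^ 2 + Polynomial.C a1 * Polynomial.X + Polynomial.C a0, ?_, ?_⟩
  · monicity!
  · simpa using h

theorem N1CInt_isIntegral_cubic {A B : Type*} [CommRing A] [CommRing B] [Algebra A B]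
    (y : B) (a0 a1 a2 : A)
    (h : y ^ 3 + algebraMap A B a2 * y ^ 2 + algebraMap A B a1 * y + algebraMap A B a0 = 0) :
    IsIntegral A y := by
  nontriviality A
  refine ⟨Polynomial.X ^ 3 + Polynomial.C a2 * Polynomial.X ^ 2 + Polynomial.C a1 * Polynomial.X
    + Polynomial.C a0, ?_, ?_⟩
  · monicity!
  · simpa using h

/-- abstract form of `N1C_s_int` -/
theorem N1CInt_s_abs (c : BaseCase) {A B : Type*} [CommRing A] [Field B] [Algebra A B] (t s : B)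
    (e1 : s ^ c.r = t * c.wv s) (ht0 : t ≠ 0) (ε : ℤ) (hε : ε = 1 ∨ ε = -1) :
    ∃ k : ℕ, IsIntegral (Algebra.adjoin A ({t ^ ε} : Set B)) ((t ^ ε) ^ k * s) := by
  rcases hε with rfl | rfl
  · refine ⟨0, ?_⟩
    rw [zpow_one, pow_zero, one_mul]
    let τ' : Algebra.adjoin A ({t} : Set B) := ⟨t, Algebra.subset_adjoin rfl⟩
    have hτ' : algebraMap (Algebra.adjoin A ({t} : Set B)) B τ' = t := rfl
    cases c
    · simp only [BaseCase.r, BaseCase.wv] at e1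
      refine N1CInt_isIntegral_quad s (-16 * τ') (-τ') ?_
      simp only [map_neg, map_mul, map_ofNat, hτ']
      linear_combination e1
    · simp only [BaseCase.r, BaseCase.wv] at e1
      refine N1CInt_isIntegral_cubic s (-27 * τ') (-9 * τ') (-τ') ?_
      simp only [map_neg, map_mul, map_ofNat, hτ']
      linear_combination e1
  · refine ⟨1, ?_⟩
    rw [zpow_neg_one, pow_one]
    let τ' : Algebra.adjoin A ({t⁻¹} : Set B) := ⟨t⁻¹, Algebra.subset_adjoin rfl⟩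
    have hτ' : algebraMap (Algebra.adjoin A ({t⁻¹} : Set B)) B τ' = t⁻¹ := rfl
    cases c
    · simp only [BaseCase.r, BaseCase.wv] at e1
      refine N1CInt_isIntegral_quad (t⁻¹ * s) (-16 * τ') (-1) ?_
      simp only [map_neg, map_mul, map_ofNat, map_one, hτ']
      field_simp
      linear_combination e1
    · simp only [BaseCase.r, BaseCase.wv] at e1
      refine N1CInt_isIntegral_cubic (t⁻¹ * s) (-27 * τ' ^ 2) (-9 * τ') (-1) ?_
      simp only [map_neg, map_mul, map_ofNat, map_one, map_pow, hτ']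
      field_simp
      linear_combination e1

variable (c : BaseCase) {L : IntermediateField ℚ Qb}
variable {q N0 : ℕ} [NeZero q] [NeZero N0] [NeZero (q * N0)]

/-- the inclusion maps `t ^ ε` to `t ^ ε` -/
theorem N1C_incl_tau (hr0 : c.r ∣ N0) (hr : c.r ∣ q * N0) (ε : ℤ) :
    algebraMap (FF L N0) (FF L (q * N0)) (c.tF L hr0 ^ ε) = c.tF L hr ^ ε := by
  have h : algebraMap (FF L N0) (FF L (q * N0)) (c.tF L hr0) = c.tF L hr :=
    Subtype.ext (coe_algebraMap_FF _)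
  rw [map_zpow₀, h]

/-- `w_q (t ^ ε) = (V t) ^ ε` -/
theorem N1C_w_tau (hq : q.Prime) (hqN : ¬ q ∣ N0) (hr0 : c.r ∣ N0) (hrp : c.r * q ∣ q * N0)
    (ε : ℤ) :
    GT.EMB.wQ L q N0 (algebraMap (FF L N0) (FF L (q * N0)) (c.tF L hr0 ^ ε)) =
      c.tVF L q hrp ^ ε := by
  rw [map_zpow₀, map_zpow₀]
  congr 1
  apply Subtype.ext
  have hcop : q.Coprime N0 := (Nat.Prime.coprime_iff_not_dvd hq).2 hqN
  rw [GT.EMB.wQ_of_mem (S24.iotaC.comp (algebraMap L Qb)) q N0 hcop _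
    (by rw [coe_algebraMap_FF]; exact (c.tF L hr0).2), coe_algebraMap_FF]
  rfl

variable {R : ValuationSubring L} [IsDiscreteValuationRing R]

theorem N1C_s_int (hr0 : c.r ∣ N0) (hl : c.lvl ∣ q * N0) (ε : ℤ) (hε : ε = 1 ∨ ε = -1) :
    ∃ k : ℕ, algebraMap (FF L N0) (FF L (q * N0)) (c.tF L hr0 ^ ε) ^ k * c.sF L hl ∈
      chart R ({algebraMap (FF L N0) (FF L (q * N0)) (c.tF L hr0 ^ ε)} : Set (FF L (q * N0))) := by
  have hr : c.r ∣ q * N0 := hr0.mul_left q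
  rw [N1C_incl_tau c hr0 hr ε]
  have e1 : c.sF L hl ^ c.r = c.tF L hr * c.wv (c.sF L hl) := by
    apply Subtype.ext
    have := c.map_wv ((FF L (q * N0)).val : FF L (q * N0) →+* LaurentSeries L) (c.sF L hl)
    show c.s L ^ c.r = c.t L * ((FF L (q * N0)).val (c.wv (c.sF L hl)))
    rw [show (FF L (q * N0)).val (c.wv (c.sF L hl)) = c.wv (c.s L) from this]
    exact c.s_pow L
  have ht0 : c.tF L hr ≠ 0 := fun h => c.tF_transcendental L hr (h ▸ isAlgebraic_zero)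
  exact N1CInt_s_abs (A := R) c (c.tF L hr) (c.sF L hl) e1 ht0 ε hε

theorem N1C_gamma_int (hq : q.Prime) (hqN : ¬ q ∣ N0) (hl0 : c.lvl ∣ N0) (hr0 : c.r ∣ N0)
    (hN : c.lvl * q ∣ q * N0) {ϖ : R} (hϖ : Irreducible ϖ) (ε : ℤ) (hε : ε = 1 ∨ ε = -1) :
    ∃ k m : ℕ, algebraMap R (FF L (q * N0)) ϖ ^ m *
        (algebraMap (FF L N0) (FF L (q * N0)) (c.tF L hr0 ^ ε) ^ k * (c.gamma0F q L hN)⁻¹) ∈
      chart R ({algebraMap (FF L N0) (FF L (q * N0)) (c.tF L hr0 ^ ε)} : Set (FF L (q * N0))) := by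
  have hr : c.r ∣ q * N0 := hr0.mul_left q
  have hqr : q ≠ c.r := fun h => hqN (h ▸ hr0)
  rw [N1C_incl_tau c hr0 hr ε]
  obtain ⟨k, -, h2, -, h4⟩ := c.exists_isIntegral_gamma0F q hq hqr N0 hqN hl0 hr hN L
  have hz : IsIntegral (Algebra.adjoin L ({c.tF L hr ^ ε} : Set (FF L (q * N0))))
      ((c.tF L hr ^ ε) ^ k * (c.gamma0F q L hN)⁻¹) := by
    rcases hε with rfl | rfl
    · rw [zpow_one]
      exact h2
    · rw [zpow_neg_one]
      exact h4
  obtain ⟨m, hm⟩ := GS.exists_pow_mul_mem_chart_of_isIntegral R hϖ _ _ hz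
  exact ⟨k, m, hm m le_rfl⟩

theorem N1C_e_int (hq : q.Prime) (hqN : ¬ q ∣ N0) (hr0 : c.r ∣ N0) {ϖ : R} (hϖ : Irreducible ϖ)
    (ε : ℤ) (hε : ε = 1 ∨ ε = -1) :
    ∃ m : ℕ, algebraMap R (FF L (q * N0)) ϖ ^ m *
        (algebraMap (FF L N0) (FF L (q * N0)) (c.tF L hr0 ^ ε) ^ q /
          GT.EMB.wQ L q N0 (algebraMap (FF L N0) (FF L (q * N0)) (c.tF L hr0 ^ ε))) ∈
      chart R ({algebraMap (FF L N0) (FF L (q * N0)) (c.tF L hr0 ^ ε)} : Set (FF L (q * N0))) := by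
  have hr : c.r ∣ q * N0 := hr0.mul_left q
  have hrp : c.r * q ∣ q * N0 := by
    rw [mul_comm]
    exact Nat.mul_dvd_mul_left q hr0
  have hqr : q ≠ c.r := fun h => hqN (h ▸ hr0)
  rw [N1C_w_tau c hq hqN hr0 hrp ε, N1C_incl_tau c hr0 hr ε]
  obtain ⟨m, hm⟩ := GS.exists_pow_mul_mem_chart_of_isIntegral R hϖ _ _
    (c.isIntegral_ea q hq hqr L hr hrp ε hε)
  exact ⟨m, hm m le_rfl⟩

end Fermat.Agent.GT.Loc
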