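import Fermat.Agent.GT.Loc.N1Main
import Fermat.Agent.GT.Loc.N1CDer
import Fermat.Agent.GT.Loc.N1CInt
import Fermat.Agent.GT.Loc.N1CFin
import Fermat.Agent.GT.Loc.N1CChart
import Fermat.Agent.GS.Inst.Frob
import Fermat.Agent.GS.Inst.FrobLift
import Fermat.Agent.GT.Val.Inst.Defs
import Fermat.Agent.GT.Brg.Field

/-!
# GT-LOC (L2-node), concrete layer: every node of `chart R {τ}` at level `q N₀` is a `RegNode`

`c : BaseCase` (`r = 2`, level `4`, or `r = 3`, level `9`), `c.lvl ∣ N₀`, `q ∤ N₀` a prime, `L` a number field inside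
`ℚ̄`, `R` a discrete valuation subring of `L` with uniformizer `q`, `τ = t ^ ε`, `t = h_r`, `ε = ± 1`.

* `N1C_unitData` : the instance of `UnitData` (from UNIT);
* `N1C_regNode`  : all nodes are regular, given a Frobenius lift `σ` on `L` and the `TowerChart` of `τ`;
* `N1C_regNode_comap` : the same for `R = A ∩ L`, `L / ℚ` finite and normal.
-/

set_option autoImplicit false
set_option synthInstance.maxHeartbeats 400000
set_option linter.unusedSectionVars false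

namespace Fermat.Agent.GT.Loc

open Fermat.Agent.GR Fermat.Agent.GR.E Fermat.Agent.GR.D.Vert Fermat.Agent.GS Fermat.Agent.GS.Inst
  Fermat.Agent.C36.Unit ModularCurve IntermediateField

variable (c : BaseCase) {L : IntermediateField ℚ Qb}
variable {q N0 : ℕ} [NeZero q] [NeZero N0] [NeZero (q * N0)]

theorem N1C_isWQ (hq : q.Prime) (hqN : ¬ q ∣ N0) : IsWQ L q N0 (GT.EMB.wQ L q N0) := by
  obtain ⟨ι⟩ : Nonempty (Qb →+* ℂ) := S24.nonempty_iotaC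
  exact isWQ_wQ (ι.comp (algebraMap L Qb)) hq hqN

theorem N1C_isWq (hq : q.Prime) (hqN : ¬ q ∣ N0) : IsWq L q N0 (GT.EMB.wQ L q N0) := by
  obtain ⟨ι⟩ : Nonempty (Qb →+* ℂ) := S24.nonempty_iotaC
  exact isWq_of_isWQ (ι.comp (algebraMap L Qb)) hq hqN (N1C_isWQ hq hqN)

theorem N1C_phi_incl (σ : L ≃+* L) (f : FF L N0) :
    mapFFEquiv σ (q * N0) (algebraMap (FF L N0) (FF L (q * N0)) f) =
      algebraMap (FF L N0) (FF L (q * N0)) (mapFFEquiv σ N0 f) := by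
  apply Subtype.ext
  rw [coe_mapFFEquiv, coe_algebraMap_FF, coe_algebraMap_FF, coe_mapFFEquiv]

theorem N1C_phi_tau (σ : L ≃+* L) (hr0 : c.r ∣ N0) (ε : ℤ) :
    mapFFEquiv σ (q * N0) (algebraMap (FF L N0) (FF L (q * N0)) (c.tF L hr0 ^ ε)) =
      algebraMap (FF L N0) (FF L (q * N0)) (c.tF L hr0 ^ ε) := by
  have h : mapFFEquiv σ N0 (c.tF L hr0) = c.tF L hr0 := by
    apply Subtype.ext
    rw [coe_mapFFEquiv, BaseCase.coe_tF]
    exact c.coeffMap_t _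
  rw [N1C_phi_incl, map_zpow₀, h]

theorem N1C_D_incl (hl0 : c.lvl ∣ N0) (hl : c.lvl ∣ q * N0) (f : FF L N0) :
    c.DdF L hl (algebraMap (FF L N0) (FF L (q * N0)) f) =
      algebraMap (FF L N0) (FF L (q * N0)) (c.DdF L hl0 f) := by
  apply Subtype.ext
  rw [BaseCase.coe_DdF, coe_algebraMap_FF, coe_algebraMap_FF, BaseCase.coe_DdF]

theorem N1C_D_V (hq : q.Prime) (hqN : ¬ q ∣ N0) (hl0 : c.lvl ∣ N0)
    (hl : c.lvl ∣ q * N0) (hN : c.lvl * q ∣ q * N0) (σ : L ≃+* L) (f : FF L N0) :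
    c.DdF L hl (GT.EMB.wQ L q N0 (mapFFEquiv σ (q * N0) (algebraMap (FF L N0) (FF L (q * N0)) f))) =
      (q : FF L (q * N0)) * c.gamma0F q L hN *
        GT.EMB.wQ L q N0 (mapFFEquiv σ (q * N0)
          (c.DdF L hl (algebraMap (FF L N0) (FF L (q * N0)) f))) := by
  have hw := N1C_isWq (L := L) hq hqN
  rw [N1C_D_incl c hl0 hl, N1C_phi_incl, N1C_phi_incl]
  apply Subtype.ext
  rw [BaseCase.coe_DdF, hw.onF1, MulMemClass.coe_mul, MulMemClass.coe_mul, hw.onF1,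
    BaseCase.coe_gamma0F, coe_mapFFEquiv, coe_mapFFEquiv, BaseCase.coe_DdF, N1C_Dd_qExpand,
    BaseCase.coeffMap_Dd]
  rfl

theorem N1C_gamma_mem {R : ValuationSubring L} [IsDiscreteValuationRing R]
    (hN : c.lvl * q ∣ q * N0) : c.gamma0F q L hN ∈ gaussO R (q * N0) := by
  obtain ⟨y, hy⟩ := exists_embL_eq (c.isInt_gamma0 q R)
  rw [mem_gaussO, BaseCase.coe_gamma0F, ← hy]
  exact isGInt_emb y

theorem N1C_gamma_inv_mem {R : ValuationSubring L} [IsDiscreteValuationRing R]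
    (hN : c.lvl * q ∣ q * N0) : (c.gamma0F q L hN)⁻¹ ∈ gaussO R (q * N0) := by
  obtain ⟨y, hy⟩ := exists_embL_eq (c.isInt_gamma0Inv q R)
  have h : (((c.gamma0F q L hN)⁻¹ : FF L (q * N0)) : LaurentSeries L) = c.gamma0Inv q L := by
    have h1 := c.gamma0_mul_inv q L
    show (c.gamma0 q L)⁻¹ = _
    exact inv_eq_of_mul_eq_one_right h1
  rw [mem_gaussO, h, ← hy]
  exact isGInt_emb y

theorem N1C_gamma_w (hq : q.Prime) (hqN : ¬ q ∣ N0) (hl0 : c.lvl ∣ N0)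
    (hN : c.lvl * q ∣ q * N0) :
    GT.EMB.wQ L q N0 (c.gamma0F q L hN) * ((q : FF L (q * N0)) ^ 2 * c.gamma0F q L hN) = 1 := by
  obtain ⟨ι⟩ : Nonempty (Qb →+* ℂ) := S24.nonempty_iotaC
  obtain ⟨h1, h2⟩ := c.wQ_sF q (ι.comp (algebraMap L Qb)) N0
    ((Nat.Prime.coprime_iff_not_dvd hq).2 hqN) hl0 ((Dvd.intro _ rfl).trans hN) hN
  exact c.w_gamma0F q L hN _ h1 h2

theorem N1C_e_mul (hr0 : c.r ∣ N0) (ε : ℤ) :
    algebraMap (FF L N0) (FF L (q * N0)) (c.tF L hr0 ^ ε) ^ q /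
          GT.EMB.wQ L q N0 (algebraMap (FF L N0) (FF L (q * N0)) (c.tF L hr0 ^ ε)) *
        GT.EMB.wQ L q N0 (algebraMap (FF L N0) (FF L (q * N0)) (c.tF L hr0 ^ ε)) =
      algebraMap (FF L N0) (FF L (q * N0)) (c.tF L hr0 ^ ε) ^ q := by
  have h0 : c.tF L hr0 ≠ 0 := fun h => (c.tF_transcendental L hr0) (h ▸ isAlgebraic_zero)
  refine div_mul_cancel₀ _ ?_
  rw [Ne, EmbeddingLike.map_eq_zero_iff, map_eq_zero]
  exact zpow_ne_zero _ h0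

variable {R : ValuationSubring L} [IsDiscreteValuationRing R]

/-- the instance of `UnitData`. -/
theorem N1C_unitData (hq : q.Prime) (hqN : ¬ q ∣ N0) (hl0 : c.lvl ∣ N0) (hr0 : c.r ∣ N0)
    (hl : c.lvl ∣ q * N0) (hN : c.lvl * q ∣ q * N0) {ϖ : R} (hϖ : Irreducible ϖ)
    (hu : ϖ = ((q : ℕ) : R)) (σ : L ≃+* L) (ε : ℤ) (hε : ε = 1 ∨ ε = -1) :
    UnitData ϖ q (gaussO R (q * N0)) ((GT.EMB.wQ L q N0).restrictScalars R)
      (mapFFEquiv σ (q * N0)) (c.tF L hr0 ^ ε) ((c.DdF L hl).restrictScalars R)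
      (c.gamma0F q L hN) (c.sF L hl)
      (algebraMap (FF L N0) (FF L (q * N0)) (c.tF L hr0 ^ ε) ^ q /
          GT.EMB.wQ L q N0 (algebraMap (FF L N0) (FF L (q * N0)) (c.tF L hr0 ^ ε))) := by
  have hcast : algebraMap R (FF L (q * N0)) ϖ = (q : FF L (q * N0)) := by
    rw [hu, map_natCast]
  refine ⟨hu, fun x hx => N1C_isGInt_Dd c hx, fun f => ⟨c.DdF L hl0 f, N1C_D_incl c hl0 hl f⟩,
    fun f => ?_, c.DdF_sF L hl, N1C_s_int c hr0 hl ε hε, N1C_gamma_mem c hN,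
    N1C_gamma_inv_mem c hN, c.gamma0F_ne_zero q L hN, ?_,
    N1C_gamma_int c hq hqN hl0 hr0 hN hϖ ε hε, N1C_e_mul c hr0 ε, N1C_e_int c hq hqN hr0 hϖ ε hε⟩
  · rw [hcast]
    exact N1C_D_V c hq hqN hl0 hl hN σ f
  · rw [hcast]
    exact N1C_gamma_w c hq hqN hl0 hN

theorem N1C_opp_eq :
    opp (gaussO R (q * N0)) ((GT.EMB.wQ L q N0).restrictScalars R) = Val.Ozero' R q N0 :=
  rfl

/-- (L2-node): all nodes of `chart R {τ}` at level `q N₀` are regular, given a Frobenius lift on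
`L` and the `TowerChart` of `τ`. -/
theorem N1C_regNode [CharP (IsLocalRing.ResidueField R) q] (hq : q.Prime) (hqN : ¬ q ∣ N0)
    (hl0 : c.lvl ∣ N0) (hr0 : c.r ∣ N0) {ϖ : R} (hϖ : Irreducible ϖ) (hu : ϖ = ((q : ℕ) : R))
    [Finite (R ⧸ Ideal.span {ϖ})]
    (σ : L ≃+* L) (hσ : ∀ x, σ x ∈ R ↔ x ∈ R) (hfr : ∀ x ∈ R, σ x - x ^ q ∈ R.nonunits)
    (ε : ℤ) (hε : ε = 1 ∨ ε = -1)
    (Ct : TowerChart ϖ (gaussO R N0) (gaussO R (q * N0)) ((GT.EMB.wQ L q N0).restrictScalars R) q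
      (c.tF L hr0 ^ ε))
    (𝔫 : Ideal (chart R
      ({algebraMap (FF L N0) (FF L (q * N0)) (c.tF L hr0 ^ ε)} : Set (FF L (q * N0)))))
    (h𝔫 : 𝔫.IsMaximal) (h₁ : vert ϖ (gaussO R (q * N0)) _ ≤ 𝔫)
    (h₂ : vert ϖ (Val.Ozero' R q N0) _ ≤ 𝔫) :
    RegNode ϖ (gaussO R (q * N0)) (Val.Ozero' R q N0) _ 𝔫 := by
  obtain ⟨ι⟩ : Nonempty (Qb →+* ℂ) := S24.nonempty_iotaC
  have hl : c.lvl ∣ q * N0 := hl0.mul_left q
  have hN : c.lvl * q ∣ q * N0 := by rw [mul_comm]; exact mul_dvd_mul_left q hl0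
  exact regNode_of_unitData hϖ hq
    (towerData (ι.comp (algebraMap L Qb)) hq hqN hϖ (N1C_isWq hq hqN))
    (towerFrob (ι.comp (algebraMap L Qb)) hq hqN hϖ (N1C_isWQ hq hqN) σ hσ hfr) Ct
    (N1C_phi_tau c σ hr0 ε) (N1C_unitData c hq hqN hl0 hr0 hl hN hϖ hu σ ε hε) 𝔫 h𝔫 h₁ h₂

/-- (L2-node) for `R = A ∩ L`, `L / ℚ` finite, normal and unramified at `A`. -/
theorem N1C_regNode_comap (hq : q.Prime) (hqN : ¬ q ∣ N0) (hl0 : c.lvl ∣ N0) (hr0 : c.r ∣ N0)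
    (A : ValuationSubring Qb) (hA : A.LiesOverPrime q) (L : IntermediateField ℚ Qb)
    [FiniteDimensional ℚ L] [Normal ℚ L] [IsDiscreteValuationRing (A.comap (algebraMap L Qb))]
    {ϖ : A.comap (algebraMap L Qb)} (hϖ : Irreducible ϖ)
    (hu : ϖ = ((q : ℕ) : A.comap (algebraMap L Qb))) (ε : ℤ) (hε : ε = 1 ∨ ε = -1)
    (𝔫 : Ideal (chart (A.comap (algebraMap L Qb))
      ({algebraMap (FF L N0) (FF L (q * N0)) (c.tF L hr0 ^ ε)} : Set (FF L (q * N0)))))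
    (h𝔫 : 𝔫.IsMaximal) (h₁ : vert ϖ (gaussO (A.comap (algebraMap L Qb)) (q * N0)) _ ≤ 𝔫)
    (h₂ : vert ϖ (Val.Ozero' (A.comap (algebraMap L Qb)) q N0) _ ≤ 𝔫) :
    RegNode ϖ (gaussO (A.comap (algebraMap L Qb)) (q * N0))
      (Val.Ozero' (A.comap (algebraMap L Qb)) q N0) _ 𝔫 := by
  obtain ⟨σ, hσ, hfr⟩ := exists_frob_lift A hq hA L
  have : CharP (IsLocalRing.ResidueField (A.comap (algebraMap L Qb))) q :=
    D.Top.charP_residueField A q hq hA L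
  have : Finite ((A.comap (algebraMap L Qb)) ⧸ Ideal.span {ϖ}) := by
    rw [hu]
    exact N1C_finite_quot _ hq
  exact N1C_regNode c hq hqN hl0 hr0 hϖ hu σ hσ hfr ε hε
    (N1C_towerChart c hq hqN hr0 A hA L hϖ ε hε) 𝔫 h𝔫 h₁ h₂

/-- the inclusion, in the notation of VAL. -/
theorem N1C_algebraMap_eq_up (x : FF L N0) :
    algebraMap (FF L N0) (FF L (q * N0)) x = Val.up (Val.dvd_q0 q N0) x :=
  rfl

/-- (L2-node) in the shape of the field `Glue.LocIn.node`. -/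
theorem N1C_node [CharP (IsLocalRing.ResidueField R) q] (hq : q.Prime) (hqN : ¬ q ∣ N0)
    (hl0 : c.lvl ∣ N0) (hr0 : c.r ∣ N0) {ϖ : R} (hϖ : Irreducible ϖ) (hu : ϖ = ((q : ℕ) : R))
    [Finite (R ⧸ Ideal.span {ϖ})]
    (σ : L ≃+* L) (hσ : ∀ x, σ x ∈ R ↔ x ∈ R) (hfr : ∀ x ∈ R, σ x - x ^ q ∈ R.nonunits)
    (ε : ℤ) (hε : ε = 1 ∨ ε = -1)
    (Ct : TowerChart ϖ (gaussO R N0) (gaussO R (q * N0)) ((GT.EMB.wQ L q N0).restrictScalars R) q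
      (c.tF L hr0 ^ ε)) :
    ∀ 𝔫 : Ideal (chart R ({Val.up (Val.dvd_q0 q N0) (c.tF L hr0 ^ ε)} : Set (FF L (q * N0)))),
      𝔫.IsMaximal →
      vert ϖ (gaussO R (q * N0))
        (chart R ({Val.up (Val.dvd_q0 q N0) (c.tF L hr0 ^ ε)} : Set (FF L (q * N0)))) ≤ 𝔫 →
      vert ϖ (Val.Ozero' R q N0)
        (chart R ({Val.up (Val.dvd_q0 q N0) (c.tF L hr0 ^ ε)} : Set (FF L (q * N0)))) ≤ 𝔫 →
      RegNode ϖ (gaussO R (q * N0)) (Val.Ozero' R q N0)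
        (chart R ({Val.up (Val.dvd_q0 q N0) (c.tF L hr0 ^ ε)} : Set (FF L (q * N0)))) 𝔫 := by
  rw [← N1C_algebraMap_eq_up]
  exact fun 𝔫 h𝔫 h₁ h₂ => N1C_regNode c hq hqN hl0 hr0 hϖ hu σ hσ hfr ε hε Ct 𝔫 h𝔫 h₁ h₂

/-- (L2-node) in the shape of the field `Glue.LocIn.node`, for `R = A ∩ L`. -/
theorem N1C_node_comap (hq : q.Prime) (hqN : ¬ q ∣ N0) (hl0 : c.lvl ∣ N0) (hr0 : c.r ∣ N0)
    (A : ValuationSubring Qb) (hA : A.LiesOverPrime q) (L : IntermediateField ℚ Qb)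
    [FiniteDimensional ℚ L] [Normal ℚ L] [IsDiscreteValuationRing (A.comap (algebraMap L Qb))]
    {ϖ : A.comap (algebraMap L Qb)} (hϖ : Irreducible ϖ)
    (hu : ϖ = ((q : ℕ) : A.comap (algebraMap L Qb))) (ε : ℤ) (hε : ε = 1 ∨ ε = -1) :
    ∀ 𝔫 : Ideal (chart (A.comap (algebraMap L Qb))
        ({Val.up (Val.dvd_q0 q N0) (c.tF L hr0 ^ ε)} : Set (FF L (q * N0)))),
      𝔫.IsMaximal →
      vert ϖ (gaussO (A.comap (algebraMap L Qb)) (q * N0)) (chart (A.comap (algebraMap L Qb))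
        ({Val.up (Val.dvd_q0 q N0) (c.tF L hr0 ^ ε)} : Set (FF L (q * N0)))) ≤ 𝔫 →
      vert ϖ (Val.Ozero' (A.comap (algebraMap L Qb)) q N0) (chart (A.comap (algebraMap L Qb))
        ({Val.up (Val.dvd_q0 q N0) (c.tF L hr0 ^ ε)} : Set (FF L (q * N0)))) ≤ 𝔫 →
      RegNode ϖ (gaussO (A.comap (algebraMap L Qb)) (q * N0))
        (Val.Ozero' (A.comap (algebraMap L Qb)) q N0) (chart (A.comap (algebraMap L Qb))
        ({Val.up (Val.dvd_q0 q N0) (c.tF L hr0 ^ ε)} : Set (FF L (q * N0)))) 𝔫 := by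
  rw [← N1C_algebraMap_eq_up]
  exact fun 𝔫 h𝔫 h₁ h₂ => N1C_regNode_comap c hq hqN hl0 hr0 A hA L hϖ hu ε hε 𝔫 h𝔫 h₁ h₂

/-- (L2-node) in the shape of the field `Glue.LocIn.node`, for a good field `L` (finite, fixed by
the inertia group, stable under the decomposition group). -/
theorem N1C_node_good (hq : q.Prime) (hqN : ¬ q ∣ N0) (hl0 : c.lvl ∣ N0) (hr0 : c.r ∣ N0)
    (A : ValuationSubring Qb) (hA : A.LiesOverPrime q) {S : Finset Qb}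
    {L : IntermediateField ℚ Qb} (hL : Brg.GoodField A S L)
    [IsDiscreteValuationRing (Brg.RL A L)]
    {ϖ : Brg.RL A L} (hϖ : Irreducible ϖ)
    (hu : ϖ = ((q : ℕ) : Brg.RL A L)) (ε : ℤ) (hε : ε = 1 ∨ ε = -1) :
    ∀ 𝔫 : Ideal (chart (Brg.RL A L)
        ({Val.up (Val.dvd_q0 q N0) (c.tF L hr0 ^ ε)} : Set (FF L (q * N0)))),
      𝔫.IsMaximal →
      vert ϖ (gaussO (Brg.RL A L) (q * N0)) (chart (Brg.RL A L)
        ({Val.up (Val.dvd_q0 q N0) (c.tF L hr0 ^ ε)} : Set (FF L (q * N0)))) ≤ 𝔫 →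
      vert ϖ (Val.Ozero' (Brg.RL A L) q N0) (chart (Brg.RL A L)
        ({Val.up (Val.dvd_q0 q N0) (c.tF L hr0 ^ ε)} : Set (FF L (q * N0)))) ≤ 𝔫 →
      RegNode ϖ (gaussO (Brg.RL A L) (q * N0))
        (Val.Ozero' (Brg.RL A L) q N0) (chart (Brg.RL A L)
        ({Val.up (Val.dvd_q0 q N0) (c.tF L hr0 ^ ε)} : Set (FF L (q * N0)))) 𝔫 := by
  have := hL.fin
  obtain ⟨σ, hσ, hfr⟩ := Brg.exists_frobLift hq hA hL
  have : CharP (IsLocalRing.ResidueField (Brg.RL A L)) q :=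
    D.Top.charP_residueField A q hq hA L
  have : Finite ((Brg.RL A L) ⧸ Ideal.span {ϖ}) := by
    rw [hu]
    exact N1C_finite_quot _ hq
  exact N1C_node c hq hqN hl0 hr0 hϖ hu σ.toRingEquiv (fun x => (hσ x).symm) hfr ε hε
    (N1C_towerChart c hq hqN hr0 A hA L hϖ ε hε)

end Fermat.Agent.GT.Loc
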