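import Fermat.Agent.GT.Loc.Defs

/-!
GT-LOC, abstract layer, file `Comp`: the composite valuation ring `B` of a vertical valuation ring
`𝒪` (uniformizer `ϖ`) with the valuation ring of a closed point `𝔪` of the component `C / 𝔭`,
`𝔭 = vert ϖ 𝒪 C`.  Language of GS (`x / ϖ ∈ 𝒪` means `x ∈ 𝔪(𝒪)`).

`CompHyp` collects what is used of the chart (all fields are fields of `GS.NodalChart`).
-/

set_option autoImplicit false

namespace Fermat.Agent.GT.Loc

open Fermat.Agent.GR.E Fermat.Agent.GS Fermat.Agent.GT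

variable {R : Type*} [CommRing R] {F : Type*} [Field F] [Algebra R F]
variable {ϖ : R} {𝒪 : ValuationSubring F} {C : Subalgebra R F}

/-- What is used of the pair (`𝒪`, `C`). -/
structure CompHyp (ϖ : R) (𝒪 : ValuationSubring F) (C : Subalgebra R F) : Prop where
  gauss : GaussRing ϖ 𝒪
  le : ∀ x ∈ C, x ∈ 𝒪
  frac : ∀ x ∈ 𝒪, ∃ b ∈ C, b / algebraMap R F ϖ ∉ 𝒪 ∧ x * b ∈ C
  ded : IsDedekindDomain (C ⧸ vert ϖ 𝒪 C)

theorem NodalChart.compHyp₁ {𝒪₁ 𝒪₂ : ValuationSubring F} (hG : GaussRing ϖ 𝒪₁)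
    (hC : NodalChart ϖ 𝒪₁ 𝒪₂ C) : CompHyp ϖ 𝒪₁ C :=
  ⟨hG, hC.le₁, hC.frac₁, hC.ded₁⟩

/-- membership in the nonunits of a valuation subring. -/
theorem Comp_mem_nonunits_iff (A : ValuationSubring F) (x : F) :
    x ∈ A.nonunits ↔ x = 0 ∨ x⁻¹ ∉ A := by
  rw [ValuationSubring.mem_nonunits_iff]
  by_cases hx : x = 0
  · simp [hx]
  · rw [← A.valuation_le_one_iff x⁻¹, map_inv₀,
      inv_le_one₀ (zero_lt_iff.2 ((map_ne_zero A.valuation).2 hx)), not_le]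
    simp [hx]

/-- `mem_vert` without hypotheses on `R`. -/
theorem Comp_mem_vert (hle : ∀ x ∈ C, x ∈ 𝒪) (x : C) :
    x ∈ vert ϖ 𝒪 C ↔ (x : F) / algebraMap R F ϖ ∈ 𝒪 := by
  constructor
  · intro hx
    refine Submodule.span_induction (p := fun (y : C) _ => (y : F) / algebraMap R F ϖ ∈ 𝒪)
      (fun y hy => hy) ?_ ?_ ?_ hx
    · simp
    · intro y z _ _ hy hz
      have : ((y + z : C) : F) / algebraMap R F ϖ
          = (y : F) / algebraMap R F ϖ + (z : F) / algebraMap R F ϖ := by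
        push_cast; ring
      rw [this]
      exact add_mem hy hz
    · intro a y _ hy
      have : ((a • y : C) : F) / algebraMap R F ϖ = (a : F) * ((y : F) / algebraMap R F ϖ) := by
        rw [smul_eq_mul]; push_cast; ring
      rw [this]
      exact mul_mem (hle _ a.2) hy
  · intro hx
    exact Ideal.subset_span hx

/-- `x / ϖ ∈ 𝒪 ↔ x ∈ 𝔪(𝒪)` for a Gauss ring. -/
theorem div_mem_iff_mem_nonunits (hG : GaussRing ϖ 𝒪) (x : F) :
    x / algebraMap R F ϖ ∈ 𝒪 ↔ x ∈ 𝒪.nonunits := by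
  rw [Comp_mem_nonunits_iff]
  constructor
  · intro h
    by_cases hx : x = 0
    · exact Or.inl hx
    · refine Or.inr fun hinv => hG.inv_not_mem ?_
      have : (algebraMap R F ϖ)⁻¹ = x / algebraMap R F ϖ * x⁻¹ := by
        field_simp
      rw [this]
      exact mul_mem h hinv
  · rintro (rfl | h)
    · rw [zero_div]
      exact zero_mem 𝒪
    · have hx : x ∈ 𝒪 := (𝒪.mem_or_inv_mem x).resolve_right h
      exact (hG.unif x hx).resolve_right h

/-- abstract form of `exists_mul_sub_mul_mem`, one direction. -/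
theorem Comp_step {E : Type*} [CommRing E] [IsDomain E] (M : Ideal E) [M.IsPrime] (a b : E)
    (z : Localization.AtPrime M)
    (hz : algebraMap E (Localization.AtPrime M) a * z = algebraMap E (Localization.AtPrime M) b) :
    ∃ s c : E, s ∉ M ∧ s * b = c * a := by
  have hinj : Function.Injective (algebraMap E (Localization.AtPrime M)) :=
    IsLocalization.injective _ (Ideal.primeCompl_le_nonZeroDivisors M)
  obtain ⟨⟨c, s⟩, rfl⟩ := IsLocalization.mk'_surjective M.primeCompl z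
  refine ⟨s, c, s.2, hinj ?_⟩
  have h1 := IsLocalization.mk'_spec (Localization.AtPrime M) c s
  simp only at hz
  rw [map_mul, map_mul, ← hz, ← h1]
  ring

/-- abstract form of `exists_mul_sub_mul_mem`. -/
theorem Comp_cond {E : Type*} [CommRing E] [IsDedekindDomain E] (M : Ideal E) [hM : M.IsPrime]
    (a b : E) : (∃ s c : E, s ∉ M ∧ s * a = c * b) ∨ (∃ s c : E, s ∉ M ∧ s * b = c * a) := by
  by_cases hbot : M = ⊥
  · by_cases hb : b = 0
    · exact Or.inr ⟨1, 0, fun h1 => hM.ne_top ((Ideal.eq_top_iff_one _).2 h1), by simp [hb]⟩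
    · exact Or.inl ⟨b, a, fun hb' => hb (by rwa [hbot, Ideal.mem_bot] at hb'), mul_comm _ _⟩
  · have : IsDiscreteValuationRing (Localization.AtPrime M) :=
      IsLocalization.AtPrime.isDiscreteValuationRing_of_dedekind_domain E hbot _
    obtain ⟨z, hz | hz⟩ := ValuationRing.cond
      (algebraMap E (Localization.AtPrime M) a) (algebraMap E (Localization.AtPrime M) b)
    · exact Or.inr (Comp_step M a b z hz)
    · exact Or.inl (Comp_step M b a z hz)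

/-- In the Dedekind domain `E = C / 𝔭` localised at the maximal ideal `𝔪 / 𝔭` any two nonzero
elements are comparable.  [`IsLocalization.AtPrime.isDiscreteValuationRing_of_dedekind_domain`.] -/
theorem exists_mul_sub_mul_mem (h : CompHyp ϖ 𝒪 C) (𝔪 : Ideal C) (h𝔪 : 𝔪.IsMaximal)
    (hle : vert ϖ 𝒪 C ≤ 𝔪) (a b : C) :
    (∃ s c : C, s ∉ 𝔪 ∧ s * a - c * b ∈ vert ϖ 𝒪 C) ∨
      (∃ s c : C, s ∉ 𝔪 ∧ s * b - c * a ∈ vert ϖ 𝒪 C) := by
  have := h.ded
  have := h𝔪.isPrime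
  have hsurj : Function.Surjective (Ideal.Quotient.mk (vert ϖ 𝒪 C)) :=
    Ideal.Quotient.mk_surjective
  have hker : RingHom.ker (Ideal.Quotient.mk (vert ϖ 𝒪 C)) ≤ 𝔪 := by rwa [Ideal.mk_ker]
  have hMprime : (𝔪.map (Ideal.Quotient.mk (vert ϖ 𝒪 C))).IsPrime :=
    Ideal.map_isPrime_of_surjective hsurj hker
  have step : ∀ a b : C, (∃ s c : C ⧸ vert ϖ 𝒪 C, s ∉ 𝔪.map (Ideal.Quotient.mk (vert ϖ 𝒪 C)) ∧
      s * Ideal.Quotient.mk (vert ϖ 𝒪 C) a = c * Ideal.Quotient.mk (vert ϖ 𝒪 C) b) →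
      ∃ s c : C, s ∉ 𝔪 ∧ s * a - c * b ∈ vert ϖ 𝒪 C := by
    rintro a b ⟨s', c', hs', heq⟩
    obtain ⟨s, rfl⟩ := hsurj s'
    obtain ⟨c, rfl⟩ := hsurj c'
    refine ⟨s, c, fun hs => hs' (Ideal.mem_map_of_mem _ hs), ?_⟩
    rw [← Ideal.Quotient.eq, map_mul, map_mul, heq]
  rcases Comp_cond (𝔪.map (Ideal.Quotient.mk (vert ϖ 𝒪 C))) (Ideal.Quotient.mk (vert ϖ 𝒪 C) a)
    (Ideal.Quotient.mk (vert ϖ 𝒪 C) b) with h1 | h1
  · exact Or.inl (step a b h1)
  · exact Or.inr (step b a h1)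

/-- the carrier of the composite. -/
def Comp_subring (h : CompHyp ϖ 𝒪 C) (𝔪 : Ideal C) (h𝔪 : 𝔪.IsMaximal) : Subring F where
  carrier := {x | ∃ s c : C, s ∉ 𝔪 ∧ ((s : F) * x - (c : F)) / algebraMap R F ϖ ∈ 𝒪}
  mul_mem' := by
    rintro x y ⟨s, c, hs, hx⟩ ⟨t, d, ht, hy⟩
    refine ⟨s * t, c * d, fun hst => (h𝔪.isPrime.mem_or_mem hst).elim hs ht, ?_⟩
    have : (((s * t : C) : F) * (x * y) - ((c * d : C) : F)) / algebraMap R F ϖ =
        ((s : F) * x - c) / algebraMap R F ϖ * d + c * (((t : F) * y - d) / algebraMap R F ϖ) +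
          algebraMap R F ϖ * (((s : F) * x - c) / algebraMap R F ϖ) *
            (((t : F) * y - d) / algebraMap R F ϖ) := by
      have := h.gauss.ne_zero
      push_cast
      field_simp
      ring
    rw [this]
    exact add_mem (add_mem (mul_mem hx (h.le _ d.2)) (mul_mem (h.le _ c.2) hy))
      (mul_mem (mul_mem h.gauss.mem hx) hy)
  one_mem' := ⟨1, 1, fun h1 => h𝔪.ne_top ((Ideal.eq_top_iff_one _).2 h1), by simp⟩
  add_mem' := by
    rintro x y ⟨s, c, hs, hx⟩ ⟨t, d, ht, hy⟩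
    refine ⟨s * t, c * t + d * s, fun hst => (h𝔪.isPrime.mem_or_mem hst).elim hs ht, ?_⟩
    have : (((s * t : C) : F) * (x + y) - ((c * t + d * s : C) : F)) / algebraMap R F ϖ =
        ((s : F) * x - c) / algebraMap R F ϖ * t + ((t : F) * y - d) / algebraMap R F ϖ * s := by
      push_cast
      ring
    rw [this]
    exact add_mem (mul_mem hx (h.le _ t.2)) (mul_mem hy (h.le _ s.2))
  zero_mem' := ⟨1, 0, fun h1 => h𝔪.ne_top ((Ideal.eq_top_iff_one _).2 h1), by simp⟩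
  neg_mem' := by
    rintro x ⟨s, c, hs, hx⟩
    refine ⟨s, -c, hs, ?_⟩
    have : ((s : F) * -x - ((-c : C) : F)) / algebraMap R F ϖ =
        -(((s : F) * x - c) / algebraMap R F ϖ) := by
      push_cast
      ring
    rw [this]
    exact neg_mem hx

/-- Existence of the composite. -/
theorem exists_isComposite (h : CompHyp ϖ 𝒪 C) (𝔪 : Ideal C) (h𝔪 : 𝔪.IsMaximal)
    (hle : vert ϖ 𝒪 C ≤ 𝔪) : ∃ B : ValuationSubring F, IsComposite ϖ 𝒪 C 𝔪 B := by
  have h1 : (1 : C) ∉ 𝔪 := fun h1 => h𝔪.ne_top ((Ideal.eq_top_iff_one _).2 h1)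
  have small : ∀ x : F, x / algebraMap R F ϖ ∈ 𝒪 → x ∈ (Comp_subring h 𝔪 h𝔪).carrier :=
    fun x hx => ⟨1, 0, h1, by simpa using hx⟩
  refine ⟨⟨Comp_subring h 𝔪 h𝔪, fun x => ?_⟩, fun x => Iff.rfl⟩
  by_cases hx : x ∈ 𝒪
  · rcases h.gauss.unif x hx with hx1 | hx1
    · exact Or.inl (small x hx1)
    · by_cases hx0 : x = 0
      · exact Or.inl (small x (by rw [hx0, zero_div]; exact zero_mem 𝒪))
      obtain ⟨b, hbC, hb, hxb⟩ := h.frac x hx
      have hbinv : b⁻¹ ∈ 𝒪 := (h.gauss.unif b (h.le b hbC)).resolve_left hb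
      have hb0 : b ≠ 0 := by
        rintro rfl
        exact hb (by rw [zero_div]; exact zero_mem 𝒪)
      rcases exists_mul_sub_mul_mem h 𝔪 h𝔪 hle ⟨x * b, hxb⟩ ⟨b, hbC⟩ with
        ⟨s, c, hs, hsc⟩ | ⟨s, c, hs, hsc⟩
      · left
        refine ⟨s, c, hs, ?_⟩
        rw [Comp_mem_vert h.le] at hsc
        have : ((s : F) * x - c) / algebraMap R F ϖ =
            (((s * ⟨x * b, hxb⟩ - c * ⟨b, hbC⟩ : C) : F) / algebraMap R F ϖ) * b⁻¹ := by
          push_cast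
          field_simp
        rw [this]
        exact mul_mem hsc hbinv
      · right
        refine ⟨s, c, hs, ?_⟩
        rw [Comp_mem_vert h.le] at hsc
        have : ((s : F) * x⁻¹ - c) / algebraMap R F ϖ =
            (((s * ⟨b, hbC⟩ - c * ⟨x * b, hxb⟩ : C) : F) / algebraMap R F ϖ) * b⁻¹ * x⁻¹ := by
          push_cast
          field_simp
        rw [this]
        exact mul_mem (mul_mem hsc hbinv) hx1
  · right
    apply small
    rw [div_mem_iff_mem_nonunits h.gauss, Comp_mem_nonunits_iff, inv_inv]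
    exact Or.inr hx

variable {𝔪 : Ideal C} {B : ValuationSubring F}

theorem IsComposite.le (h : CompHyp ϖ 𝒪 C) (h𝔪 : 𝔪.IsMaximal) (hle : vert ϖ 𝒪 C ≤ 𝔪)
    (hB : IsComposite ϖ 𝒪 C 𝔪 B) : B ≤ 𝒪 := by
  intro x hx
  obtain ⟨s, c, hs, hsc⟩ := (hB x).1 hx
  have hsinv : (s : F)⁻¹ ∈ 𝒪 := Loc_inv_mem h.gauss h.le 𝔪 hle hs
  have hs0 : (s : F) ≠ 0 := Loc_coe_ne_zero 𝔪 hs
  have : x = (s : F)⁻¹ * (algebraMap R F ϖ * (((s : F) * x - c) / algebraMap R F ϖ) + c) := by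
    have := h.gauss.ne_zero
    field_simp
    ring
  rw [this]
  exact mul_mem hsinv (add_mem (mul_mem h.gauss.mem hsc) (h.le _ c.2))

/-- `𝔪(𝒪) ⊆ 𝔪(B)`. -/
theorem IsComposite.nonunits_le (h : CompHyp ϖ 𝒪 C) (h𝔪 : 𝔪.IsMaximal) (hle : vert ϖ 𝒪 C ≤ 𝔪)
    (hB : IsComposite ϖ 𝒪 C 𝔪 B) : ∀ x ∈ 𝒪.nonunits, x ∈ B.nonunits := by
  intro x hx
  rw [Comp_mem_nonunits_iff] at hx ⊢
  exact hx.imp id fun hx' hxB => hx' (hB.le h h𝔪 hle hxB)

theorem IsComposite.locAt_le (h : CompHyp ϖ 𝒪 C) (h𝔪 : 𝔪.IsMaximal) (hle : vert ϖ 𝒪 C ≤ 𝔪)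
    (hB : IsComposite ϖ 𝒪 C 𝔪 B) :
    haveI := h𝔪.isPrime
    ∀ x ∈ locAt C 𝔪, x ∈ B := by
  rintro x ⟨s, hs, hxs⟩
  refine (hB x).2 ⟨s, ⟨x * s, hxs⟩, hs, ?_⟩
  have : ((s : F) * x - ((⟨x * s, hxs⟩ : C) : F)) / algebraMap R F ϖ = 0 := by
    show ((s : F) * x - x * s) / algebraMap R F ϖ = 0
    rw [mul_comm, sub_self, zero_div]
  rw [this]
  exact zero_mem 𝒪

theorem IsComposite.coe_mem_nonunits_iff (h : CompHyp ϖ 𝒪 C) (h𝔪 : 𝔪.IsMaximal)
    (hle : vert ϖ 𝒪 C ≤ 𝔪) (hB : IsComposite ϖ 𝒪 C 𝔪 B) (c : C) :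
    (c : F) ∈ B.nonunits ↔ c ∈ 𝔪 := by
  have := h𝔪.isPrime
  rw [Comp_mem_nonunits_iff]
  constructor
  · intro hc
    by_contra hc𝔪
    rcases hc with hc | hc
    · exact Loc_coe_ne_zero 𝔪 hc𝔪 hc
    · exact hc (hB.locAt_le h h𝔪 hle _ (inv_mem_locAt_of_not_mem 𝔪 hc𝔪))
  · intro hc
    by_cases hc0 : (c : F) = 0
    · exact Or.inl hc0
    refine Or.inr fun hinv => ?_
    obtain ⟨s, d, hs, hsd⟩ := (hB _).1 hinv
    apply hs
    have hmem : s - d * c ∈ vert ϖ 𝒪 C := by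
      rw [Comp_mem_vert h.le]
      have : ((s - d * c : C) : F) / algebraMap R F ϖ =
          ((s : F) * (c : F)⁻¹ - d) / algebraMap R F ϖ * c := by
        push_cast
        field_simp
      rw [this]
      exact mul_mem hsd (h.le _ c.2)
    have : s = (s - d * c) + d * c := by ring
    rw [this]
    exact 𝔪.add_mem (hle hmem) (𝔪.mul_mem_left _ hc)

end Fermat.Agent.GT.Loc
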