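import Fermat.Agent.GT.Loc.Comp

/-!
GT-LOC, abstract layer, file `CompUnif`: uniformizers of the composite valuation ring `B`, Krull
intersection, residue field, derivations.
-/

set_option autoImplicit false

namespace Fermat.Agent.GT.Loc

open Fermat.Agent.GR.E Fermat.Agent.GS Fermat.Agent.GT

variable {R : Type*} [CommRing R] {F : Type*} [Field F] [Algebra R F]
variable {ϖ : R} {𝒪 : ValuationSubring F} {C : Subalgebra R F}
variable {𝔪 : Ideal C} {B : ValuationSubring F}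

/-! ### helper lemmas on nonunits of a valuation subring -/

theorem CompUnif_add_mem (A : ValuationSubring F) {x y : F} (hx : x ∈ A.nonunits)
    (hy : y ∈ A.nonunits) : x + y ∈ A.nonunits := by
  rw [ValuationSubring.mem_nonunits_iff] at *
  exact lt_of_le_of_lt (A.valuation.map_add x y) (max_lt hx hy)

theorem CompUnif_neg_mem (A : ValuationSubring F) {x : F} (hx : x ∈ A.nonunits) :
    -x ∈ A.nonunits := by
  rw [ValuationSubring.mem_nonunits_iff] at *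
  rwa [Valuation.map_neg]

theorem CompUnif_sub_mem (A : ValuationSubring F) {x y : F} (hx : x ∈ A.nonunits)
    (hy : y ∈ A.nonunits) : x - y ∈ A.nonunits := by
  rw [sub_eq_add_neg]
  exact CompUnif_add_mem A hx (CompUnif_neg_mem A hy)

theorem CompUnif_mul_mem (A : ValuationSubring F) {x y : F} (hx : x ∈ A)
    (hy : y ∈ A.nonunits) : x * y ∈ A.nonunits := by
  rw [ValuationSubring.mem_nonunits_iff] at *
  rw [← A.valuation_le_one_iff] at hx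
  rw [map_mul]
  calc A.valuation x * A.valuation y ≤ 1 * A.valuation y := mul_le_mul_left hx _
    _ = A.valuation y := one_mul _
    _ < 1 := hy

theorem CompUnif_mem_of_nonunits (A : ValuationSubring F) {x : F} (hx : x ∈ A.nonunits) :
    x ∈ A := by
  rw [ValuationSubring.mem_nonunits_iff] at hx
  exact (A.valuation_le_one_iff x).1 hx.le

theorem CompUnif_zero_mem (A : ValuationSubring F) : (0 : F) ∈ A.nonunits := by
  rw [ValuationSubring.mem_nonunits_iff]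
  simp

/-- an element of `A` which is not a nonunit has its inverse in `A`. -/
theorem CompUnif_inv_mem (A : ValuationSubring F) {x : F} (hx : x ∉ A.nonunits) :
    x⁻¹ ∈ A := by
  rw [ValuationSubring.mem_nonunits_iff_or] at hx
  push Not at hx
  exact hx.2

/-- cancel a unit. -/
theorem CompUnif_of_mul_mem (A : ValuationSubring F) {x y : F} (hx : x ∉ A.nonunits)
    (hxy : x * y ∈ A.nonunits) : y ∈ A.nonunits := by
  have hx0 : x ≠ 0 := by
    rintro rfl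
    exact hx (CompUnif_zero_mem A)
  have := CompUnif_mul_mem A (CompUnif_inv_mem A hx) hxy
  rwa [inv_mul_cancel_left₀ hx0] at this

theorem CompUnif_of_mul_mem' (A : ValuationSubring F) {x y : F} (hx : x ∉ A.nonunits)
    (hxy : x * y ∈ A) : y ∈ A := by
  have hx0 : x ≠ 0 := by
    rintro rfl
    exact hx (CompUnif_zero_mem A)
  have := A.mul_mem _ _ (CompUnif_inv_mem A hx) hxy
  rwa [inv_mul_cancel_left₀ hx0] at this

/-! ### helper lemmas on the chart -/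

theorem CompUnif_mem_vert (h : CompHyp ϖ 𝒪 C) (x : C) :
    x ∈ vert ϖ 𝒪 C ↔ (x : F) ∈ 𝒪.nonunits := by
  rw [← div_mem_iff_mem_nonunits h.gauss]
  constructor
  · intro hx
    refine Submodule.span_induction (p := fun (y : C) _ => (y : F) / algebraMap R F ϖ ∈ 𝒪)
      (fun y hy => hy) ?_ ?_ ?_ hx
    · simp
    · intro y z _ _ hy hz
      have : ((y + z : C) : F) / algebraMap R F ϖ
          = (y : F) / algebraMap R F ϖ + (z : F) / algebraMap R F ϖ := by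
        push_cast; ring
      rw [this]
      exact add_mem hy hz
    · intro a y _ hy
      have : ((a • y : C) : F) / algebraMap R F ϖ = (a : F) * ((y : F) / algebraMap R F ϖ) := by
        rw [smul_eq_mul]; push_cast; ring
      rw [this]
      exact mul_mem (h.le _ a.2) hy
  · intro hx
    exact Ideal.subset_span hx

/-- the defining property of `B` in terms of `𝔪(𝒪)`. -/
theorem IsComposite.CompUnif_mem_iff (h : CompHyp ϖ 𝒪 C) (hB : IsComposite ϖ 𝒪 C 𝔪 B) (x : F) :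
    x ∈ B ↔ ∃ s c : C, s ∉ 𝔪 ∧ (s : F) * x - (c : F) ∈ 𝒪.nonunits := by
  rw [hB x]
  simp only [div_mem_iff_mem_nonunits h.gauss]

theorem IsComposite.CompUnif_coe_mem (h : CompHyp ϖ 𝒪 C) (h𝔪 : 𝔪.IsMaximal)
    (hB : IsComposite ϖ 𝒪 C 𝔪 B) (c : C) : (c : F) ∈ B := by
  rw [hB.CompUnif_mem_iff h]
  refine ⟨1, c, fun h1 => h𝔪.ne_top ((Ideal.eq_top_iff_one _).2 h1), ?_⟩
  simp [CompUnif_zero_mem 𝒪]

theorem CompUnif_not_mem_nonunits (h : CompHyp ϖ 𝒪 C) (hle : vert ϖ 𝒪 C ≤ 𝔪) {s : C}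
    (hs : s ∉ 𝔪) : (s : F) ∉ 𝒪.nonunits := fun h1 =>
  hs (hle ((CompUnif_mem_vert h s).2 h1))

/-- a nonunit of `B` is represented by `c ∈ 𝔪`. -/
theorem IsComposite.CompUnif_exists_of_nonunit (h : CompHyp ϖ 𝒪 C) (h𝔪 : 𝔪.IsMaximal)
    (hle : vert ϖ 𝒪 C ≤ 𝔪) (hB : IsComposite ϖ 𝒪 C 𝔪 B) {x : F} (hx : x ∈ B.nonunits) :
    ∃ s c : C, s ∉ 𝔪 ∧ c ∈ 𝔪 ∧ (s : F) * x - (c : F) ∈ 𝒪.nonunits := by
  obtain ⟨s, c, hs, hsc⟩ := (hB.CompUnif_mem_iff h x).1 (CompUnif_mem_of_nonunits B hx)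
  refine ⟨s, c, hs, ?_, hsc⟩
  rw [← hB.coe_mem_nonunits_iff h h𝔪 hle]
  have h1 : (s : F) * x ∈ B.nonunits := CompUnif_mul_mem B (hB.CompUnif_coe_mem h h𝔪 s) hx
  have h2 := CompUnif_sub_mem B h1 (hB.nonunits_le h h𝔪 hle _ hsc)
  simpa using h2

/-- the maximal ideal `M = 𝔪 / 𝔭` of `E = C / 𝔭`: membership. -/
theorem CompUnif_mk_mem_map (hle : vert ϖ 𝒪 C ≤ 𝔪) (c : C) :
    Ideal.Quotient.mk (vert ϖ 𝒪 C) c ∈ 𝔪.map (Ideal.Quotient.mk (vert ϖ 𝒪 C)) ↔ c ∈ 𝔪 := by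
  have hsurj : Function.Surjective (Ideal.Quotient.mk (vert ϖ 𝒪 C)) :=
    Ideal.Quotient.mk_surjective
  have hcomap : (𝔪.map (Ideal.Quotient.mk (vert ϖ 𝒪 C))).comap
      (Ideal.Quotient.mk (vert ϖ 𝒪 C)) = 𝔪 := by
    rw [Ideal.comap_map_of_surjective _ hsurj, ← RingHom.ker_eq_comap_bot, Ideal.mk_ker]
    exact sup_eq_left.mpr hle
  rw [← Ideal.mem_comap, hcomap]

theorem CompUnif_map_isMaximal (h𝔪 : 𝔪.IsMaximal) (hle : vert ϖ 𝒪 C ≤ 𝔪) :
    (𝔪.map (Ideal.Quotient.mk (vert ϖ 𝒪 C))).IsMaximal := by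
  have hsurj : Function.Surjective (Ideal.Quotient.mk (vert ϖ 𝒪 C)) :=
    Ideal.Quotient.mk_surjective
  rcases Ideal.map_eq_top_or_isMaximal_of_surjective _ hsurj h𝔪 with h1 | h1
  · exfalso
    have : Ideal.Quotient.mk (vert ϖ 𝒪 C) 1 ∈ 𝔪.map (Ideal.Quotient.mk (vert ϖ 𝒪 C)) := by
      rw [h1]; trivial
    rw [CompUnif_mk_mem_map hle] at this
    exact h𝔪.ne_top ((Ideal.eq_top_iff_one _).2 this)
  · exact h1

/-- A uniformizer of `B`: any `g ∈ 𝔪` whose image generates the maximal ideal of `E_𝔪`.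
(If `𝔪 = 𝔭` were possible there would be none; `E` is a Dedekind domain which is not a field by
`hne`.) -/
theorem IsComposite.exists_uniformizer (h : CompHyp ϖ 𝒪 C) (h𝔪 : 𝔪.IsMaximal)
    (hle : vert ϖ 𝒪 C ≤ 𝔪) (hne : vert ϖ 𝒪 C ≠ 𝔪) (hB : IsComposite ϖ 𝒪 C 𝔪 B) :
    ∃ g : C, g ∈ 𝔪 ∧ (g : F) ∉ 𝒪.nonunits ∧ ∀ x ∈ B.nonunits, x / (g : F) ∈ B := by
  have := h.ded
  set mk := Ideal.Quotient.mk (vert ϖ 𝒪 C) with hmk
  set M := 𝔪.map mk with hM
  have hMmax : M.IsMaximal := CompUnif_map_isMaximal h𝔪 hle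
  have hMprime : M.IsPrime := hMmax.isPrime
  have hM0 : M ≠ ⊥ := by
    intro h0
    apply hne
    refine le_antisymm hle fun c hc => ?_
    have : mk c ∈ M := (CompUnif_mk_mem_map hle c).2 hc
    rw [h0, Ideal.mem_bot, Ideal.Quotient.eq_zero_iff_mem] at this
    exact this
  obtain ⟨gb, hgb1, hgb2⟩ := Ideal.exists_mem_pow_notMem_pow_succ M hM0 hMmax.ne_top 1
  obtain ⟨g, rfl⟩ := Ideal.Quotient.mk_surjective gb
  rw [pow_one] at hgb1
  have hg𝔪 : g ∈ 𝔪 := (CompUnif_mk_mem_map hle g).1 hgb1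
  have hg𝒪 : (g : F) ∉ 𝒪.nonunits := by
    intro h1
    apply hgb2
    rw [← CompUnif_mem_vert h, ← Ideal.Quotient.eq_zero_iff_mem] at h1
    rw [h1]
    exact zero_mem _
  have hg0 : (g : F) ≠ 0 := by
    intro h0
    apply hg𝒪
    rw [h0]
    exact CompUnif_zero_mem 𝒪
  -- every `c ∈ 𝔪` is divisible by `g` near `𝔪`, modulo `𝔭`
  have key : ∀ c ∈ 𝔪, ∃ s c' : C, s ∉ 𝔪 ∧ s * c - c' * g ∈ vert ϖ 𝒪 C := by
    intro c hc
    rcases exists_mul_sub_mul_mem h 𝔪 h𝔪 hle c g with h1 | ⟨s, c', hs, h1⟩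
    · exact h1
    · by_cases hc' : c' ∈ 𝔪
      · exfalso
        apply hgb2
        have h2 : mk s * mk g = mk c' * mk c := by
          rw [← map_mul, ← map_mul, ← sub_eq_zero, ← map_sub]
          exact Ideal.Quotient.eq_zero_iff_mem.2 h1
        have h3 : mk s * mk g ∈ M ^ (1 + 1) := by
          rw [h2, pow_succ, pow_one]
          exact Ideal.mul_mem_mul ((CompUnif_mk_mem_map hle c').2 hc')
            ((CompUnif_mk_mem_map hle c).2 hc)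
        rcases Ideal.IsPrime.mul_mem_pow M h3 with h4 | h4
        · exact absurd ((CompUnif_mk_mem_map hle s).1 h4) hs
        · exact h4
      · refine ⟨c', s, hc', ?_⟩
        have : c' * c - s * g = -(s * g - c' * c) := by ring
        rw [this]
        exact neg_mem h1
  refine ⟨g, hg𝔪, hg𝒪, fun x hx => ?_⟩
  obtain ⟨s, c, hs, hc, hsc⟩ := hB.CompUnif_exists_of_nonunit h h𝔪 hle hx
  obtain ⟨s', c', hs', hc'⟩ := key c hc
  rw [hB.CompUnif_mem_iff h]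
  refine ⟨s' * s, c', fun h1 => (h𝔪.isPrime.mem_or_mem h1).elim hs' hs, ?_⟩
  rw [CompUnif_mem_vert h] at hc'
  have h5 : ((s' * s : C) : F) * (x / (g : F)) - (c' : F)
      = (g : F)⁻¹ * ((s' : F) * ((s : F) * x - c) + ((s' * c - c' * g : C) : F)) := by
    push_cast
    field_simp
    ring
  rw [h5]
  exact CompUnif_mul_mem 𝒪 (CompUnif_inv_mem 𝒪 hg𝒪)
    (CompUnif_add_mem 𝒪 (CompUnif_mul_mem 𝒪 (h.le _ s'.2) hsc) hc')

/-- an element congruent to a uniformizer modulo `𝔪(𝒪)` is a uniformizer. -/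
theorem IsComposite.uniformizer_congr (h : CompHyp ϖ 𝒪 C) (h𝔪 : 𝔪.IsMaximal)
    (hle : vert ϖ 𝒪 C ≤ 𝔪) (hB : IsComposite ϖ 𝒪 C 𝔪 B) {g g₁ : F} (hg : g ∈ B.nonunits)
    (hg' : g ∉ 𝒪.nonunits) (hu : ∀ x ∈ B.nonunits, x / g ∈ B) (hgg : g - g₁ ∈ 𝒪.nonunits) :
    g₁ ∈ B.nonunits ∧ g₁ ∉ 𝒪.nonunits ∧ ∀ x ∈ B.nonunits, x / g₁ ∈ B := by
  have h1 : g₁ ∈ B.nonunits := by
    have := CompUnif_sub_mem B hg (hB.nonunits_le h h𝔪 hle _ hgg)
    simpa using this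
  have h2 : g₁ ∉ 𝒪.nonunits := by
    intro h3
    apply hg'
    have := CompUnif_add_mem 𝒪 hgg h3
    simpa using this
  refine ⟨h1, h2, fun x hx => ?_⟩
  have hg0 : g ≠ 0 := by
    rintro rfl
    exact hg' (CompUnif_zero_mem 𝒪)
  have hg₁0 : g₁ ≠ 0 := by
    rintro rfl
    exact h2 (CompUnif_zero_mem 𝒪)
  have h3 : x / g₁ = x / g * (1 + g₁⁻¹ * (g - g₁)) := by
    field_simp
    ring
  rw [h3]
  refine B.mul_mem _ _ (hu x hx) (B.add_mem _ _ B.one_mem ?_)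
  exact CompUnif_mem_of_nonunits B (hB.nonunits_le h h𝔪 hle _
    (CompUnif_mul_mem 𝒪 (CompUnif_inv_mem 𝒪 h2) hgg))

/-- `⋂ gᵐ B = 𝔪(𝒪)` (Krull intersection in the DVR `E_𝔪`). -/
theorem IsComposite.mem_nonunits_of_forall_div_pow_mem (h : CompHyp ϖ 𝒪 C) (h𝔪 : 𝔪.IsMaximal)
    (hle : vert ϖ 𝒪 C ≤ 𝔪) (hB : IsComposite ϖ 𝒪 C 𝔪 B) {g : F} (hg : g ∈ B.nonunits)
    (hg0 : g ≠ 0) {x : F} (hx : ∀ m : ℕ, x / g ^ m ∈ B) : x ∈ 𝒪.nonunits := by
  have hB𝒪 : B ≤ 𝒪 := hB.le h h𝔪 hle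
  by_cases hg𝒪 : g ∈ 𝒪.nonunits
  · have h1 : x / g ^ 1 ∈ 𝒪 := hB𝒪 (hx 1)
    have h2 := CompUnif_mul_mem 𝒪 h1 hg𝒪
    rwa [pow_one, div_mul_cancel₀ _ hg0] at h2
  have := h.ded
  set mk := Ideal.Quotient.mk (vert ϖ 𝒪 C) with hmk
  set M := 𝔪.map mk with hM
  have hMmax : M.IsMaximal := CompUnif_map_isMaximal h𝔪 hle
  have hMprime : M.IsPrime := hMmax.isPrime
  have hg𝒪' : g ∈ 𝒪 := hB𝒪 (CompUnif_mem_of_nonunits B hg)
  obtain ⟨s, c, hs, hsc⟩ := (hB.CompUnif_mem_iff h x).1 (by simpa using hx 0)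
  obtain ⟨t, d, ht, hd, htd⟩ := hB.CompUnif_exists_of_nonunit h h𝔪 hle hg
  -- `(t g) ^ m ≡ d ^ m`
  have hpow : ∀ m : ℕ, ((t : F) * g) ^ m - (d : F) ^ m ∈ 𝒪.nonunits := by
    intro m
    obtain ⟨z, hz⟩ := sub_dvd_pow_sub_pow
      (⟨(t : F) * g, 𝒪.mul_mem _ _ (h.le _ t.2) hg𝒪'⟩ : 𝒪) ⟨(d : F), h.le _ d.2⟩ m
    have hz' : ((t : F) * g) ^ m - (d : F) ^ m = (z : F) * ((t : F) * g - d) := by
      have := congrArg (fun y : 𝒪 => (y : F)) hz
      push_cast at this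
      rw [this]
      ring
    rw [hz']
    exact CompUnif_mul_mem 𝒪 z.2 htd
  have hcM : ∀ m : ℕ, mk c ∈ M ^ m := by
    intro m
    obtain ⟨sm, cm, hsm, hscm⟩ := (hB.CompUnif_mem_iff h _).1 (hx m)
    have h1 : sm * t ^ m * c - s * cm * d ^ m ∈ vert ϖ 𝒪 C := by
      rw [CompUnif_mem_vert h]
      have h2 : ((sm * t ^ m * c - s * cm * d ^ m : C) : F)
          = (s : F) * (t : F) ^ m * g ^ m * ((sm : F) * (x / g ^ m) - cm)
            - (sm : F) * (t : F) ^ m * ((s : F) * x - c)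
            + (s : F) * cm * (((t : F) * g) ^ m - (d : F) ^ m) := by
        push_cast
        have : g ^ m ≠ 0 := pow_ne_zero _ hg0
        field_simp
        ring
      rw [h2]
      refine CompUnif_add_mem 𝒪 (CompUnif_sub_mem 𝒪 (CompUnif_mul_mem 𝒪 ?_ hscm)
        (CompUnif_mul_mem 𝒪 ?_ hsc)) (CompUnif_mul_mem 𝒪 ?_ (hpow m))
      · exact 𝒪.mul_mem _ _ (𝒪.mul_mem _ _ (h.le _ s.2) (𝒪.pow_mem (h.le _ t.2) m))
          (𝒪.pow_mem hg𝒪' m)
      · exact 𝒪.mul_mem _ _ (h.le _ sm.2) (𝒪.pow_mem (h.le _ t.2) m)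
      · exact 𝒪.mul_mem _ _ (h.le _ s.2) (h.le _ cm.2)
    have h3 : mk (sm * t ^ m) * mk c = mk (s * cm) * mk d ^ m := by
      rw [← map_pow, ← map_mul, ← map_mul, ← sub_eq_zero, ← map_sub]
      exact Ideal.Quotient.eq_zero_iff_mem.2 h1
    have h4 : mk (sm * t ^ m) * mk c ∈ M ^ m := by
      rw [h3]
      exact Ideal.mul_mem_left _ _ (Ideal.pow_mem_pow ((CompUnif_mk_mem_map hle d).2 hd) m)
    rcases Ideal.IsPrime.mul_mem_pow M h4 with h5 | h5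
    · exfalso
      rw [CompUnif_mk_mem_map hle] at h5
      rcases h𝔪.isPrime.mem_or_mem h5 with h6 | h6
      · exact hsm h6
      · exact ht (h𝔪.isPrime.mem_of_pow_mem _ h6)
    · exact h5
  have hc0 : mk c = 0 := by
    have h1 : mk c ∈ ⨅ i : ℕ, M ^ i := by
      rw [Ideal.mem_iInf]
      exact hcM
    rw [Ideal.iInf_pow_eq_bot_of_isDomain M hMmax.ne_top] at h1
    exact h1
  rw [Ideal.Quotient.eq_zero_iff_mem, CompUnif_mem_vert h] at hc0
  have h7 := CompUnif_add_mem 𝒪 hsc hc0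
  rw [sub_add_cancel] at h7
  exact CompUnif_of_mul_mem 𝒪 (CompUnif_not_mem_nonunits h hle hs) h7

/-- the residue field of `B` is `C / 𝔪`. -/
theorem IsComposite.pow_sub_mem_nonunits (h : CompHyp ϖ 𝒪 C) (h𝔪 : 𝔪.IsMaximal)
    (hle : vert ϖ 𝒪 C ≤ 𝔪) (hB : IsComposite ϖ 𝒪 C 𝔪 B) {Q : ℕ}
    (hQ : ∀ c : C, c ^ Q - c ∈ 𝔪) : ∀ x ∈ B, x ^ Q - x ∈ B.nonunits := by
  intro x hx
  obtain ⟨s, c, hs, hsc⟩ := (hB.CompUnif_mem_iff h x).1 hx
  have hsB : (s : F) ∈ B := hB.CompUnif_coe_mem h h𝔪 s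
  have hcB : (c : F) ∈ B := hB.CompUnif_coe_mem h h𝔪 c
  have hsu : (s : F) ∉ B.nonunits := fun h1 => hs ((hB.coe_mem_nonunits_iff h h𝔪 hle s).1 h1)
  have hsc' : (s : F) * x - c ∈ B.nonunits := hB.nonunits_le h h𝔪 hle _ hsc
  have h1 : ((s : F) * x) ^ Q - (c : F) ^ Q ∈ B.nonunits := by
    obtain ⟨z, hz⟩ := sub_dvd_pow_sub_pow
      (⟨(s : F) * x, B.mul_mem _ _ hsB hx⟩ : B) ⟨(c : F), hcB⟩ Q
    have hz' : ((s : F) * x) ^ Q - (c : F) ^ Q = (z : F) * ((s : F) * x - c) := by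
      have := congrArg (fun y : B => (y : F)) hz
      push_cast at this
      rw [this]
      ring
    rw [hz']
    exact CompUnif_mul_mem B z.2 hsc'
  have h2 : (s : F) ^ Q - s ∈ B.nonunits := by
    have := (hB.coe_mem_nonunits_iff h h𝔪 hle (s ^ Q - s)).2 (hQ s)
    simpa using this
  have h3 : (c : F) ^ Q - c ∈ B.nonunits := by
    have := (hB.coe_mem_nonunits_iff h h𝔪 hle (c ^ Q - c)).2 (hQ c)
    simpa using this
  apply CompUnif_of_mul_mem B hsu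
  have h4 : (s : F) * (x ^ Q - x) = (((s : F) * x) ^ Q - (c : F) ^ Q) + ((c : F) ^ Q - c)
      - ((s : F) * x - c) - x ^ Q * ((s : F) ^ Q - s) := by
    ring
  rw [h4]
  exact CompUnif_sub_mem B (CompUnif_sub_mem B (CompUnif_add_mem B h1 h3) hsc')
    (CompUnif_mul_mem B (B.pow_mem hx Q) h2)

/-- a derivation with bounded denominators on `C` has bounded denominators on `B`. -/
theorem IsComposite.exists_pow_mul_deriv_mem (h : CompHyp ϖ 𝒪 C) (h𝔪 : 𝔪.IsMaximal)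
    (hle : vert ϖ 𝒪 C ≤ 𝔪) (hB : IsComposite ϖ 𝒪 C 𝔪 B) (D : Derivation R F F)
    (hD : ∀ x ∈ 𝒪, D x ∈ 𝒪)
    (hbdd : ∃ e ∈ C, e / algebraMap R F ϖ ∉ 𝒪 ∧ ∀ c ∈ C, e * D c ∈ C)
    {g : F} (hg : g ∈ B.nonunits) (hg' : g ∉ 𝒪.nonunits) (hu : ∀ x ∈ B.nonunits, x / g ∈ B) :
    ∃ N : ℕ, ∀ x ∈ B, g ^ N * D x ∈ B := by
  obtain ⟨e, heC, he𝒪, heD⟩ := hbdd
  rw [div_mem_iff_mem_nonunits h.gauss] at he𝒪
  have hg0 : g ≠ 0 := by
    rintro rfl
    exact hg' (CompUnif_zero_mem 𝒪)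
  have he0 : e ≠ 0 := by
    rintro rfl
    exact he𝒪 (CompUnif_zero_mem 𝒪)
  have hCB : ∀ c ∈ C, c ∈ B := fun c hc => hB.CompUnif_coe_mem h h𝔪 ⟨c, hc⟩
  -- `e D x ∈ B`
  have key : ∀ x ∈ B, e * D x ∈ B := by
    intro x hx
    obtain ⟨s, c, hs, hsc⟩ := (hB x).1 hx
    set o := ((s : F) * x - c) / algebraMap R F ϖ with ho
    have hsu : (s : F) ∉ B.nonunits := fun h1 => hs ((hB.coe_mem_nonunits_iff h h𝔪 hle s).1 h1)
    have h1 : (s : F) * x = c + algebraMap R F ϖ * o := by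
      rw [ho, mul_div_cancel₀ _ h.gauss.ne_zero]
      ring
    have h2 : (s : F) * D x + x * D (s : F) = D (c : F) + algebraMap R F ϖ * D o := by
      have := congrArg D h1
      rw [Derivation.leibniz, map_add, Derivation.leibniz, Derivation.map_algebraMap] at this
      simpa [smul_eq_mul] using this
    apply CompUnif_of_mul_mem' B hsu
    have h3 : (s : F) * (e * D x) = e * D (c : F) - x * (e * D (s : F))
        + e * D o * algebraMap R F ϖ := by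
      have : (s : F) * D x = D (c : F) + algebraMap R F ϖ * D o - x * D (s : F) := by
        rw [← h2]; ring
      calc (s : F) * (e * D x) = e * ((s : F) * D x) := by ring
        _ = _ := by rw [this]; ring
    rw [h3]
    refine B.add_mem _ _ (B.sub_mem (hCB _ (heD _ c.2)) (B.mul_mem _ _ hx (hCB _ (heD _ s.2)))) ?_
    apply CompUnif_mem_of_nonunits B
    apply hB.nonunits_le h h𝔪 hle
    apply CompUnif_mul_mem 𝒪 (𝒪.mul_mem _ _ (h.le _ heC) (hD _ hsc))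
    rw [← div_mem_iff_mem_nonunits h.gauss, div_self h.gauss.ne_zero]
    exact 𝒪.one_mem
  -- `g ^ N / e ∈ B`
  have hN : ∃ N : ℕ, e / g ^ N ∉ B := by
    by_contra hcon
    push Not at hcon
    exact he𝒪 (hB.mem_nonunits_of_forall_div_pow_mem h h𝔪 hle hg hg0 hcon)
  obtain ⟨N, hN⟩ := hN
  refine ⟨N, fun x hx => ?_⟩
  have h1 : (e / g ^ N)⁻¹ ∈ B := (B.mem_or_inv_mem _).resolve_left hN
  have h2 : g ^ N * D x = (e / g ^ N)⁻¹ * (e * D x) := by
    have : g ^ N ≠ 0 := pow_ne_zero _ hg0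
    field_simp
  rw [h2]
  exact B.mul_mem _ _ h1 (key x hx)

end Fermat.Agent.GT.Loc
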