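import Fermat.Agent.GT.Abs.Basic
import Fermat.Agent.GS.Abs.Loc

/-!
# Project GT, module LOC (regularity of the charts), abstract layer: definitions

`R` a DVR with uniformizer `ϖ`, `F` a field over `R`, `C` a chart (an `R`-subalgebra of `F`),
`𝒪 : ι → ValuationSubring F` the vertical valuation rings, `vertI (𝒪 i) C` the vertical primes.

* `PrinAt 𝒪 C 𝔪 X` : the vertical prime of `𝒪` is generated by `X` in the local ring `C_𝔪`.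
* `RegAt 𝒪 C 𝔪` : one of the vertical primes through `𝔪` is principal in `C_𝔪`
  (then `C_𝔪` is a UFD, because `C / vertI (𝒪 i) C` is Dedekind).
* `RegNode ϖ 𝒪₁ 𝒪₂ C 𝔪` : (level `q N₀`, language of GS) `ϖ = x y / G` with `x ∈ 𝔭₁`, `y ∈ 𝔭₂`,
  `G ∉ 𝔪`.
* `IsComposite ϖ 𝒪 C 𝔪 B` : `B` is the composite of `𝒪` with the valuation ring of the point `𝔪` of
  the component `C / 𝔭`; a valuation subring of `F` of rank two.
-/

set_option autoImplicit false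

namespace Fermat.Agent.GT.Loc

open Fermat.Agent.GR.E Fermat.Agent.GS Fermat.Agent.GT

variable {R : Type*} [CommRing R] {F : Type*} [Field F] [Algebra R F] {ι : Type*}

/-- `vertI 𝒪 C` is principal in the local ring of `C` at `𝔪`, generated by `X`. -/
def PrinAt (𝒪 : ValuationSubring F) (C : Subalgebra R F) (𝔪 : Ideal C) (X : C) : Prop :=
  X ∈ vertI 𝒪 C ∧ ∀ f ∈ vertI 𝒪 C, ∃ s : C, s ∉ 𝔪 ∧ X ∣ s * f

/-- One of the vertical primes through `𝔪` is principal in the local ring of `C` at `𝔪`. -/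
def RegAt (𝒪 : ι → ValuationSubring F) (C : Subalgebra R F) (𝔪 : Ideal C) : Prop :=
  ∃ i, vertI (𝒪 i) C ≤ 𝔪 ∧ ∃ X : C, PrinAt (𝒪 i) C 𝔪 X

/-- (language of GS: both valuations have uniformizer `ϖ`) near `𝔪` we have `ϖ = x y / G`,
`x ∈ 𝔭₁`, `y ∈ 𝔭₂`, `G` a unit at `𝔪`. -/
def RegNode (ϖ : R) (𝒪₁ 𝒪₂ : ValuationSubring F) (C : Subalgebra R F) (𝔪 : Ideal C) : Prop :=
  ∃ x y G : C, (x : F) / algebraMap R F ϖ ∈ 𝒪₁ ∧ (y : F) / algebraMap R F ϖ ∈ 𝒪₂ ∧ G ∉ 𝔪 ∧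
    x * y = algebraMap R C ϖ * G

/-- `B = {x ∈ 𝒪 : the residue of x is regular at the point 𝔪 of the component C / 𝔭}`. -/
def IsComposite (ϖ : R) (𝒪 : ValuationSubring F) (C : Subalgebra R F) (𝔪 : Ideal C)
    (B : ValuationSubring F) : Prop :=
  ∀ x : F, x ∈ B ↔ ∃ s c : C, s ∉ 𝔪 ∧ ((s : F) * x - (c : F)) / algebraMap R F ϖ ∈ 𝒪

/-- What is needed at a point `𝔪` which lies only on the component `𝒪b` of multiplicity `e`:
`Y` is a uniformizer of `𝒪b`, regular at `𝔪`, and `Y ^ e / ϖ ≡ - γ` with `γ` a unit at `𝔪`. -/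
def MidAt (ϖ : R) (𝒪b : ValuationSubring F) (C : Subalgebra R F) (𝔪 : Ideal C) [𝔪.IsPrime]
    (e : ℕ) : Prop :=
  ∃ Y γ : F, γ ≠ 0 ∧ Y ∈ locAt C 𝔪 ∧ γ ∈ locAt C 𝔪 ∧ γ⁻¹ ∈ locAt C 𝔪 ∧
    Y ^ e / algebraMap R F ϖ + γ ∈ 𝒪b.nonunits ∧ ∀ f ∈ 𝒪b.nonunits, f / Y ∈ 𝒪b

/-- The chart-level hypotheses of the theta trick (level `q N₀`).  `ϖ = q`, `D = θ / θ s` a
derivation of `F` preserving the Gauss ring `𝒪₁ = 𝒪_∞`, `γ = γ₀ = (1/q) D (V s)`.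
`lift` : every element of `C` is congruent modulo `𝔭₁` to some `g` (coming from level `N₀`) which
has a Frobenius lift `g' = V (σ g) ≡ g ^ q`, and `D g' = q γ V (σ (D g))`, `V (σ (D g)) ≡ (D g) ^ q`.
-/
structure ThetaData (ϖ : R) (q : ℕ) (𝒪₁ : ValuationSubring F) (C : Subalgebra R F)
    (D : Derivation R F F) (γ : F) : Prop where
  unif : algebraMap R F ϖ = (q : F)
  D_mem : ∀ x ∈ 𝒪₁, D x ∈ 𝒪₁
  bdd : ∃ e ∈ C, e / algebraMap R F ϖ ∉ 𝒪₁ ∧ ∀ c ∈ C, e * D c ∈ C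
  lift : ∀ z ∈ C, ∃ g ∈ C, (z - g) / algebraMap R F ϖ ∈ 𝒪₁ ∧
    ∃ g' ∈ C, (g ^ q - g') / algebraMap R F ϖ ∈ 𝒪₁ ∧
      ∃ d' : F, D g' = algebraMap R F ϖ * γ * d' ∧ (d' - D g ^ q) / algebraMap R F ϖ ∈ 𝒪₁

variable {F1 : Type*} [Field F1] [Algebra R F1]

/-- The restriction `C1 → C` of an embedding `φ : F1 → F` of function fields. -/
def pull (φ : F1 →ₐ[R] F) (C1 : Subalgebra R F1) (C : Subalgebra R F)
    (h : ∀ x ∈ C1, φ x ∈ C) : C1 →ₐ[R] C :=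
  (φ.comp C1.val).codRestrict C (fun x => h x x.2)

@[simp] theorem coe_pull (φ : F1 →ₐ[R] F) (C1 : Subalgebra R F1) (C : Subalgebra R F)
    (h : ∀ x ∈ C1, φ x ∈ C) (x : C1) : ((pull φ C1 C h x : C) : F) = φ x := rfl

/-- `φ : F1 → F` is one of the two degeneracy maps from level `q² N₀` to level `q N₀`.
`𝒪 i₀` is the only vertical valuation ring of `F` above `𝒪₂`, it is unramified over it and the
residue extension is purely inseparable; all the other `𝒪 i` lie above `𝒪₁`. -/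
structure Over (ϖ : R) (φ : F1 →ₐ[R] F) (𝒪₁ 𝒪₂ : ValuationSubring F1) (C1 : Subalgebra R F1)
    (𝒪 : ι → ValuationSubring F) (C : Subalgebra R F) (i₀ : ι) : Prop where
  map_mem : ∀ x ∈ C1, φ x ∈ C
  integral : (pull φ C1 C map_mem).toRingHom.IsIntegral
  comap₀ : ∀ x, φ x ∈ 𝒪 i₀ ↔ x ∈ 𝒪₂
  comap : ∀ i, i ≠ i₀ → ∀ x, φ x ∈ 𝒪 i ↔ x ∈ 𝒪₁
  gauss : GaussRing ϖ (𝒪 i₀)
  insep : ∀ z ∈ C, ∃ k : ℕ, 0 < k ∧ ∃ c ∈ C1, z ^ k - φ c ∈ (𝒪 i₀).nonunits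

end Fermat.Agent.GT.Loc
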