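import Mathlib

/-!
GT-LOC, abstract layer, file `Deriv` (Mathlib only): THE DERIVATION LEMMA (blueprint #1030 (D2),
#901 (3)) in the language of composite valuation rings, and the core of the theta trick.

`B ≤ 𝒪` valuation subrings of a field `F`, `𝔪(𝒪) ⊆ B` (so `B / 𝔪(𝒪)` is a valuation ring `V` of the
residue field `κ` of `𝒪`), `g` a uniformizer of `B` which is a unit of `𝒪` (so `V` is a DVR with
uniformizer `ḡ`), `D` a derivation of `F` preserving `𝒪` and `𝔪(𝒪)` (so it induces `D̄` on `κ`).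
-/

set_option autoImplicit false

namespace Fermat.Agent.GT.Loc

variable {R : Type*} [CommRing R] {F : Type*} [Field F] [Algebra R F]

/-! ### small API for `nonunits` -/

theorem Deriv_zero_mem (A : ValuationSubring F) : (0 : F) ∈ A.nonunits := by
  rw [ValuationSubring.mem_nonunits_iff]; simp

theorem Deriv_add_mem {A : ValuationSubring F} {x y : F} (hx : x ∈ A.nonunits)
    (hy : y ∈ A.nonunits) : x + y ∈ A.nonunits := by
  rw [ValuationSubring.mem_nonunits_iff] at *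
  exact A.valuation.map_add_lt hx hy

theorem Deriv_neg_mem {A : ValuationSubring F} {x : F} (hx : x ∈ A.nonunits) :
    -x ∈ A.nonunits := by
  rw [ValuationSubring.mem_nonunits_iff] at *
  rwa [Valuation.map_neg]

theorem Deriv_sub_mem {A : ValuationSubring F} {x y : F} (hx : x ∈ A.nonunits)
    (hy : y ∈ A.nonunits) : x - y ∈ A.nonunits := by
  rw [sub_eq_add_neg]
  exact Deriv_add_mem hx (Deriv_neg_mem hy)

theorem Deriv_mul_mem {A : ValuationSubring F} {x y : F} (hx : x ∈ A)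
    (hy : y ∈ A.nonunits) : x * y ∈ A.nonunits := by
  rw [ValuationSubring.mem_nonunits_iff] at *
  rw [← A.valuation_le_one_iff] at hx
  rw [map_mul]
  exact lt_of_le_of_lt (mul_le_of_le_one_left' hx) hy

theorem Deriv_mem_of_nonunits {A : ValuationSubring F} {x : F} (hx : x ∈ A.nonunits) : x ∈ A := by
  rw [ValuationSubring.mem_nonunits_iff] at hx
  exact (A.valuation_le_one_iff x).1 hx.le

theorem Deriv_inv_mem {A : ValuationSubring F} {x : F} (hx : x ∉ A.nonunits) : x⁻¹ ∈ A := by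
  rw [ValuationSubring.mem_nonunits_iff, not_lt] at hx
  rw [← A.valuation_le_one_iff, map_inv₀]
  exact inv_le_one_of_one_le₀ hx

theorem Deriv_inv_mem_of_not_mem {A : ValuationSubring F} {x : F} (hx : x ∉ A) : x⁻¹ ∈ A :=
  (A.mem_or_inv_mem x).resolve_left hx

theorem Deriv_ne_zero {A : ValuationSubring F} {x : F} (hx : x ∉ A.nonunits) : x ≠ 0 := by
  rintro rfl
  exact hx (Deriv_zero_mem A)

theorem Deriv_one_not_mem (A : ValuationSubring F) : (1 : F) ∉ A.nonunits := by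
  rw [ValuationSubring.mem_nonunits_iff]; simp

/-- The hypotheses of the derivation lemma. -/
structure DerivHyp (D : Derivation R F F) (𝒪 B : ValuationSubring F) (g : F) : Prop where
  le : B ≤ 𝒪
  nonunits_le : ∀ x ∈ 𝒪.nonunits, x ∈ B.nonunits
  D_mem : ∀ x ∈ 𝒪, D x ∈ 𝒪
  D_nonunits : ∀ x ∈ 𝒪.nonunits, D x ∈ 𝒪.nonunits
  g_mem : g ∈ B.nonunits
  g_unit : g ∉ 𝒪.nonunits
  unif : ∀ x ∈ B.nonunits, x / g ∈ B
  krull : ∀ x : F, (∀ m : ℕ, x / g ^ m ∈ B) → x ∈ 𝒪.nonunits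
  /-- the residue field of `B` is finite with `Q` elements, `Q = 0` in `κ` -/
  res : ∃ Q : ℕ, (Q : F) ∈ 𝒪.nonunits ∧ ∀ x ∈ B, x ^ Q - x ∈ B.nonunits
  bdd : ∃ N : ℕ, ∀ x ∈ B, g ^ N * D x ∈ B

variable {D : Derivation R F F} {𝒪 B : ValuationSubring F} {g : F}

theorem DerivHyp.g_ne_zero (H : DerivHyp D 𝒪 B g) : g ≠ 0 := Deriv_ne_zero H.g_unit

theorem DerivHyp.g_mem_B (H : DerivHyp D 𝒪 B g) : g ∈ B := Deriv_mem_of_nonunits H.g_mem

/-- dividing an element of `𝔪(𝒪)` by a power of `g` stays in `𝔪(𝒪)`. -/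
theorem DerivHyp.div_pow_mem (H : DerivHyp D 𝒪 B g) {x : F} (hx : x ∈ 𝒪.nonunits) (m : ℕ) :
    x / g ^ m ∈ 𝒪.nonunits := by
  rw [div_eq_inv_mul, ← inv_pow]
  exact Deriv_mul_mem (𝒪.pow_mem (Deriv_inv_mem H.g_unit) m) hx

/-- the basic identity: for `h ∈ B` there is `h₁ ∈ B` with `D h ≡ - (h₁ D g + g D h₁)` modulo
`𝔪(𝒪)`.   [`h ^ Q - h = g h₁`; `D (h ^ Q) = Q h ^ (Q - 1) D h ∈ 𝔪(𝒪)`.] -/
theorem DerivHyp.exists_step (H : DerivHyp D 𝒪 B g) {h : F} (hh : h ∈ B) :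
    ∃ h₁ ∈ B, D h + (h₁ * D g + g * D h₁) ∈ 𝒪.nonunits := by
  obtain ⟨Q, hQ, hres⟩ := H.res
  refine ⟨(h ^ Q - h) / g, H.unif _ (hres h hh), ?_⟩
  have hg0 := H.g_ne_zero
  have e1 : h ^ Q - h = g * ((h ^ Q - h) / g) := by field_simp
  have e2 : D (h ^ Q) - D h = g * D ((h ^ Q - h) / g) + ((h ^ Q - h) / g) * D g := by
    rw [← map_sub]
    conv_lhs => rw [e1]
    rw [Derivation.leibniz, smul_eq_mul, smul_eq_mul]
  have e3 : D h + ((h ^ Q - h) / g * D g + g * D ((h ^ Q - h) / g)) = D (h ^ Q) := by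
    linear_combination -e2
  have e4 : D (h ^ Q) = (h ^ (Q - 1) * D h) * (Q : F) := by
    rw [Derivation.leibniz_pow, smul_eq_mul, nsmul_eq_mul]; ring
  rw [e3, e4]
  exact Deriv_mul_mem (𝒪.mul_mem _ _ (𝒪.pow_mem (H.le hh) _) (H.D_mem _ (H.le hh))) hQ

/-- iteration of `exists_step` when `D g ∈ 𝔪(𝒪)`. -/
theorem DerivHyp.exists_iter (H : DerivHyp D 𝒪 B g) (hDg : D g ∈ 𝒪.nonunits) (m : ℕ) :
    ∀ h ∈ B, ∃ h' ∈ B, D h - (-g) ^ m * D h' ∈ 𝒪.nonunits := by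
  induction m with
  | zero =>
    intro h hh
    exact ⟨h, hh, by simp [Deriv_zero_mem 𝒪]⟩
  | succ m ih =>
    intro h hh
    obtain ⟨h', hh', h1⟩ := ih h hh
    obtain ⟨h₁, hh₁, h2⟩ := H.exists_step hh'
    refine ⟨h₁, hh₁, ?_⟩
    have hgm : (-g) ^ m ∈ 𝒪 := 𝒪.pow_mem (𝒪.neg_mem _ (H.le H.g_mem_B)) m
    have e : D h - (-g) ^ (m + 1) * D h₁ =
        (D h - (-g) ^ m * D h') + (-g) ^ m * (D h' + (h₁ * D g + g * D h₁))
          - (-g) ^ m * (h₁ * D g) := by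
      ring
    rw [e]
    exact Deriv_sub_mem (Deriv_add_mem h1 (Deriv_mul_mem hgm h2))
      (Deriv_mul_mem hgm (Deriv_mul_mem (H.le hh₁) hDg))

/-- `D̄ ḡ ≠ 0` as soon as `D̄ ≠ 0` on `V`.   [If `D g ∈ 𝔪(𝒪)` then `D h ≡ - g D h₁`, by induction
`D h ∈ gᵐ g⁻ᴺ B + 𝔪(𝒪)` for all `m`; `krull`.] -/
theorem DerivHyp.D_g_unit (H : DerivHyp D 𝒪 B g) {s : F} (hs : s ∈ B)
    (hDs : D s ∉ 𝒪.nonunits) : D g ∉ 𝒪.nonunits := by
  intro hDg
  apply hDs
  obtain ⟨N, hN⟩ := H.bdd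
  have hg0 := H.g_ne_zero
  refine H.krull _ fun m => ?_
  obtain ⟨h', hh', h1⟩ := H.exists_iter hDg (m + N) s hs
  have e : D s / g ^ m = (D s - (-g) ^ (m + N) * D h') / g ^ m
      + (-1) ^ (m + N) * (g ^ N * D h') := by
    rw [neg_pow g, pow_add g]
    field_simp
    ring
  rw [e]
  refine B.add_mem _ _ (Deriv_mem_of_nonunits (H.nonunits_le _ (H.div_pow_mem h1 m))) ?_
  exact B.mul_mem _ _ (B.pow_mem (B.neg_mem _ B.one_mem) _) (hN _ hh')

/-- THE DERIVATION LEMMA: `D h / D g ∈ B` for all `h ∈ B`.   [Descending induction on `N` in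
`gᴺ D h / D g ∈ B`, using `exists_step`; the start: `gᵐ / D g ∈ B` for some `m` by `krull`.] -/
theorem DerivHyp.div_mem (H : DerivHyp D 𝒪 B g) {s : F} (hs : s ∈ B)
    (hDs : D s ∉ 𝒪.nonunits) : ∀ h ∈ B, D h / D g ∈ B := by
  have hu := H.D_g_unit hs hDs
  have hu0 : D g ≠ 0 := Deriv_ne_zero hu
  have hg0 := H.g_ne_zero
  obtain ⟨N, hN⟩ := H.bdd
  -- the start
  obtain ⟨m₀, hm₀⟩ : ∃ m : ℕ, g ^ m / D g ∈ B := by
    by_contra hcon
    have hcon : ∀ m : ℕ, g ^ m / D g ∉ B := fun m hm => hcon ⟨m, hm⟩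
    apply hu
    refine H.krull _ fun m => ?_
    have := Deriv_inv_mem_of_not_mem (hcon m)
    rwa [inv_div] at this
  have key : ∀ n : ℕ, ∀ h ∈ B, g ^ (N + m₀ - n) * D h / D g ∈ B := by
    intro n
    induction n with
    | zero =>
      intro h hh
      have e : g ^ (N + m₀ - 0) * D h / D g = (g ^ N * D h) * (g ^ m₀ / D g) := by
        rw [Nat.sub_zero, pow_add]; ring
      rw [e]
      exact B.mul_mem _ _ (hN h hh) hm₀
    | succ n ih =>
      intro h hh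
      by_cases hn : N + m₀ ≤ n
      · have e1 : N + m₀ - (n + 1) = N + m₀ - n := by omega
        rw [e1]
        exact ih h hh
      · obtain ⟨k, hk1, hk2⟩ : ∃ k, N + m₀ - (n + 1) = k ∧ N + m₀ - n = k + 1 :=
          ⟨N + m₀ - (n + 1), rfl, by omega⟩
        rw [hk1]
        rw [hk2] at ih
        obtain ⟨h₁, hh₁, h2⟩ := H.exists_step hh
        have e : g ^ k * D h / D g =
            g ^ k * ((D g)⁻¹ * (D h + (h₁ * D g + g * D h₁))) - g ^ k * h₁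
              - g ^ (k + 1) * D h₁ / D g := by
          field_simp
          ring
        rw [e]
        refine B.sub_mem (B.sub_mem ?_ ?_) (ih h₁ hh₁)
        · exact B.mul_mem _ _ (B.pow_mem H.g_mem_B _) (Deriv_mem_of_nonunits
            (H.nonunits_le _ (Deriv_mul_mem (Deriv_inv_mem hu) h2)))
        · exact B.mul_mem _ _ (B.pow_mem H.g_mem_B _) hh₁
  intro h hh
  have := key (N + m₀) h hh
  simpa using this

/-- THE THETA TRICK (blueprint #1030 (8) steps 1-3).  `π = q`, `g' ≡ g ^ q` a Frobenius lift of `g`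
with `D g' = q γ d'`, `d' ≡ (D g) ^ q`, `D s = 1`, and `γ⁻¹` vanishes at the point.  Then
`(g ^ q - g') / q` is NOT regular at the point.
[`A = (g^q - g')/q`, `D A = g^(q-1) D g - γ d'`, `u = D g`, `1/u = D s / D g ∈ B`,
`D A / u ≡ g^(q-1) - γ u^(q-1)`, `(γ u^(q-1))⁻¹ ∈ 𝔪(B)`; conclude by `div_mem`.] -/
theorem DerivHyp.theta_trick (H : DerivHyp D 𝒪 B g) {q : ℕ} (hq : 0 < q)
    (hq0 : (q : F) ≠ 0) (hqm : (q : F) ∈ 𝒪.nonunits) {s : F} (hs : s ∈ B) (hDs : D s = 1)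
    {γ : F} (hγ : γ ∈ 𝒪) (hγ' : γ⁻¹ ∈ B.nonunits) (hγ0 : γ ≠ 0) {g' d' : F}
    (hD' : D g' = (q : F) * γ * d') (hd' : d' - D g ^ q ∈ 𝒪.nonunits) :
    (g ^ q - g') / (q : F) ∉ B := by
  intro hA
  have hDs' : D s ∉ 𝒪.nonunits := by rw [hDs]; exact Deriv_one_not_mem 𝒪
  have hu := H.D_g_unit hs hDs'
  have hu0 : D g ≠ 0 := Deriv_ne_zero hu
  have h1 : (D g)⁻¹ ∈ B := by
    have := H.div_mem hs hDs' s hs
    rwa [hDs, one_div] at this
  have h2 := H.div_mem hs hDs' _ hA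
  -- compute `D A`
  have hDA : D ((g ^ q - g') / (q : F)) = g ^ (q - 1) * D g - γ * d' := by
    have e1 : (q : F) * D ((g ^ q - g') / (q : F)) = D (g ^ q - g') := by
      have : g ^ q - g' = q • ((g ^ q - g') / (q : F)) := by
        rw [nsmul_eq_mul]; field_simp
      conv_rhs => rw [this]
      rw [map_nsmul, nsmul_eq_mul]
    rw [map_sub, Derivation.leibniz_pow, hD', smul_eq_mul, nsmul_eq_mul] at e1
    apply mul_left_cancel₀ hq0
    rw [e1]; ring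
  rw [hDA] at h2
  -- `γ u^(q-1) ∈ B`
  have h3 : γ * D g ^ (q - 1) ∈ B := by
    have e : γ * D g ^ (q - 1) = g ^ (q - 1) - (g ^ (q - 1) * D g - γ * d') / D g
        - (γ * (D g)⁻¹) * (d' - D g ^ q) := by
      obtain ⟨k, rfl⟩ : ∃ k, q = k + 1 := ⟨q - 1, by omega⟩
      simp only [Nat.add_sub_cancel]
      field_simp
      ring
    rw [e]
    refine B.sub_mem (B.sub_mem (B.pow_mem H.g_mem_B _) h2) ?_
    exact Deriv_mem_of_nonunits (H.nonunits_le _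
      (Deriv_mul_mem (𝒪.mul_mem _ _ hγ (Deriv_inv_mem hu)) hd'))
  have h4 : ((D g)⁻¹ ^ (q - 1)) * γ⁻¹ ∈ B.nonunits := Deriv_mul_mem (B.pow_mem h1 _) hγ'
  have h5 : (γ * D g ^ (q - 1)) * (((D g)⁻¹ ^ (q - 1)) * γ⁻¹) ∈ B.nonunits := Deriv_mul_mem h3 h4
  have e5 : (γ * D g ^ (q - 1)) * (((D g)⁻¹ ^ (q - 1)) * γ⁻¹) = 1 := by
    rw [inv_pow]
    field_simp
  rw [e5] at h5
  exact Deriv_one_not_mem B h5

end Fermat.Agent.GT.Loc
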