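import Fermat.Agent.GT.Loc.Defs
import Fermat.Agent.GS.Tower.Defs

/-!
# GT-LOC, (L2-node): regularity of the nodes at level `q N₀`; what is consumed from UNIT

Setting of `GS/Tower`: `F1 = FF L N₀ ⊆ F = FF L (q N₀)`, `𝒪` the Gauss valuation subring of `F`,
`w = w_q`, `φ` the Frobenius lift acting on the coefficients, `t = τ ∈ {h_r, h_r⁻¹}` the base
function of the chart `C = chart R {τ}`.

`D = θ / θ s` (`θ = X d/dX`), `γ = γ₀ = (θ s)(X ^ q) / θ s`, `s` the Hauptmodul of `X₀(r²)`,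
`e = τ ^ q / τ(X ^ q)`.
-/

set_option autoImplicit false

namespace Fermat.Agent.GT.Loc

open Fermat.Agent.GR.E Fermat.Agent.GS Fermat.Agent.GT

variable {R : Type*} [CommRing R] {F1 F : Type*} [Field F1] [Field F] [Algebra R F1] [Algebra R F]
  [Algebra F1 F]

/-- What (L2-node) consumes from UNIT (blueprint #1030 (5), (6); #1215 (D), (D1), (g0)-(g3),
(CuspT)). -/
structure UnitData (ϖ : R) (q : ℕ) (𝒪 : ValuationSubring F) (w : F ≃ₐ[R] F) (φ : F ≃+* F)
    (t : F1) (D : Derivation R F F) (γ s e : F) : Prop where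
  /-- the base is unramified -/
  unif : ϖ = (q : R)
  /-- (D1) `D` preserves the Gauss ring -/
  D_mem : ∀ x ∈ 𝒪, D x ∈ 𝒪
  /-- `D` preserves the lower level -/
  D_sub : ∀ f : F1, ∃ f' : F1, D (algebraMap F1 F f) = algebraMap F1 F f'
  /-- `θ (f(X ^ q)) = q (θ f)(X ^ q)` -/
  D_V : ∀ f : F1, D (w (φ (algebraMap F1 F f))) =
    algebraMap R F ϖ * γ * w (φ (D (algebraMap F1 F f)))
  D_s : D s = 1
  /-- `s` has poles only at the cusps -/
  s_int : ∃ k : ℕ, algebraMap F1 F t ^ k * s ∈ chart R ({algebraMap F1 F t} : Set F)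
  /-- (g1) `γ` is a Gauss unit -/
  γ_mem : γ ∈ 𝒪
  γ_inv_mem : γ⁻¹ ∈ 𝒪
  γ_ne : γ ≠ 0
  /-- (g2) -/
  γ_w : w γ * (algebraMap R F ϖ ^ 2 * γ) = 1
  /-- (g3) `γ` has zeros only at the cusps of the generic fibre -/
  γ_int : ∃ k m : ℕ, algebraMap R F ϖ ^ m * (algebraMap F1 F t ^ k * γ⁻¹) ∈
    chart R ({algebraMap F1 F t} : Set F)
  /-- (CuspT) `e = τ ^ q / τ(X ^ q)` is regular on the generic fibre of the chart -/
  e_mul : e * w (algebraMap F1 F t) = algebraMap F1 F t ^ q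
  e_int : ∃ m : ℕ, algebraMap R F ϖ ^ m * e ∈ chart R ({algebraMap F1 F t} : Set F)

end Fermat.Agent.GT.Loc
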