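import Fermat.Agent.GT.Loc.CompUnif
import Fermat.Agent.GT.Loc.Deriv

/-!
GT-LOC, abstract layer, file `Node`: REGULARITY OF THE NODES at level `q N₀` over an unramified base
(blueprint #1030 (8)).  Language of GS.
-/

set_option autoImplicit false

namespace Fermat.Agent.GT.Loc

open Fermat.Agent.GR.E Fermat.Agent.GS Fermat.Agent.GT

variable {R : Type*} [CommRing R] [IsDomain R] [IsDiscreteValuationRing R]
variable {F : Type*} [Field F] [Algebra R F]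
variable {ϖ : R} {𝒪₁ 𝒪₂ : ValuationSubring F} {C : Subalgebra R F}

omit [IsDomain R] [IsDiscreteValuationRing R] in
theorem RegNode.symm {𝔪 : Ideal C} (h : RegNode ϖ 𝒪₁ 𝒪₂ C 𝔪) : RegNode ϖ 𝒪₂ 𝒪₁ C 𝔪 := by
  obtain ⟨x, y, G, hx, hy, hG, h⟩ := h
  exact ⟨y, x, G, hy, hx, hG, by rw [mul_comm, h]⟩

/-- at a node `𝔭₁ ≠ 𝔪`. -/
theorem vert_ne_of_node (hC : NodalChart ϖ 𝒪₁ 𝒪₂ C) (𝔪 : Ideal C)
    (h₂ : vert ϖ 𝒪₂ C ≤ 𝔪) : vert ϖ 𝒪₁ C ≠ 𝔪 := by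
  obtain ⟨e, heC, he₂, he₁⟩ := hC.sep₁
  intro h
  have h1 : (⟨e, heC⟩ : C) ∈ 𝔪 := h₂ ((mem_vert hC.le₂ _).mpr he₂)
  rw [← h, mem_vert hC.le₁] at h1
  exact he₁ h1

omit [IsDomain R] [IsDiscreteValuationRing R] [Algebra R F] in
theorem Node_mul_not_mem_nonunits {A : ValuationSubring F} {x y : F} (hx : x ∉ A.nonunits)
    (hy : y ∉ A.nonunits) : x * y ∉ A.nonunits := by
  rw [ValuationSubring.mem_nonunits_iff, not_lt] at hx hy ⊢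
  rw [map_mul]
  calc (1 : A.ValueGroup) = 1 * 1 := (one_mul 1).symm
    _ ≤ _ := mul_le_mul' hx hy

omit [IsDomain R] [IsDiscreteValuationRing R] [Algebra R F] in
theorem Node_nonunits_mul_mem {A : ValuationSubring F} {x y : F} (hx : x ∈ A.nonunits)
    (hy : y ∈ A) : x * y ∈ A.nonunits := by
  rw [ValuationSubring.mem_nonunits_iff] at hx ⊢
  rw [← ValuationSubring.valuation_le_one_iff] at hy
  rw [map_mul]
  calc A.valuation x * A.valuation y ≤ A.valuation x * 1 := mul_le_mul' le_rfl hy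
    _ = A.valuation x := mul_one _
    _ < 1 := hx

/-- (8) steps 4, 5.  If `y ∈ 𝔭₁` and the residue of `y / ϖ` on the first component is NOT regular
at the node `𝔪`, then the node is regular.
[`g` a uniformizer of `B` (`IsComposite.exists_uniformizer`); `s g = p₁ + x₀`, `p₁ ∈ 𝔭₁`,
`x₀ ∈ 𝔭₂`, `s ∉ 𝔪` (`GS.exists_mul_mem_vert_sup`), so `x₀` is a uniformizer of `B`
(`uniformizer_congr`); `G := x₀ y / ϖ ∈ C` by `sat`; if `G ∈ 𝔪` then `y / ϖ = G / x₀ ∈ B`.] -/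
theorem regNode_of_not_mem (hϖ : Irreducible ϖ) (hG₁ : GaussRing ϖ 𝒪₁) (hG₂ : GaussRing ϖ 𝒪₂)
    (hC : NodalChart ϖ 𝒪₁ 𝒪₂ C) (𝔪 : Ideal C) (h𝔪 : 𝔪.IsMaximal) (h₁ : vert ϖ 𝒪₁ C ≤ 𝔪)
    (h₂ : vert ϖ 𝒪₂ C ≤ 𝔪) {B : ValuationSubring F} (hB : IsComposite ϖ 𝒪₁ C 𝔪 B)
    (y : C) (hy : (y : F) / algebraMap R F ϖ ∈ 𝒪₁) (hyB : (y : F) / algebraMap R F ϖ ∉ B) :
    RegNode ϖ 𝒪₁ 𝒪₂ C 𝔪 := by
  have := h𝔪.isPrime
  have h : CompHyp ϖ 𝒪₁ C := NodalChart.compHyp₁ hG₁ hC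
  have hne := vert_ne_of_node hC 𝔪 h₂
  have hπ0 : algebraMap R F ϖ ≠ 0 := hG₁.ne_zero
  obtain ⟨g, hg𝔪, hg₁, hgu⟩ := hB.exists_uniformizer h h𝔪 h₁ hne
  obtain ⟨s, hs, hsg⟩ := exists_mul_mem_vert_sup hϖ hG₁ hG₂ hC 𝔪 h𝔪 h₁ h₂ g hg𝔪
  obtain ⟨p₁, hp₁, x₀, hx₀, hsum⟩ := Submodule.mem_sup.mp hsg
  rw [mem_vert hC.le₁] at hp₁
  rw [mem_vert hC.le₂] at hx₀
  have hs0 : (s : F) ≠ 0 := Loc_coe_ne_zero 𝔪 hs
  have hsinvB : (s : F)⁻¹ ∈ B :=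
    hB.locAt_le h h𝔪 h₁ _ (inv_mem_locAt_of_not_mem 𝔪 hs)
  -- `s g` is a uniformizer
  have hsg1 : (s : F) * g ∈ B.nonunits := by
    have : ((s * g : C) : F) ∈ B.nonunits :=
      (hB.coe_mem_nonunits_iff h h𝔪 h₁ _).mpr (𝔪.mul_mem_left _ hg𝔪)
    exact this
  have hs₁ : (s : F) ∉ 𝒪₁.nonunits := by
    intro hh
    rw [← div_mem_iff_mem_nonunits hG₁, ← mem_vert hC.le₁] at hh
    exact hs (h₁ hh)
  have hsg2 : (s : F) * g ∉ 𝒪₁.nonunits := Node_mul_not_mem_nonunits hs₁ hg₁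
  have hsg3 : ∀ x ∈ B.nonunits, x / ((s : F) * g) ∈ B := by
    intro x hx
    have : x / ((s : F) * g) = x / g * (s : F)⁻¹ := by
      rw [div_mul_eq_div_div_swap, div_eq_mul_inv (x / (g : F))]
    rw [this]
    exact mul_mem (hgu x hx) hsinvB
  have hdiff : (s : F) * g - x₀ ∈ 𝒪₁.nonunits := by
    rw [← div_mem_iff_mem_nonunits hG₁]
    have : (s : F) * g - x₀ = p₁ := by
      have := congrArg (fun c : C => (c : F)) hsum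
      simp only [Subalgebra.coe_add, Subalgebra.coe_mul] at this
      rw [← this]
      ring
    rw [this]
    exact hp₁
  obtain ⟨hx1, hx2, hx3⟩ := hB.uniformizer_congr h h𝔪 h₁ hsg1 hsg2 hsg3 hdiff
  have hx00 : (x₀ : F) ≠ 0 := by
    intro h0
    apply hx2
    rw [h0, ValuationSubring.mem_nonunits_iff, map_zero]
    exact zero_lt_one
  -- the element `G`
  have hGC : ((y * x₀ : C) : F) / algebraMap R F ϖ ∈ C := by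
    refine hC.sat _ (y * x₀).2 ?_ ?_
    · have : ((y * x₀ : C) : F) / algebraMap R F ϖ = (y : F) / algebraMap R F ϖ * x₀ := by
        rw [Subalgebra.coe_mul]; ring
      rw [this]
      exact mul_mem hy (hC.le₁ _ x₀.2)
    · have : ((y * x₀ : C) : F) / algebraMap R F ϖ = (y : F) * ((x₀ : F) / algebraMap R F ϖ) := by
        rw [Subalgebra.coe_mul]; ring
      rw [this]
      exact mul_mem (hC.le₂ _ y.2) hx₀
  refine ⟨y, x₀, ⟨_, hGC⟩, hy, hx₀, ?_, ?_⟩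
  · intro hG𝔪
    have h1 := (hB.coe_mem_nonunits_iff h h𝔪 h₁ _).mpr hG𝔪
    have h2 := hx3 _ h1
    apply hyB
    have : (y : F) / algebraMap R F ϖ = ((y * x₀ : C) : F) / algebraMap R F ϖ / x₀ := by
      rw [Subalgebra.coe_mul]
      field_simp
    rw [this]
    exact h2
  · apply Subtype.ext
    show ((y * x₀ : C) : F) = algebraMap R F ϖ * (((y * x₀ : C) : F) / algebraMap R F ϖ)
    rw [mul_div_cancel₀ _ hπ0]

/-- the hypotheses of the derivation lemma hold for the composite `B` at a point of a chart with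
`ThetaData`, for every uniformizer `g`. -/
theorem derivHyp_of_thetaData (h : CompHyp ϖ 𝒪₁ C) {q : ℕ} (hq : q.Prime)
    {D : Derivation R F F} {γ : F} (hT : ThetaData ϖ q 𝒪₁ C D γ) (𝔪 : Ideal C)
    (h𝔪 : 𝔪.IsMaximal) (h₁ : vert ϖ 𝒪₁ C ≤ 𝔪)
    (hfin : ∃ f : ℕ, 0 < f ∧ ∀ c : C, c ^ (q ^ f) - c ∈ 𝔪)
    {B : ValuationSubring F} (hB : IsComposite ϖ 𝒪₁ C 𝔪 B) {g : F} (hg : g ∈ B.nonunits)
    (hg' : g ∉ 𝒪₁.nonunits) (hu : ∀ x ∈ B.nonunits, x / g ∈ B) : DerivHyp D 𝒪₁ B g := by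
  have hπ0 : algebraMap R F ϖ ≠ 0 := h.gauss.ne_zero
  obtain ⟨f, hf, hQ⟩ := hfin
  have hg0 : g ≠ 0 := by
    intro h0
    apply hg'
    rw [h0, ValuationSubring.mem_nonunits_iff, map_zero]
    exact zero_lt_one
  refine ⟨hB.le h h𝔪 h₁, hB.nonunits_le h h𝔪 h₁, hT.D_mem, ?_, hg, hg', hu,
    fun x hx => hB.mem_nonunits_of_forall_div_pow_mem h h𝔪 h₁ hg hg0 hx, ⟨q ^ f, ?_, ?_⟩,
    hB.exists_pow_mul_deriv_mem h h𝔪 h₁ D hT.D_mem hT.bdd hg hg' hu⟩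
  · intro x hx
    rw [← div_mem_iff_mem_nonunits h.gauss] at hx ⊢
    have h1 : x = ϖ • (x / algebraMap R F ϖ) := by
      rw [Algebra.smul_def, mul_div_cancel₀ _ hπ0]
    have h2 : D x = algebraMap R F ϖ * D (x / algebraMap R F ϖ) := by
      conv_lhs => rw [h1]
      rw [D.map_smul, Algebra.smul_def]
    rw [h2, mul_div_cancel_left₀ _ hπ0]
    exact hT.D_mem _ hx
  · rw [← div_mem_iff_mem_nonunits h.gauss, Nat.cast_pow, ← hT.unif]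
    obtain ⟨k, rfl⟩ : ∃ k, f = k + 1 := ⟨f - 1, by omega⟩
    rw [pow_succ, mul_div_cancel_right₀ _ hπ0]
    exact pow_mem h.gauss.mem k
  · exact hB.pow_sub_mem_nonunits h h𝔪 h₁ hQ

/-- REGULARITY OF A NODE (blueprint #1030 (8)).  `γ = γ₀` is a unit of `𝒪₁`, its inverse is regular
at `𝔪` and vanishes on the second component; `D s = 1` with `s` regular at `𝔪`; finite residue
field. -/
theorem regNode_of_thetaData (hϖ : Irreducible ϖ) (hG₁ : GaussRing ϖ 𝒪₁) (hG₂ : GaussRing ϖ 𝒪₂)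
    (hC : NodalChart ϖ 𝒪₁ 𝒪₂ C) {q : ℕ} (hq : q.Prime) {D : Derivation R F F} {γ : F}
    (hT : ThetaData ϖ q 𝒪₁ C D γ) (𝔪 : Ideal C) (h𝔪 : 𝔪.IsMaximal) (h₁ : vert ϖ 𝒪₁ C ≤ 𝔪)
    (h₂ : vert ϖ 𝒪₂ C ≤ 𝔪) (hγ0 : γ ≠ 0) (hγ : γ ∈ 𝒪₁)
    (hγl : haveI := h𝔪.isPrime; γ⁻¹ ∈ locAt C 𝔪) (hγ₂ : γ⁻¹ / algebraMap R F ϖ ∈ 𝒪₂)
    (hs : haveI := h𝔪.isPrime; ∃ s ∈ locAt C 𝔪, D s = 1)
    (hfin : ∃ f : ℕ, 0 < f ∧ ∀ c : C, c ^ (q ^ f) - c ∈ 𝔪) : RegNode ϖ 𝒪₁ 𝒪₂ C 𝔪 := by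
  have := h𝔪.isPrime
  have h : CompHyp ϖ 𝒪₁ C := NodalChart.compHyp₁ hG₁ hC
  have hne := vert_ne_of_node hC 𝔪 h₂
  have hπ0 : algebraMap R F ϖ ≠ 0 := hG₁.ne_zero
  obtain ⟨B, hB⟩ := exists_isComposite h 𝔪 h𝔪 h₁
  obtain ⟨z, hz𝔪, hz₁, hzu⟩ := hB.exists_uniformizer h h𝔪 h₁ hne
  obtain ⟨g, hgC, hzg, g', hg'C, hgg', d', hDg', hd'⟩ := hT.lift z z.2
  rw [div_mem_iff_mem_nonunits hG₁] at hzg hd'
  have hzB : (z : F) ∈ B.nonunits := (hB.coe_mem_nonunits_iff h h𝔪 h₁ _).mpr hz𝔪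
  obtain ⟨hg1, hg2, hg3⟩ := hB.uniformizer_congr h h𝔪 h₁ hzB hz₁ hzu hzg
  have H : DerivHyp D 𝒪₁ B g := derivHyp_of_thetaData h hq hT 𝔪 h𝔪 h₁ hfin hB hg1 hg2 hg3
  obtain ⟨s, hsl, hDs⟩ := hs
  have hsB : s ∈ B := hB.locAt_le h h𝔪 h₁ _ hsl
  have hq0 : (q : F) ≠ 0 := by rw [← hT.unif]; exact hπ0
  have hqm : (q : F) ∈ 𝒪₁.nonunits := by
    rw [← hT.unif, ← div_mem_iff_mem_nonunits hG₁, div_self hπ0]
    exact 𝒪₁.one_mem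
  have hγB : γ⁻¹ ∈ B.nonunits := by
    obtain ⟨t, ht, hc⟩ := hγl
    have ht0 : (t : F) ≠ 0 := Loc_coe_ne_zero 𝔪 ht
    have hc𝔪 : (⟨_, hc⟩ : C) ∈ 𝔪 := by
      apply h₂
      rw [mem_vert hC.le₂]
      show γ⁻¹ * (t : F) / algebraMap R F ϖ ∈ 𝒪₂
      have : γ⁻¹ * (t : F) / algebraMap R F ϖ = γ⁻¹ / algebraMap R F ϖ * t := by ring
      rw [this]
      exact mul_mem hγ₂ (hC.le₂ _ t.2)
    have h1 : γ⁻¹ * (t : F) ∈ B.nonunits := (hB.coe_mem_nonunits_iff h h𝔪 h₁ ⟨_, hc⟩).mpr hc𝔪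
    have h2 : (t : F)⁻¹ ∈ B := hB.locAt_le h h𝔪 h₁ _ (inv_mem_locAt_of_not_mem 𝔪 ht)
    have h3 := Node_nonunits_mul_mem h1 h2
    rwa [mul_inv_cancel_right₀ ht0] at h3
  have hD' : D g' = (q : F) * γ * d' := by rw [hDg', hT.unif]
  have key := H.theta_trick hq.pos hq0 hqm hsB hDs hγ hγB hγ0 hD' hd'
  rw [← hT.unif] at key
  exact regNode_of_not_mem hϖ hG₁ hG₂ hC 𝔪 h𝔪 h₁ h₂ hB
    ⟨g ^ q - g', C.sub_mem (C.pow_mem hgC q) hg'C⟩ hgg' key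

end Fermat.Agent.GT.Loc
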