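import Fermat.Agent.GT.Loc.Defs

/-!
GT-LOC, abstract layer, file `NodeAux`: three independent auxiliary lemmas used to instantiate
`Node.lean`: bounded denominators of a derivation on a finite chart, nodes are not cusps, finite
residue fields.
-/

set_option autoImplicit false

namespace Fermat.Agent.GT.Loc

open Fermat.Agent.GR.E Fermat.Agent.GS Fermat.Agent.GT

variable {R : Type*} [CommRing R] [IsDomain R] [IsDiscreteValuationRing R]
variable {F : Type*} [Field F] [Algebra R F]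
variable {ϖ : R} {𝒪₁ 𝒪₂ : ValuationSubring F} {C : Subalgebra R F}

omit [IsDomain R] [IsDiscreteValuationRing R] in
/-- the elements of `𝒪` which are not divisible by `ϖ` are stable under products. -/
theorem NodeAux_mul_not_mem {𝒪 : ValuationSubring F} (hG : GaussRing ϖ 𝒪) {x y : F}
    (hx : x ∈ 𝒪) (hy : y ∈ 𝒪) (hx' : x / algebraMap R F ϖ ∉ 𝒪) (hy' : y / algebraMap R F ϖ ∉ 𝒪) :
    x * y / algebraMap R F ϖ ∉ 𝒪 := by
  intro h
  have hxi : x⁻¹ ∈ 𝒪 := (hG.unif x hx).resolve_left hx'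
  have hx0 : x ≠ 0 := by
    rintro rfl
    apply hx'
    rw [zero_div]
    exact 𝒪.zero_mem
  apply hy'
  have : y / algebraMap R F ϖ = x⁻¹ * (x * y / algebraMap R F ϖ) := by
    field_simp
  rw [this]
  exact 𝒪.mul_mem _ _ hxi h

omit [IsDomain R] [IsDiscreteValuationRing R] in
/-- common denominators. -/
theorem NodeAux_common_denom {𝒪 : ValuationSubring F} (hG : GaussRing ϖ 𝒪)
    (hle : ∀ x ∈ C, x ∈ 𝒪)
    (hfrac : ∀ x ∈ 𝒪, ∃ b ∈ C, b / algebraMap R F ϖ ∉ 𝒪 ∧ x * b ∈ C) (s : Finset F)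
    (hs : ∀ x ∈ s, x ∈ 𝒪) :
    ∃ e ∈ C, e / algebraMap R F ϖ ∉ 𝒪 ∧ ∀ x ∈ s, e * x ∈ C := by
  classical
  induction s using Finset.induction_on with
  | empty =>
    refine ⟨1, C.one_mem, ?_, by simp⟩
    rw [one_div]
    exact hG.inv_not_mem
  | insert a s ha ih =>
    obtain ⟨e, he, he', hes⟩ := ih fun x hx => hs x (Finset.mem_insert_of_mem hx)
    obtain ⟨b, hb, hb', hab⟩ := hfrac a (hs a (Finset.mem_insert_self a s))
    refine ⟨e * b, C.mul_mem he hb, NodeAux_mul_not_mem hG (hle e he) (hle b hb) he' hb', ?_⟩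
    intro x hx
    rcases Finset.mem_insert.1 hx with rfl | hx
    · have : e * b * x = e * (x * b) := by ring
      rw [this]
      exact C.mul_mem he hab
    · have : e * b * x = b * (e * x) := by ring
      rw [this]
      exact C.mul_mem hb (hes x hx)

omit [IsDomain R] [IsDiscreteValuationRing R] in
/-- `D (p(t)) = p'(t) D t`. -/
theorem NodeAux_deriv_adjoin {t : F} (D : Derivation R F F) {a : F}
    (ha : a ∈ Algebra.adjoin R ({t} : Set F)) :
    ∃ a' ∈ Algebra.adjoin R ({t} : Set F), D a = a' * D t := by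
  induction ha using Algebra.adjoin_induction with
  | mem x hx =>
    rw [Set.mem_singleton_iff] at hx
    subst hx
    exact ⟨1, Subalgebra.one_mem _, (one_mul _).symm⟩
  | algebraMap r =>
    exact ⟨0, Subalgebra.zero_mem _, by rw [Derivation.map_algebraMap, zero_mul]⟩
  | add x y _ _ hx hy =>
    obtain ⟨x', hx', hx⟩ := hx
    obtain ⟨y', hy', hy⟩ := hy
    exact ⟨x' + y', Subalgebra.add_mem _ hx' hy', by rw [map_add, hx, hy, add_mul]⟩
  | mul x y hxm hym hx hy =>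
    obtain ⟨x', hx', hx⟩ := hx
    obtain ⟨y', hy', hy⟩ := hy
    refine ⟨x * y' + y * x', Subalgebra.add_mem _ (Subalgebra.mul_mem _ hxm hy')
      (Subalgebra.mul_mem _ hym hx'), ?_⟩
    rw [Derivation.leibniz, hx, hy, smul_eq_mul, smul_eq_mul]
    ring

omit [IsDomain R] [IsDiscreteValuationRing R] in
theorem NodeAux_adjoin_le_chart {t : F} {a : F} (ha : a ∈ Algebra.adjoin R ({t} : Set F)) :
    a ∈ chart R ({t} : Set F) := by
  rw [mem_chart]
  exact isIntegral_algebraMap (R := Algebra.adjoin R ({t} : Set F)) (x := ⟨a, ha⟩)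

/-- `ThetaData.bdd` from finiteness of the chart over `R[t]`.
[`D (p(t)) = p'(t) D t`; generators `b_j`; common denominator of `D t`, `D b_j` by `frac`.] -/
theorem exists_bdd_of_finite {𝒪 : ValuationSubring F} (hG : GaussRing ϖ 𝒪) {t : F}
    (hle : ∀ x ∈ chart R ({t} : Set F), x ∈ 𝒪)
    (hfrac : ∀ x ∈ 𝒪, ∃ b ∈ chart R ({t} : Set F), b / algebraMap R F ϖ ∉ 𝒪 ∧
      x * b ∈ chart R ({t} : Set F))
    (hfin : Module.Finite (Algebra.adjoin R ({t} : Set F))
      (integralClosure (Algebra.adjoin R ({t} : Set F)) F))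
    (D : Derivation R F F) (hD : ∀ x ∈ 𝒪, D x ∈ 𝒪) :
    ∃ e ∈ chart R ({t} : Set F), e / algebraMap R F ϖ ∉ 𝒪 ∧
      ∀ c ∈ chart R ({t} : Set F), e * D c ∈ chart R ({t} : Set F) := by
  classical
  obtain ⟨s, hs⟩ := hfin.fg_top
  have ht : t ∈ chart R ({t} : Set F) :=
    NodeAux_adjoin_le_chart (Algebra.subset_adjoin (Set.mem_singleton t))
  obtain ⟨e, he, he', hes⟩ := NodeAux_common_denom hG hle hfrac
    (insert (D t)
      (s.image fun b : integralClosure (Algebra.adjoin R ({t} : Set F)) F => D (b : F))) (by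
      intro x hx
      rcases Finset.mem_insert.1 hx with rfl | hx
      · exact hD t (hle t ht)
      · obtain ⟨b, _, rfl⟩ := Finset.mem_image.1 hx
        exact hD _ (hle _ b.2))
  refine ⟨e, he, he', ?_⟩
  intro c hc
  have hmem : (⟨c, hc⟩ : integralClosure (Algebra.adjoin R ({t} : Set F)) F) ∈
      Submodule.span (Algebra.adjoin R ({t} : Set F)) (s : Set _) := by
    rw [hs]; exact Submodule.mem_top
  have key : ∀ x : integralClosure (Algebra.adjoin R ({t} : Set F)) F,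
      x ∈ Submodule.span (Algebra.adjoin R ({t} : Set F)) (s : Set _) →
      e * D (x : F) ∈ chart R ({t} : Set F) := by
    intro x hx
    induction hx using Submodule.span_induction with
    | mem x hx =>
      exact hes _ (Finset.mem_insert_of_mem (Finset.mem_image_of_mem _ hx))
    | zero =>
      simp only [ZeroMemClass.coe_zero, map_zero, mul_zero]
      exact Subalgebra.zero_mem _
    | add x y _ _ hx hy =>
      have : e * D ((x + y : integralClosure (Algebra.adjoin R ({t} : Set F)) F) : F) =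
          e * D (x : F) + e * D (y : F) := by
        rw [← mul_add, ← map_add]; rfl
      rw [this]
      exact Subalgebra.add_mem _ hx hy
    | smul a x _ hx =>
      obtain ⟨a', ha', haD⟩ := NodeAux_deriv_adjoin D a.2
      have : e * D ((a • x : integralClosure (Algebra.adjoin R ({t} : Set F)) F) : F) =
          (a : F) * (e * D (x : F)) + (x : F) * a' * (e * D t) := by
        have h1 : ((a • x : integralClosure (Algebra.adjoin R ({t} : Set F)) F) : F) =
            (a : F) * (x : F) := rfl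
        rw [h1, Derivation.leibniz, haD, smul_eq_mul, smul_eq_mul]
        ring
      rw [this]
      exact Subalgebra.add_mem _ (Subalgebra.mul_mem _ (NodeAux_adjoin_le_chart a.2) hx)
        (Subalgebra.mul_mem _ (Subalgebra.mul_mem _ x.2 (NodeAux_adjoin_le_chart ha'))
          (hes _ (Finset.mem_insert_self _ _)))
  exact key _ hmem

/-- NODES ARE NOT CUSPS (blueprint #1030 (Cu)): `e = τ^q / τ'`, `τ' = V τ`. -/
theorem not_mem_of_node (hG₁ : GaussRing ϖ 𝒪₁) (hC : SatChart2 ϖ 𝒪₁ 𝒪₂ C) (𝔪 : Ideal C)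
    [𝔪.IsPrime] (h₁ : vert ϖ 𝒪₁ C ≤ 𝔪) (h₂ : vert ϖ 𝒪₂ C ≤ 𝔪) (τ τ' e : C) {k q : ℕ}
    (hk : 0 < k) (hq : 0 < q) (he₁ : ((e : F) - 1) / algebraMap R F ϖ ∈ 𝒪₁)
    (he₂ : ((e : F) - (τ' : F) ^ k) / algebraMap R F ϖ ∈ 𝒪₂)
    (hτ : ((τ' : F) - (τ : F) ^ q) / algebraMap R F ϖ ∈ 𝒪₁) : τ ∉ 𝔪 := by
  have hp : 𝔪.IsPrime := inferInstance
  have a1 : e - 1 ∈ 𝔪 := h₁ (Ideal.subset_span he₁)
  have a2 : e - τ' ^ k ∈ 𝔪 := h₂ (Ideal.subset_span he₂)
  have a3 : τ' - τ ^ q ∈ 𝔪 := h₁ (Ideal.subset_span hτ)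
  intro hτm
  have b3 : τ' ∈ 𝔪 := by
    have : τ' = (τ' - τ ^ q) + τ ^ q := by ring
    rw [this]
    exact 𝔪.add_mem a3 (Ideal.pow_mem_of_mem _ hτm q hq)
  have b2 : e ∈ 𝔪 := by
    have : e = (e - τ' ^ k) + τ' ^ k := by ring
    rw [this]
    exact 𝔪.add_mem a2 (Ideal.pow_mem_of_mem _ b3 k hk)
  apply hp.ne_top
  rw [Ideal.eq_top_iff_one]
  have : (1 : C) = e - (e - 1) := by ring
  rw [this]
  exact 𝔪.sub_mem b2 a1

/-- ABSTRACT: the residue fields of a finite type algebra at the maximal ideals above `ϖ` are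
finite of characteristic `q`. -/
theorem NodeAux_pow_sub_mem {R B : Type*} [CommRing R] [CommRing B] [Algebra R B]
    [Algebra.FiniteType R B] {ϖ : R} [Finite (R ⧸ Ideal.span {ϖ})] {q : ℕ} (hq : q.Prime)
    (hqϖ : ϖ ∣ (q : R)) (𝔪 : Ideal B) (h𝔪 : 𝔪.IsMaximal) (hϖ𝔪 : algebraMap R B ϖ ∈ 𝔪) :
    ∃ f : ℕ, 0 < f ∧ ∀ c : B, c ^ (q ^ f) - c ∈ 𝔪 := by
  classical
  let _ : Field (B ⧸ 𝔪) := Ideal.Quotient.field 𝔪
  have hker : ∀ a ∈ Ideal.span {ϖ}, algebraMap R (B ⧸ 𝔪) a = 0 := by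
    intro a ha
    obtain ⟨b, rfl⟩ := Ideal.mem_span_singleton.1 ha
    rw [map_mul]
    have : algebraMap R (B ⧸ 𝔪) ϖ = 0 := by
      rw [IsScalarTower.algebraMap_apply R B (B ⧸ 𝔪)]
      exact Ideal.Quotient.eq_zero_iff_mem.2 hϖ𝔪
    rw [this, zero_mul]
  let _ : Algebra (R ⧸ Ideal.span {ϖ}) (B ⧸ 𝔪) :=
    (Ideal.Quotient.lift (Ideal.span {ϖ}) (algebraMap R (B ⧸ 𝔪)) hker).toAlgebra
  have : IsScalarTower R (R ⧸ Ideal.span {ϖ}) (B ⧸ 𝔪) :=
    IsScalarTower.of_algebraMap_eq fun x => rfl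
  have : Algebra.FiniteType R (B ⧸ 𝔪) :=
    Algebra.FiniteType.of_surjective (Ideal.Quotient.mkₐ R 𝔪) Ideal.Quotient.mk_surjective
  have : Algebra.FiniteType (R ⧸ Ideal.span {ϖ}) (B ⧸ 𝔪) :=
    Algebra.FiniteType.of_restrictScalars_finiteType R _ _
  have : Module.Finite (R ⧸ Ideal.span {ϖ}) (B ⧸ 𝔪) :=
    finite_of_finite_type_of_isJacobsonRing _ _
  have : Finite (B ⧸ 𝔪) := Module.finite_of_finite (R ⧸ Ideal.span {ϖ})
  let _ : Fintype (B ⧸ 𝔪) := Fintype.ofFinite _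
  have hq0 : ((q : ℕ) : B ⧸ 𝔪) = 0 := by
    have h1 : algebraMap R (B ⧸ 𝔪) (q : R) = 0 := hker _ (Ideal.mem_span_singleton.2 hqϖ)
    rwa [map_natCast] at h1
  have : CharP (B ⧸ 𝔪) q := (CharP.charP_iff_prime_eq_zero hq).2 hq0
  obtain ⟨n, _, hn⟩ := FiniteField.card (B ⧸ 𝔪) q
  refine ⟨n, n.pos, fun c => ?_⟩
  rw [← Ideal.Quotient.eq_zero_iff_mem, map_sub, map_pow, ← hn, FiniteField.pow_card, sub_self]

/-- finite residue fields: `C` is finite over `R[t]`, `R / ϖ` is finite of characteristic `q`. -/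
theorem exists_pow_sub_mem {t : F} [Finite (R ⧸ Ideal.span {ϖ})] {q : ℕ} (hq : q.Prime)
    (hqϖ : ϖ ∣ (q : R))
    (hfin : Module.Finite (Algebra.adjoin R ({t} : Set F))
      (integralClosure (Algebra.adjoin R ({t} : Set F)) F))
    (𝔪 : Ideal (chart R ({t} : Set F))) (h𝔪 : 𝔪.IsMaximal)
    (hϖ𝔪 : algebraMap R _ ϖ ∈ 𝔪) :
    ∃ f : ℕ, 0 < f ∧ ∀ c : chart R ({t} : Set F), c ^ (q ^ f) - c ∈ 𝔪 := by
  have hft : Algebra.FiniteType R (Algebra.adjoin R ({t} : Set F)) :=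
    (Subalgebra.fg_iff_finiteType _).1 ⟨{t}, by simp⟩
  have hB : Algebra.FiniteType R (integralClosure (Algebra.adjoin R ({t} : Set F)) F) :=
    Algebra.FiniteType.trans hft inferInstance
  have hC : Algebra.FiniteType R (chart R ({t} : Set F)) := hB
  exact NodeAux_pow_sub_mem hq hqϖ 𝔪 h𝔪 hϖ𝔪

end Fermat.Agent.GT.Loc
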