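import Fermat.Agent.GT.Loc.N1Defs
import Fermat.Agent.GT.Loc.Node
import Fermat.Agent.GT.Loc.NodeAux
import Fermat.Agent.GS.Tower.Main

/-!
# GT-LOC, (L2-node): regularity of the nodes at level `q N₀` from `GS/Tower` + `UnitData`
-/

set_option autoImplicit false

namespace Fermat.Agent.GT.Loc

open Fermat.Agent.GR.E Fermat.Agent.GS Fermat.Agent.GT

variable {R : Type*} [CommRing R] [IsDomain R] [IsDiscreteValuationRing R]
variable {F1 F : Type*} [Field F1] [Field F] [Algebra R F1] [Algebra R F] [Algebra F1 F]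
  [IsScalarTower R F1 F]
variable {ϖ : R} {𝒪1 : ValuationSubring F1} {𝒪 : ValuationSubring F} {w : F ≃ₐ[R] F} {q : ℕ}
  {φ : F ≃+* F} {t : F1} {D : Derivation R F F} {γ s e : F}

theorem UnitData.unifF (U : UnitData ϖ q 𝒪 w φ t D γ s e) : algebraMap R F ϖ = (q : F) := by
  rw [U.unif, map_natCast]

/-- `φ` preserves the chart. -/
theorem N1_phi_mem_chart (T : TowerData ϖ 𝒪1 𝒪 w) (Φ : TowerFrob ϖ 𝒪1 𝒪 w q φ)
    (hφ : φ (algebraMap F1 F t) = algebraMap F1 F t) {y : F}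
    (hy : y ∈ chart R ({algebraMap F1 F t} : Set F)) :
    φ y ∈ chart R ({algebraMap F1 F t} : Set F) :=
  (Φ.chartAut T hφ).map_mem_chart (by
    intro s hs
    rw [Set.mem_singleton_iff] at hs ⊢
    rw [hs, hφ]) hy

/-- the base function is a Gauss unit. -/
theorem N1_t_inv_mem (T : TowerData ϖ 𝒪1 𝒪 w) (Ct : TowerChart ϖ 𝒪1 𝒪 w q t) (hq : 0 < q) :
    (algebraMap F1 F t)⁻¹ ∈ 𝒪 := by
  have ht : t ∈ 𝒪1 := Ct.good.le t (subset_chart _ (Set.mem_singleton _))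
  rw [← map_inv₀, T.comap]
  rcases T.gauss1.unif t ht with h | h
  · exfalso
    apply Ct.sep
    have hq2 : q ^ 2 = (q ^ 2 - 1) + 1 := (Nat.sub_add_cancel (Nat.pow_pos hq)).symm
    have e : (t - t ^ (q ^ 2)) / algebraMap R F1 ϖ
        = t / algebraMap R F1 ϖ * (1 - t ^ (q ^ 2 - 1)) := by
      rw [hq2, Nat.add_sub_cancel, pow_succ]
      ring
    rw [e]
    exact mul_mem h (sub_mem (one_mem _) (pow_mem ht _))
  · exact h

/-- `τ' = w τ` is a Gauss unit. -/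
theorem N1_wt_inv_mem (T : TowerData ϖ 𝒪1 𝒪 w) (Ct : TowerChart ϖ 𝒪1 𝒪 w q t) (hq : 0 < q) :
    (w (algebraMap F1 F t))⁻¹ ∈ 𝒪 := by
  rcases T.gauss.unif _ (Ct.wt_mem T) with h | h
  · exfalso
    apply T.gauss.inv_not_mem
    have hti := N1_t_inv_mem T Ct hq
    have ht0 : algebraMap F1 F t ≠ 0 := by
      intro h0
      apply Ct.sep
      have : t = 0 := by simpa using h0
      rw [this, zero_pow (by positivity), sub_zero, zero_div]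
      exact zero_mem _
    have e : (algebraMap R F ϖ)⁻¹ = (algebraMap F1 F t)⁻¹ ^ q *
        (w (algebraMap F1 F t) / algebraMap R F ϖ -
          (w (algebraMap F1 F t) - algebraMap F1 F t ^ q) / algebraMap R F ϖ) := by
      have h1 : (algebraMap F1 F t)⁻¹ ^ q * algebraMap F1 F t ^ q = 1 := by
        rw [← mul_pow, inv_mul_cancel₀ ht0, one_pow]
      have h2 : w (algebraMap F1 F t) / algebraMap R F ϖ -
          (w (algebraMap F1 F t) - algebraMap F1 F t ^ q) / algebraMap R F ϖ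
          = algebraMap F1 F t ^ q * (algebraMap R F ϖ)⁻¹ := by ring
      rw [h2, ← mul_assoc, h1, one_mul]
    rw [e]
    exact mul_mem (pow_mem hti _) (sub_mem h Ct.cong)
  · exact h

/-- the chart-level hypotheses of the theta trick. -/
theorem thetaData_of_unitData (hϖ : Irreducible ϖ) (hq : q.Prime) (T : TowerData ϖ 𝒪1 𝒪 w)
    (Φ : TowerFrob ϖ 𝒪1 𝒪 w q φ) (Ct : TowerChart ϖ 𝒪1 𝒪 w q t)
    (hφ : φ (algebraMap F1 F t) = algebraMap F1 F t) (U : UnitData ϖ q 𝒪 w φ t D γ s e) :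
    ThetaData ϖ q 𝒪 (chart R ({algebraMap F1 F t} : Set F)) D γ := by
  have hC := nodalChart_of_tower hϖ hq.one_lt T Φ Ct hφ
  refine ⟨U.unifF, U.D_mem, exists_bdd_of_finite T.gauss hC.le₁ hC.frac₁ Ct.fin D U.D_mem, ?_⟩
  intro z hz
  obtain ⟨g0, hg0, hzg⟩ := Ct.exists_sub_div_mem hϖ T hz
  have hgC : algebraMap F1 F g0 ∈ chart R ({algebraMap F1 F t} : Set F) :=
    algebraMap_mem_chart_singleton hg0
  have hg1 : g0 ∈ 𝒪1 := Ct.good.le g0 hg0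
  refine ⟨algebraMap F1 F g0, hgC, hzg, w (φ (algebraMap F1 F g0)),
    Ct.w_mem_chart T (N1_phi_mem_chart T Φ hφ hgC), ?_, w (φ (D (algebraMap F1 F g0))),
    U.D_V g0, ?_⟩
  · have e : (algebraMap F1 F g0 ^ q - w (φ (algebraMap F1 F g0))) / algebraMap R F ϖ
        = -((w (φ (algebraMap F1 F g0)) - algebraMap F1 F g0 ^ q) / algebraMap R F ϖ) := by ring
    rw [e]
    exact neg_mem (Φ.frob g0 hg1)
  · obtain ⟨f', hf'⟩ := U.D_sub g0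
    have hf1 : f' ∈ 𝒪1 := by
      rw [← T.comap, ← hf']
      exact U.D_mem _ (hC.le₁ _ hgC)
    rw [hf']
    exact Φ.frob f' hf1

/-- `e = τ ^ q / w τ` lies in the chart, `e ≡ 1` on the first component and
`e ≡ (w τ) ^ (q ^ 2 - 1)` on the second one. -/
theorem N1_e_mem (T : TowerData ϖ 𝒪1 𝒪 w) (Ct : TowerChart ϖ 𝒪1 𝒪 w q t) (hq : 0 < q)
    (U : UnitData ϖ q 𝒪 w φ t D γ s e) :
    e ∈ chart R ({algebraMap F1 F t} : Set F) ∧ (e - 1) / algebraMap R F ϖ ∈ 𝒪 ∧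
      (e - w (algebraMap F1 F t) ^ (q ^ 2 - 1)) / algebraMap R F ϖ ∈ opp 𝒪 w := by
  set τ : F := algebraMap F1 F t with hτ
  set τ' : F := w τ with hτ'
  have hπ0 := T.gauss.ne_zero
  have hτm : τ ∈ 𝒪 := Ct.t_mem T
  have hτ'm : τ' ∈ 𝒪 := Ct.wt_mem T
  have hτi : τ⁻¹ ∈ 𝒪 := N1_t_inv_mem T Ct hq
  have hτ'i : τ'⁻¹ ∈ 𝒪 := N1_wt_inv_mem T Ct hq
  have hτ0 : τ ≠ 0 := by
    intro h0
    apply Ct.sep
    have : t = 0 := by simpa [hτ] using h0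
    rw [this, zero_pow (by positivity), sub_zero, zero_div]
    exact zero_mem _
  have hτ'0 : τ' ≠ 0 := by
    rw [hτ']
    simpa using hτ0
  have he : e = τ ^ q * τ'⁻¹ := by
    have h := U.e_mul
    rw [← hτ, ← hτ'] at h
    rw [← h, mul_assoc, mul_inv_cancel₀ hτ'0, mul_one]
  have hcong : (τ' - τ ^ q) / algebraMap R F ϖ ∈ 𝒪 := Ct.cong
  have h1 : (e - 1) / algebraMap R F ϖ ∈ 𝒪 := by
    have e1 : (e - 1) / algebraMap R F ϖ = -(τ'⁻¹ * ((τ' - τ ^ q) / algebraMap R F ϖ)) := by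
      rw [he]
      field_simp
      ring
    rw [e1]
    exact neg_mem (mul_mem hτ'i hcong)
  have hwe : w e = τ' ^ q * τ⁻¹ := by
    rw [he, map_mul, map_pow, map_inv₀, hτ', T.invol]
  have hq2 : q ^ 2 = (q ^ 2 - 1) + 1 := (Nat.sub_add_cancel (Nat.pow_pos hq)).symm
  have h2 : (e - τ' ^ (q ^ 2 - 1)) / algebraMap R F ϖ ∈ opp 𝒪 w := by
    rw [mem_opp, map_div_unif, map_sub, hwe, map_pow, hτ', T.invol, ← hτ']
    have e2 : (τ' ^ q * τ⁻¹ - τ ^ (q ^ 2 - 1)) / algebraMap R F ϖ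
        = τ⁻¹ * ((τ' ^ q - (τ ^ q) ^ q) / algebraMap R F ϖ) := by
      have : (τ ^ q) ^ q = τ ^ (q ^ 2 - 1) * τ := by
        rw [← pow_mul, ← sq, ← pow_succ, ← hq2]
      rw [this]
      field_simp
    rw [e2]
    exact mul_mem hτi (Frob_pow_sub_pow_div_mem hτ'm (pow_mem hτm q) hcong q)
  refine ⟨?_, h1, h2⟩
  obtain ⟨m, hm⟩ := U.e_int
  have hem : e ∈ 𝒪 := by
    rw [he]
    exact mul_mem (pow_mem hτm q) hτ'i
  have hem2 : e ∈ opp 𝒪 w := by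
    rw [mem_opp, hwe]
    exact mul_mem (pow_mem hτ'm q) hτi
  have e3 : algebraMap R F ϖ ^ m * e / algebraMap R F ϖ ^ m = e := by
    field_simp
  have := (Ct.satChart2 T).sat_pow m hm (by rw [e3]; exact hem) (by rw [e3]; exact hem2)
  rwa [e3] at this

/-- NODES ARE NOT CUSPS. -/
theorem N1_t_not_mem (T : TowerData ϖ 𝒪1 𝒪 w) (Ct : TowerChart ϖ 𝒪1 𝒪 w q t) (hq : 1 < q)
    (U : UnitData ϖ q 𝒪 w φ t D γ s e) (𝔫 : Ideal (chart R ({algebraMap F1 F t} : Set F)))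
    [𝔫.IsPrime] (h₁ : vert ϖ 𝒪 (chart R ({algebraMap F1 F t} : Set F)) ≤ 𝔫)
    (h₂ : vert ϖ (opp 𝒪 w) (chart R ({algebraMap F1 F t} : Set F)) ≤ 𝔫) :
    (⟨algebraMap F1 F t, subset_chart _ (Set.mem_singleton _)⟩ :
      chart R ({algebraMap F1 F t} : Set F)) ∉ 𝔫 := by
  obtain ⟨heC, he1, he2⟩ := N1_e_mem T Ct (by omega) U
  have hk : 0 < q ^ 2 - 1 := by
    have : 1 < q ^ 2 := Nat.one_lt_pow (by norm_num) hq
    omega
  exact not_mem_of_node T.gauss (Ct.satChart2 T) 𝔫 h₁ h₂ _ ⟨_, Ct.wt_mem_chart T⟩ ⟨e, heC⟩ hk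
    (by omega : 0 < q) he1 he2 Ct.cong

/-- an element `x` with `τ ^ k * x ∈ C` is regular at every point with `τ ≠ 0`. -/
theorem N1_mem_locAt (𝔫 : Ideal (chart R ({algebraMap F1 F t} : Set F))) [𝔫.IsPrime]
    (ht : (⟨algebraMap F1 F t, subset_chart _ (Set.mem_singleton _)⟩ :
      chart R ({algebraMap F1 F t} : Set F)) ∉ 𝔫) {x : F} {k : ℕ}
    (hx : algebraMap F1 F t ^ k * x ∈ chart R ({algebraMap F1 F t} : Set F)) :
    x ∈ locAt (chart R ({algebraMap F1 F t} : Set F)) 𝔫 := by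
  refine ⟨(⟨algebraMap F1 F t, subset_chart _ (Set.mem_singleton _)⟩ :
      chart R ({algebraMap F1 F t} : Set F)) ^ k, fun h => ht (Ideal.IsPrime.mem_of_pow_mem ‹_› _ h),
      ?_⟩
  rw [mul_comm]
  exact hx

/-- `τ ^ k * γ⁻¹ ∈ C`. -/
theorem N1_gamma_inv_mem (T : TowerData ϖ 𝒪1 𝒪 w) (Ct : TowerChart ϖ 𝒪1 𝒪 w q t)
    (U : UnitData ϖ q 𝒪 w φ t D γ s e) :
    ∃ k : ℕ, algebraMap F1 F t ^ k * γ⁻¹ ∈ chart R ({algebraMap F1 F t} : Set F) := by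
  obtain ⟨k, m, hm⟩ := U.γ_int
  refine ⟨k, ?_⟩
  have hπ0 := T.gauss.ne_zero
  have e3 : algebraMap R F ϖ ^ m * (algebraMap F1 F t ^ k * γ⁻¹) / algebraMap R F ϖ ^ m
      = algebraMap F1 F t ^ k * γ⁻¹ := by
    field_simp
  have hwγ : (w γ)⁻¹ = algebraMap R F ϖ ^ 2 * γ := by
    rw [inv_eq_iff_eq_inv]
    exact eq_inv_of_mul_eq_one_left U.γ_w
  have := (Ct.satChart2 T).sat_pow m hm
    (by rw [e3]; exact mul_mem (pow_mem (Ct.t_mem T) k) U.γ_inv_mem)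
    (by
      rw [e3, mem_opp, map_mul, map_pow, map_inv₀, hwγ]
      exact mul_mem (pow_mem (Ct.wt_mem T) k) (mul_mem (pow_mem T.gauss.mem 2) U.γ_mem))
  rwa [e3] at this

/-- `γ⁻¹` vanishes on the second component. -/
theorem N1_gamma_inv_div_mem (T : TowerData ϖ 𝒪1 𝒪 w) (U : UnitData ϖ q 𝒪 w φ t D γ s e) :
    γ⁻¹ / algebraMap R F ϖ ∈ opp 𝒪 w := by
  have hπ0 := T.gauss.ne_zero
  have hwγ : (w γ)⁻¹ = algebraMap R F ϖ ^ 2 * γ := by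
    rw [inv_eq_iff_eq_inv]
    exact eq_inv_of_mul_eq_one_left U.γ_w
  rw [mem_opp, map_div_unif, map_inv₀, hwγ]
  have : algebraMap R F ϖ ^ 2 * γ / algebraMap R F ϖ = algebraMap R F ϖ * γ := by
    field_simp
  rw [this]
  exact mul_mem T.gauss.mem U.γ_mem

/-- REGULARITY OF THE NODES AT LEVEL `q N₀`. -/
theorem regNode_of_unitData [Finite (R ⧸ Ideal.span {ϖ})] (hϖ : Irreducible ϖ) (hq : q.Prime)
    (T : TowerData ϖ 𝒪1 𝒪 w) (Φ : TowerFrob ϖ 𝒪1 𝒪 w q φ) (Ct : TowerChart ϖ 𝒪1 𝒪 w q t)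
    (hφ : φ (algebraMap F1 F t) = algebraMap F1 F t) (U : UnitData ϖ q 𝒪 w φ t D γ s e)
    (𝔫 : Ideal (chart R ({algebraMap F1 F t} : Set F))) (h𝔫 : 𝔫.IsMaximal)
    (h₁ : vert ϖ 𝒪 (chart R ({algebraMap F1 F t} : Set F)) ≤ 𝔫)
    (h₂ : vert ϖ (opp 𝒪 w) (chart R ({algebraMap F1 F t} : Set F)) ≤ 𝔫) :
    RegNode ϖ 𝒪 (opp 𝒪 w) (chart R ({algebraMap F1 F t} : Set F)) 𝔫 := by
  have := h𝔫.isPrime
  have hC := nodalChart_of_tower hϖ hq.one_lt T Φ Ct hφ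
  have ht := N1_t_not_mem T Ct hq.one_lt U 𝔫 h₁ h₂
  obtain ⟨k, hk⟩ := N1_gamma_inv_mem T Ct U
  obtain ⟨k', hk'⟩ := U.s_int
  have hϖ𝔫 : algebraMap R (chart R ({algebraMap F1 F t} : Set F)) ϖ ∈ 𝔫 :=
    h₁ (algebraMap_mem_vert T.gauss _)
  exact regNode_of_thetaData hϖ T.gauss (gaussRing_opp T.gauss) hC hq
    (thetaData_of_unitData hϖ hq T Φ Ct hφ U) 𝔫 h𝔫 h₁ h₂ U.γ_ne U.γ_mem
    (N1_mem_locAt 𝔫 ht hk) (N1_gamma_inv_div_mem T U) ⟨s, N1_mem_locAt 𝔫 ht hk', U.D_s⟩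
    (exists_pow_sub_mem hq (by rw [U.unif]) Ct.fin 𝔫 h𝔫 hϖ𝔫)

end Fermat.Agent.GT.Loc
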