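import Fermat.Agent.GT.Loc.Prin

/-!
GT-LOC, abstract layer, file `Over`: the points of level `q² N₀` above a regular node of level
`q N₀` (blueprint #1030 (9) first two cases and (Inc)).

`φ : F1 → F` is one of the two degeneracy maps; see `Over` in `Defs.lean`.  Level `q N₀` is in the
language of GS (`vert ϖ 𝒪 C1`), level `q² N₀` in the language of GT (`vertI (𝒪 i) C`).
-/

set_option autoImplicit false

namespace Fermat.Agent.GT.Loc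

open Fermat.Agent.GR.E Fermat.Agent.GS Fermat.Agent.GT

variable {R : Type*} [CommRing R] {F1 F : Type*} [Field F1] [Field F] [Algebra R F1] [Algebra R F]
variable {ι : Type*} {ϖ : R} {φ : F1 →ₐ[R] F} {𝒪₁ 𝒪₂ : ValuationSubring F1}
variable {C1 : Subalgebra R F1} {𝒪 : ι → ValuationSubring F} {C : Subalgebra R F} {i₀ : ι}

/-! ### helpers (valid over any commutative ring `R`) -/

theorem Over_mul_mem_nonunits {K : Type*} [Field K] {V : ValuationSubring K} {a y : K}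
    (ha : a ∈ V) (hy : y ∈ V.nonunits) : a * y ∈ V.nonunits := by
  rw [ValuationSubring.mem_nonunits_iff] at hy ⊢
  rw [map_mul]
  calc V.valuation a * V.valuation y ≤ 1 * V.valuation y :=
        mul_le_mul_left ((V.valuation_le_one_iff a).2 ha) _
    _ = V.valuation y := one_mul _
    _ < 1 := hy

theorem Over_mem_vertI {V : ValuationSubring F} {C : Subalgebra R F} (hle : ∀ x ∈ C, x ∈ V)
    (x : C) : x ∈ vertI V C ↔ (x : F) ∈ V.nonunits := by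
  constructor
  · intro hx
    refine Submodule.span_induction (p := fun (y : C) _ => (y : F) ∈ V.nonunits)
      (fun y hy => hy) ?_ ?_ ?_ hx
    · exact V.nonunits.zero_mem
    · intro y z _ _ hy hz
      exact V.nonunits.add_mem hy hz
    · intro a y _ hy
      exact Over_mul_mem_nonunits (hle _ a.2) hy
  · intro hx
    exact Ideal.subset_span hx

theorem Over_vertI_isPrime {V : ValuationSubring F} {C : Subalgebra R F}
    (hle : ∀ x ∈ C, x ∈ V) : (vertI V C).IsPrime := by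
  refine ⟨?_, ?_⟩
  · rw [Ideal.ne_top_iff_one, Over_mem_vertI hle, ValuationSubring.mem_nonunits_iff]
    simp
  · intro x y hxy
    rw [Over_mem_vertI hle] at hxy
    rw [Over_mem_vertI hle, Over_mem_vertI hle]
    rw [ValuationSubring.mem_nonunits_iff] at hxy ⊢
    rw [ValuationSubring.mem_nonunits_iff]
    by_contra hcon
    push Not at hcon
    obtain ⟨hx, hy⟩ := hcon
    have : (1 : V.ValueGroup) ≤ V.valuation ((x * y : C) : F) := by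
      push_cast
      rw [map_mul]
      exact one_le_mul hx hy
    exact absurd hxy (not_lt.2 this)

theorem Over_mem_vert {V : ValuationSubring F1} {C1 : Subalgebra R F1} (hle : ∀ x ∈ C1, x ∈ V)
    (x : C1) : x ∈ vert ϖ V C1 ↔ (x : F1) / algebraMap R F1 ϖ ∈ V := by
  constructor
  · intro hx
    refine Submodule.span_induction (p := fun (y : C1) _ => (y : F1) / algebraMap R F1 ϖ ∈ V)
      (fun y hy => hy) ?_ ?_ ?_ hx
    · simp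
    · intro y z _ _ hy hz
      have : ((y + z : C1) : F1) / algebraMap R F1 ϖ
          = (y : F1) / algebraMap R F1 ϖ + (z : F1) / algebraMap R F1 ϖ := by
        push_cast; ring
      rw [this]
      exact add_mem hy hz
    · intro a y _ hy
      have : ((a • y : C1) : F1) / algebraMap R F1 ϖ
          = (a : F1) * ((y : F1) / algebraMap R F1 ϖ) := by
        rw [smul_eq_mul]; push_cast; ring
      rw [this]
      exact mul_mem (hle _ a.2) hy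
  · intro hx
    exact Ideal.subset_span hx

/-- the maximal ideal in terms of membership. -/
theorem Over_mem_nonunits_iff {K : Type*} [Field K] (V : ValuationSubring K) (x : K) :
    x ∈ V.nonunits ↔ x = 0 ∨ x⁻¹ ∉ V := by
  rw [ValuationSubring.mem_nonunits_iff, ← V.valuation_le_one_iff, not_le, map_inv₀]
  by_cases hx : x = 0
  · simp [hx]
  · have hv : V.valuation x ≠ 0 := (Valuation.ne_zero_iff _).2 hx
    simp only [hx, false_or]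
    exact (one_lt_inv₀ (zero_lt_iff.2 hv)).symm

/-- the maximal ideal of a Gauss ring is generated by `ϖ`. -/
theorem Over_gauss_nonunits_iff {K : Type*} [Field K] [Algebra R K] {V : ValuationSubring K}
    (hG : GaussRing ϖ V) (x : K) : x ∈ V.nonunits ↔ x / algebraMap R K ϖ ∈ V := by
  constructor
  · intro hx
    rcases (Over_mem_nonunits_iff V x).1 hx with rfl | h
    · rw [zero_div]
      exact V.zero_mem
    · exact (hG.unif x (V.nonunits_subset hx)).resolve_right h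
  · intro hx
    have hϖ : algebraMap R K ϖ ∈ V.nonunits :=
      (Over_mem_nonunits_iff V _).2 (Or.inr hG.inv_not_mem)
    have : x = x / algebraMap R K ϖ * algebraMap R K ϖ := by
      rw [div_mul_cancel₀ _ hG.ne_zero]
    rw [this]
    exact Over_mul_mem_nonunits hx hϖ

theorem Over_map_div (φ : F1 →ₐ[R] F) (x : F1) :
    φ (x / algebraMap R F1 ϖ) = φ x / algebraMap R F ϖ := by
  rw [map_div₀, φ.commutes]

/-- the vertical primes of `C` lie over the vertical primes of `C1`. -/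
theorem Over.comap_vertI₀ (hO : Over ϖ φ 𝒪₁ 𝒪₂ C1 𝒪 C i₀) (hG₂ : GaussRing ϖ 𝒪₂)
    (hle₂ : ∀ x ∈ C1, x ∈ 𝒪₂) (hC : SatChartI ϖ 𝒪 C) :
    (vertI (𝒪 i₀) C).comap (pull φ C1 C hO.map_mem) = vert ϖ 𝒪₂ C1 := by
  ext x
  rw [Ideal.mem_comap, Over_mem_vertI (hC.le i₀), coe_pull, Over_mem_vert hle₂,
    Over_gauss_nonunits_iff hO.gauss, ← Over_map_div, hO.comap₀]

theorem Over.comap_vertI (hO : Over ϖ φ 𝒪₁ 𝒪₂ C1 𝒪 C i₀) (hG₁ : GaussRing ϖ 𝒪₁)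
    (hle₁ : ∀ x ∈ C1, x ∈ 𝒪₁) (hC : SatChartI ϖ 𝒪 C) (i : ι) (hi : i ≠ i₀) :
    (vertI (𝒪 i) C).comap (pull φ C1 C hO.map_mem) = vert ϖ 𝒪₁ C1 := by
  ext x
  rw [Ideal.mem_comap, Over_mem_vertI (hC.le i), coe_pull, Over_mem_vert hle₁,
    ← Over_gauss_nonunits_iff hG₁, Over_mem_nonunits_iff, Over_mem_nonunits_iff, ← map_inv₀,
    hO.comap i hi, map_eq_zero]

/-- Above a point where `ϖ = x y / G`, the prime `𝔭_{i₀}` is generated by `φ y`.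
[`prinAt_of_mul_eq` with `T = φ y`, `W = φ x`, `ε = φ G`.] -/
theorem Over.prinAt (hO : Over ϖ φ 𝒪₁ 𝒪₂ C1 𝒪 C i₀) (hV : VertFam ϖ 𝒪) (hC : SatChartI ϖ 𝒪 C)
    (𝔪 : Ideal C) {x y G : C1} (hx : (x : F1) / algebraMap R F1 ϖ ∈ 𝒪₁)
    (hy : (y : F1) / algebraMap R F1 ϖ ∈ 𝒪₂) (hG : G ∉ 𝔪.comap (pull φ C1 C hO.map_mem))
    (hxy : x * y = algebraMap R C1 ϖ * G) :
    PrinAt (𝒪 i₀) C 𝔪 (pull φ C1 C hO.map_mem y) := by
  refine prinAt_of_mul_eq hV hC 𝔪 i₀ (pull φ C1 C hO.map_mem y) (pull φ C1 C hO.map_mem x)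
    (pull φ C1 C hO.map_mem G) ?_ hG ?_ ?_ ?_
  · rw [coe_pull, Over_gauss_nonunits_iff hO.gauss, ← Over_map_div, hO.comap₀]
    exact hy
  · rw [← map_mul, mul_comm y x, hxy, map_mul, AlgHom.commutes]
  · intro f hf
    rw [coe_pull]
    have h1 : f / algebraMap R F ϖ ∈ 𝒪 i₀ := (Over_gauss_nonunits_iff hO.gauss f).1 hf
    have h2 : φ x ∈ 𝒪 i₀ := hC.le i₀ _ (hO.map_mem _ x.2)
    have : f * φ x / algebraMap R F ϖ = f / algebraMap R F ϖ * φ x := by ring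
    rw [this]
    exact (𝒪 i₀).mul_mem _ _ h1 h2
  · intro i hi
    rw [coe_pull, ← Over_map_div, hO.comap i hi]
    exact hx

/-- Above a regular node: `𝔭_{i₀} ≤ 𝔪` and `𝔭_{i₀}` is principal at `𝔪`. -/
theorem Over.regAt_of_regNode (hO : Over ϖ φ 𝒪₁ 𝒪₂ C1 𝒪 C i₀) (hV : VertFam ϖ 𝒪)
    (hC : SatChartI ϖ 𝒪 C) (hle₂ : ∀ x ∈ C1, x ∈ 𝒪₂) (𝔪 : Ideal C) [𝔪.IsPrime]
    (h₂ : vert ϖ 𝒪₂ C1 ≤ 𝔪.comap (pull φ C1 C hO.map_mem))
    (hreg : RegNode ϖ 𝒪₁ 𝒪₂ C1 (𝔪.comap (pull φ C1 C hO.map_mem))) :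
    vertI (𝒪 i₀) C ≤ 𝔪 ∧ ∃ X : C, PrinAt (𝒪 i₀) C 𝔪 X := by
  obtain ⟨x, y, G, hx, hy, hG, hxy⟩ := hreg
  have hP := hO.prinAt hV hC 𝔪 hx hy hG hxy
  refine ⟨hP.le 𝔪 ?_, _, hP⟩
  exact h₂ ((Over_mem_vert hle₂ y).2 hy)

/-- Two maximal ideals containing `𝔭_{i₀}` with the same image in `C1` are equal (`insep`). -/
theorem Over.eq_of_comap_eq (hO : Over ϖ φ 𝒪₁ 𝒪₂ C1 𝒪 C i₀) (hC : SatChartI ϖ 𝒪 C)
    (𝔪 𝔪' : Ideal C) (h𝔪 : 𝔪.IsMaximal) (h𝔪' : 𝔪'.IsMaximal) (hi : vertI (𝒪 i₀) C ≤ 𝔪)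
    (hi' : vertI (𝒪 i₀) C ≤ 𝔪')
    (h : 𝔪.comap (pull φ C1 C hO.map_mem) = 𝔪'.comap (pull φ C1 C hO.map_mem)) : 𝔪 = 𝔪' := by
  have key : ∀ 𝔞 𝔟 : Ideal C, 𝔟.IsPrime → vertI (𝒪 i₀) C ≤ 𝔞 → vertI (𝒪 i₀) C ≤ 𝔟 →
      𝔞.comap (pull φ C1 C hO.map_mem) = 𝔟.comap (pull φ C1 C hO.map_mem) → 𝔞 ≤ 𝔟 := by
    intro 𝔞 𝔟 h𝔟 ha hb hab z hz
    obtain ⟨k, hk, c, hc, hzc⟩ := hO.insep z z.2
    have h1 : z ^ k - pull φ C1 C hO.map_mem ⟨c, hc⟩ ∈ vertI (𝒪 i₀) C :=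
      (Over_mem_vertI (hC.le i₀) _).2 hzc
    have h2 : pull φ C1 C hO.map_mem ⟨c, hc⟩ ∈ 𝔞 := by
      have := 𝔞.sub_mem (𝔞.pow_mem_of_mem hz k hk) (ha h1)
      simpa using this
    have h3 : pull φ C1 C hO.map_mem ⟨c, hc⟩ ∈ 𝔟 := by
      have : (⟨c, hc⟩ : C1) ∈ 𝔞.comap (pull φ C1 C hO.map_mem) := h2
      rw [hab] at this
      exact this
    have h4 : z ^ k ∈ 𝔟 := by
      have := 𝔟.add_mem (hb h1) h3
      simpa using this
    exact h𝔟.mem_of_pow_mem k h4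
  exact h𝔪.eq_of_le h𝔪'.ne_top (key 𝔪 𝔪' h𝔪'.isPrime hi hi' h)

/-- (Inc) There is exactly one maximal ideal above a regular node. -/
theorem Over.unique_of_regNode (hO : Over ϖ φ 𝒪₁ 𝒪₂ C1 𝒪 C i₀) (hV : VertFam ϖ 𝒪)
    (hC : SatChartI ϖ 𝒪 C) (hle₂ : ∀ x ∈ C1, x ∈ 𝒪₂)
    (𝔪 𝔪' : Ideal C) (h𝔪 : 𝔪.IsMaximal) (h𝔪' : 𝔪'.IsMaximal)
    (h₂ : vert ϖ 𝒪₂ C1 ≤ 𝔪.comap (pull φ C1 C hO.map_mem))
    (hreg : RegNode ϖ 𝒪₁ 𝒪₂ C1 (𝔪.comap (pull φ C1 C hO.map_mem)))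
    (h : 𝔪.comap (pull φ C1 C hO.map_mem) = 𝔪'.comap (pull φ C1 C hO.map_mem)) : 𝔪 = 𝔪' := by
  have := h𝔪.isPrime
  have := h𝔪'.isPrime
  have h1 := (hO.regAt_of_regNode hV hC hle₂ 𝔪 h₂ hreg).1
  have h2 := (hO.regAt_of_regNode hV hC hle₂ 𝔪' (h ▸ h₂) (h ▸ hreg)).1
  exact hO.eq_of_comap_eq hC 𝔪 𝔪' h𝔪 h𝔪' h1 h2 h

/-- (Inc) All the components pass through the point above a regular node.
[going up from `vertI (𝒪 i) C` (`Ideal.exists_ideal_over_prime_of_isIntegral`), maximality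
(`Ideal.isMaximal_of_isIntegral_of_isMaximal_comap`), uniqueness.] -/
theorem Over.vertI_le_of_regNode (hO : Over ϖ φ 𝒪₁ 𝒪₂ C1 𝒪 C i₀) (hV : VertFam ϖ 𝒪)
    (hC : SatChartI ϖ 𝒪 C) (hG₁ : GaussRing ϖ 𝒪₁) (hG₂ : GaussRing ϖ 𝒪₂)
    (hle₁ : ∀ x ∈ C1, x ∈ 𝒪₁) (hle₂ : ∀ x ∈ C1, x ∈ 𝒪₂) (𝔪 : Ideal C) (h𝔪 : 𝔪.IsMaximal)
    (h₁ : vert ϖ 𝒪₁ C1 ≤ 𝔪.comap (pull φ C1 C hO.map_mem))
    (h₂ : vert ϖ 𝒪₂ C1 ≤ 𝔪.comap (pull φ C1 C hO.map_mem))
    (hreg : RegNode ϖ 𝒪₁ 𝒪₂ C1 (𝔪.comap (pull φ C1 C hO.map_mem))) :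
    ∀ i, vertI (𝒪 i) C ≤ 𝔪 := by
  intro i
  let _ : Algebra C1 C := (pull φ C1 C hO.map_mem).toRingHom.toAlgebra
  have hint : Algebra.IsIntegral C1 C := ⟨hO.integral⟩
  have hmax : (𝔪.comap (pull φ C1 C hO.map_mem)).IsMaximal :=
    Ideal.isMaximal_comap_of_isIntegral_of_isMaximal' _ hO.integral 𝔪
  have hprime : (𝔪.comap (pull φ C1 C hO.map_mem)).IsPrime := hmax.isPrime
  have hle : (vertI (𝒪 i) C).comap (pull φ C1 C hO.map_mem) ≤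
      𝔪.comap (pull φ C1 C hO.map_mem) := by
    by_cases hi : i = i₀
    · rw [hi, hO.comap_vertI₀ hG₂ hle₂ hC]
      exact h₂
    · rw [hO.comap_vertI hG₁ hle₁ hC i hi]
      exact h₁
  obtain ⟨Q, hQ, hQp, hQc⟩ := Ideal.exists_ideal_over_prime_of_isIntegral
    (𝔪.comap (pull φ C1 C hO.map_mem)) (vertI (𝒪 i) C) hle
  have hQc' : Q.comap (pull φ C1 C hO.map_mem) = 𝔪.comap (pull φ C1 C hO.map_mem) := hQc
  have hQmax : Q.IsMaximal :=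
    Ideal.isMaximal_of_isIntegral_of_isMaximal_comap' _ hO.integral Q (by
      show (Q.comap (pull φ C1 C hO.map_mem)).IsMaximal
      rw [hQc']; exact hmax)
  have := hO.unique_of_regNode hV hC hle₂ 𝔪 Q h𝔪 hQmax h₂ hreg hQc'.symm
  rw [this]
  exact hQ

/-- the image in `C1` of a maximal ideal is maximal. -/
theorem Over.comap_isMaximal (hO : Over ϖ φ 𝒪₁ 𝒪₂ C1 𝒪 C i₀) (𝔪 : Ideal C) (h𝔪 : 𝔪.IsMaximal) :
    (𝔪.comap (pull φ C1 C hO.map_mem)).IsMaximal := by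
  exact Ideal.isMaximal_comap_of_isIntegral_of_isMaximal' _ hO.integral 𝔪

end Fermat.Agent.GT.Loc
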