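import Fermat.Agent.GT.Loc.Unit

/-! GT-LOC, abstract layer, file `Prin`: criteria for a vertical prime to be locally principal. -/

set_option autoImplicit false

namespace Fermat.Agent.GT.Loc

open Fermat.Agent.GR.E Fermat.Agent.GS Fermat.Agent.GT

variable {R : Type*} [CommRing R] {F : Type*} [Field F] [Algebra R F] {ι : Type*}
variable {ϖ : R} {𝒪 : ι → ValuationSubring F} {C : Subalgebra R F}

/-- `GT.mem_vertI` without the assumption that `R` is a DVR. -/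
theorem Prin_mem_vertI {V : ValuationSubring F} (hle : ∀ x ∈ C, x ∈ V) (x : C) :
    x ∈ vertI V C ↔ (x : F) ∈ V.nonunits := by
  constructor
  · intro hx
    refine Submodule.span_induction (p := fun (y : C) _ => (y : F) ∈ V.nonunits)
      (fun y hy => hy) ?_ ?_ ?_ hx
    · exact V.nonunits.zero_mem
    · intro y z _ _ hy hz
      exact V.nonunits.add_mem hy hz
    · intro a y _ hy
      exact basic_mul_mem_nonunits (hle _ a.2) hy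
  · intro hx
    exact Ideal.subset_span hx

theorem Prin_one_not_mem_nonunits (V : ValuationSubring F) : (1 : F) ∉ V.nonunits := by
  rw [ValuationSubring.mem_nonunits_iff, map_one]
  exact lt_irrefl _

theorem Prin_mem_of_mem_nonunits {V : ValuationSubring F} {x : F} (hx : x ∈ V.nonunits) : x ∈ V :=
  (V.valuation_le_one_iff x).1 ((ValuationSubring.mem_nonunits_iff V).1 hx).le

/-- a nonzero element of `𝔪(V)` has no inverse in `V`. -/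
theorem Prin_inv_not_mem {V : ValuationSubring F} {x : F} (hx : x ∈ V.nonunits) (hx0 : x ≠ 0) :
    x⁻¹ ∉ V := by
  intro h
  have h1 := basic_mul_mem_nonunits h hx
  rw [inv_mul_cancel₀ hx0] at h1
  exact Prin_one_not_mem_nonunits V h1

theorem Prin_div_mem_of_gauss {V : ValuationSubring F} (hG : GaussRing ϖ V) {f : F}
    (hf : f ∈ V.nonunits) : f / algebraMap R F ϖ ∈ V := by
  rcases eq_or_ne f 0 with rfl | hf0
  · rw [zero_div]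
    exact V.zero_mem
  · exact (hG.unif f (Prin_mem_of_mem_nonunits hf)).resolve_right (Prin_inv_not_mem hf hf0)

theorem Prin_mem_nonunits_of_pow {V : ValuationSubring F} {x : F} {e : ℕ}
    (h : x ^ e ∈ V.nonunits) : x ∈ V.nonunits := by
  rw [ValuationSubring.mem_nonunits_iff] at h ⊢
  rw [map_pow] at h
  by_contra hcon
  rw [not_lt] at hcon
  exact absurd h (not_lt.mpr (one_le_pow₀ hcon))

theorem Prin_coe_ne_zero (𝔪 : Ideal C) {s : C} (hs : s ∉ 𝔪) : (s : F) ≠ 0 := by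
  intro h
  apply hs
  have : s = 0 := Subtype.ext h
  rw [this]
  exact 𝔪.zero_mem

theorem Prin_inv_mem_locAt (𝔪 : Ideal C) [𝔪.IsPrime] {s : C} (hs : s ∉ 𝔪) :
    (s : F)⁻¹ ∈ locAt C 𝔪 :=
  inv_mem_locAt_of_not_inMaxLoc 𝔪 (le_locAt C 𝔪 s.2) (fun h => hs ((inMaxLoc_coe_iff 𝔪 s).1 h))

/-- (Prin) `ϖ ε = T W`, `ε ∉ 𝔪`, `T ∈ 𝔭_{i₀}`, `W 𝔪(𝒪 i₀) ⊆ ϖ 𝒪 i₀`, `W ∈ ϖ 𝒪 i` for `i ≠ i₀`
⟹ `𝔭_{i₀} C_𝔪 = T C_𝔪`.   [`f ∈ 𝔭_{i₀}`: `f W / ϖ =: c ∈ C` by `sat`, and `ε f = T c`.] -/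
theorem prinAt_of_mul_eq (hV : VertFam ϖ 𝒪) (hC : SatChartI ϖ 𝒪 C) (𝔪 : Ideal C) (i₀ : ι)
    (T W ε : C) (hT : (T : F) ∈ (𝒪 i₀).nonunits) (hε : ε ∉ 𝔪)
    (hTW : T * W = algebraMap R C ϖ * ε)
    (hW₀ : ∀ f ∈ (𝒪 i₀).nonunits, f * (W : F) / algebraMap R F ϖ ∈ 𝒪 i₀)
    (hW : ∀ i, i ≠ i₀ → (W : F) / algebraMap R F ϖ ∈ 𝒪 i) : PrinAt (𝒪 i₀) C 𝔪 T := by
  have hP0 := hV.ne_zero
  refine ⟨(Prin_mem_vertI (hC.le i₀) T).2 hT, fun f hf => ?_⟩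
  rw [Prin_mem_vertI (hC.le i₀)] at hf
  have hc : (f : F) * (W : F) / algebraMap R F ϖ ∈ C := by
    apply hC.sat _ (C.mul_mem f.2 W.2)
    intro i
    by_cases hi : i = i₀
    · subst hi
      exact hW₀ _ hf
    · rw [mul_div_assoc]
      exact (𝒪 i).mul_mem _ _ (hC.le i _ f.2) (hW i hi)
  refine ⟨ε, hε, ⟨⟨_, hc⟩, ?_⟩⟩
  apply Subtype.ext
  have h1 : (T : F) * (W : F) = algebraMap R F ϖ * (ε : F) := congrArg Subtype.val hTW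
  show (ε : F) * (f : F) = (T : F) * ((f : F) * (W : F) / algebraMap R F ϖ)
  have h2 : (T : F) * ((f : F) * (W : F) / algebraMap R F ϖ)
      = (f : F) * ((T : F) * (W : F)) / algebraMap R F ϖ := by ring
  rw [h2, h1]
  field_simp

/-- if `PrinAt` holds with a generator in `𝔪`, then the component passes through `𝔪`. -/
theorem PrinAt.le (𝔪 : Ideal C) [𝔪.IsPrime] {V : ValuationSubring F} {X : C}
    (h : PrinAt V C 𝔪 X) (hX : X ∈ 𝔪) : vertI V C ≤ 𝔪 := by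
  intro f hf
  obtain ⟨s, hs, c, hc⟩ := h.2 f hf
  have h1 : s * f ∈ 𝔪 := by
    rw [hc]
    exact 𝔪.mul_mem_right c hX
  exact (Ideal.IsPrime.mem_or_mem inferInstance h1).resolve_left hs

/-- A point which lies on one component only, of multiplicity one: generator `ϖ`. -/
theorem prinAt_of_single [Finite ι] (hV : VertFam ϖ 𝒪) (hC : SatChartI ϖ 𝒪 C)
    (𝔪 : Ideal C) [𝔪.IsPrime] (i₀ : ι) (hG : GaussRing ϖ (𝒪 i₀))
    (hone : ∀ i, i ≠ i₀ → ¬ vertI (𝒪 i) C ≤ 𝔪) : PrinAt (𝒪 i₀) C 𝔪 (algebraMap R C ϖ) := by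
  obtain ⟨e, he, hediv⟩ := exists_not_mem_forall_div_mem hV hC 𝔪 1
  refine prinAt_of_mul_eq hV hC 𝔪 i₀ (algebraMap R C ϖ) e e (hV.mem i₀) he rfl ?_ ?_
  · intro f hf
    have : f * (e : F) / algebraMap R F ϖ = f / algebraMap R F ϖ * (e : F) := by ring
    rw [this]
    exact (𝒪 i₀).mul_mem _ _ (Prin_div_mem_of_gauss hG hf) (hC.le i₀ _ e.2)
  · intro i hi
    have := hediv i (hone i hi)
    rwa [pow_one] at this

/-- A point which lies only on the component `i₀` of multiplicity `e`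
(blueprint #1030 (9) "b only").  [`Y = Y₁ / s₁`; `T = Y₁`, `W = Y₁ ^ (e - 1) * e₁`,
`e₁` from `exists_not_mem_forall_div_mem` (`k = 1`); `ε = Y₁ ^ e e₁ / ϖ ∈ C` by `sat`;
`ε + s₁ ^ e e₁ γ ∈ 𝔪(𝒪 i₀) ∩ C_𝔪`, and `s₁ ^ e e₁ γ` is a unit at `𝔪`, so `ε ∉ 𝔪`.] -/
theorem exists_prinAt_of_midAt [Finite ι] (hV : VertFam ϖ 𝒪) (hC : SatChartI ϖ 𝒪 C)
    (𝔪 : Ideal C) [𝔪.IsPrime] (i₀ : ι) (hle : vertI (𝒪 i₀) C ≤ 𝔪)
    (hone : ∀ i, i ≠ i₀ → ¬ vertI (𝒪 i) C ≤ 𝔪) {e : ℕ} (he : 0 < e)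
    (hmid : MidAt ϖ (𝒪 i₀) C 𝔪 e) : ∃ X : C, PrinAt (𝒪 i₀) C 𝔪 X := by
  obtain ⟨Y, γ, hγ0, ⟨s₁, hs₁, hY₁⟩, hγ, hγ', hYγ, hunif⟩ := hmid
  obtain ⟨e₁, he₁, he₁div⟩ := exists_not_mem_forall_div_mem hV hC 𝔪 1
  have hP0 := hV.ne_zero
  have hloc := locAt_le_of_vertI_le hC 𝔪 i₀ hle
  have hs₁0 := Prin_coe_ne_zero 𝔪 hs₁
  have he₁0 := Prin_coe_ne_zero 𝔪 he₁
  obtain ⟨k, rfl⟩ : ∃ k, e = k + 1 := ⟨e - 1, by omega⟩
  -- `Y ^ e / ϖ ∈ 𝒪 i₀`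
  have hYP : Y ^ (k + 1) / algebraMap R F ϖ ∈ 𝒪 i₀ := by
    have : Y ^ (k + 1) / algebraMap R F ϖ = (Y ^ (k + 1) / algebraMap R F ϖ + γ) - γ := by ring
    rw [this]
    exact (𝒪 i₀).sub_mem (Prin_mem_of_mem_nonunits hYγ) (hloc γ hγ)
  have hY0 : Y ≠ 0 := by
    rintro rfl
    rw [zero_pow (Nat.succ_ne_zero k), zero_div, zero_add] at hYγ
    exact Prin_inv_not_mem hYγ hγ0 (hloc _ hγ')
  have hYn : Y ∈ (𝒪 i₀).nonunits := by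
    apply Prin_mem_nonunits_of_pow (e := k + 1)
    have : Y ^ (k + 1) = Y ^ (k + 1) / algebraMap R F ϖ * algebraMap R F ϖ := by
      rw [div_mul_cancel₀ _ hP0]
    rw [this]
    exact basic_mul_mem_nonunits hYP (hV.mem i₀)
  have hεC : (Y * (s₁ : F)) ^ (k + 1) * (e₁ : F) / algebraMap R F ϖ ∈ C := by
    apply hC.sat _ (C.mul_mem (C.pow_mem hY₁ _) e₁.2)
    intro i
    by_cases hi : i = i₀
    · subst hi
      have : (Y * (s₁ : F)) ^ (k + 1) * (e₁ : F) / algebraMap R F ϖ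
          = Y ^ (k + 1) / algebraMap R F ϖ * ((s₁ : F) ^ (k + 1) * (e₁ : F)) := by
        rw [mul_pow]; ring
      rw [this]
      exact (𝒪 i).mul_mem _ _ hYP ((𝒪 i).mul_mem _ _ ((𝒪 i).pow_mem (hC.le i _ s₁.2) _)
        (hC.le i _ e₁.2))
    · have h1 := he₁div i (hone i hi)
      rw [pow_one] at h1
      rw [mul_div_assoc]
      exact (𝒪 i).mul_mem _ _ ((𝒪 i).pow_mem (hC.le i _ hY₁) _) h1
  refine ⟨⟨Y * (s₁ : F), hY₁⟩, prinAt_of_mul_eq hV hC 𝔪 i₀ ⟨Y * (s₁ : F), hY₁⟩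
    (⟨Y * (s₁ : F), hY₁⟩ ^ k * e₁) ⟨_, hεC⟩ ?_ ?_ ?_ ?_ ?_⟩
  · show Y * (s₁ : F) ∈ (𝒪 i₀).nonunits
    rw [mul_comm]
    exact basic_mul_mem_nonunits (hC.le i₀ _ s₁.2) hYn
  · intro hεm
    have hunit : (s₁ : F) ^ (k + 1) * (e₁ : F) * γ ∈ locAt C 𝔪 :=
      mul_mem (mul_mem (pow_mem (le_locAt C 𝔪 s₁.2) _) (le_locAt C 𝔪 e₁.2)) hγ
    have hunit' : ((s₁ : F) ^ (k + 1) * (e₁ : F) * γ)⁻¹ ∈ locAt C 𝔪 := by
      rw [mul_inv, mul_inv, ← inv_pow]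
      exact mul_mem (mul_mem (pow_mem (Prin_inv_mem_locAt 𝔪 hs₁) _) (Prin_inv_mem_locAt 𝔪 he₁)) hγ'
    have hunit0 : (s₁ : F) ^ (k + 1) * (e₁ : F) * γ ≠ 0 :=
      mul_ne_zero (mul_ne_zero (pow_ne_zero _ hs₁0) he₁0) hγ0
    apply not_inMaxLoc_of_inv_mem 𝔪 hunit hunit' hunit0
    have hsum : (Y * (s₁ : F)) ^ (k + 1) * (e₁ : F) / algebraMap R F ϖ
        + (s₁ : F) ^ (k + 1) * (e₁ : F) * γ
        = ((s₁ : F) ^ (k + 1) * (e₁ : F)) * (Y ^ (k + 1) / algebraMap R F ϖ + γ) := by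
      rw [mul_pow]; ring
    have h1 : InMaxLoc C 𝔪 ((Y * (s₁ : F)) ^ (k + 1) * (e₁ : F) / algebraMap R F ϖ
        + (s₁ : F) ^ (k + 1) * (e₁ : F) * γ) := by
      apply inMaxLoc_of_mem_nonunits hC 𝔪 i₀ hle (add_mem (le_locAt C 𝔪 hεC) hunit)
      rw [hsum]
      exact basic_mul_mem_nonunits ((𝒪 i₀).mul_mem _ _ ((𝒪 i₀).pow_mem (hC.le i₀ _ s₁.2) _)
        (hC.le i₀ _ e₁.2)) hYγ
    have h2 : InMaxLoc C 𝔪 ((Y * (s₁ : F)) ^ (k + 1) * (e₁ : F) / algebraMap R F ϖ) :=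
      (inMaxLoc_coe_iff 𝔪 ⟨_, hεC⟩).2 hεm
    have h3 := InMaxLoc.add 𝔪 h1 (InMaxLoc.neg 𝔪 h2)
    have h4 : (Y * (s₁ : F)) ^ (k + 1) * (e₁ : F) / algebraMap R F ϖ
        + (s₁ : F) ^ (k + 1) * (e₁ : F) * γ
        + -((Y * (s₁ : F)) ^ (k + 1) * (e₁ : F) / algebraMap R F ϖ)
        = (s₁ : F) ^ (k + 1) * (e₁ : F) * γ := by ring
    rwa [h4] at h3
  · apply Subtype.ext
    show Y * (s₁ : F) * ((Y * (s₁ : F)) ^ k * (e₁ : F))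
      = algebraMap R F ϖ * ((Y * (s₁ : F)) ^ (k + 1) * (e₁ : F) / algebraMap R F ϖ)
    rw [mul_div_cancel₀ _ hP0, pow_succ]
    ring
  · intro f hf
    show f * ((Y * (s₁ : F)) ^ k * (e₁ : F)) / algebraMap R F ϖ ∈ 𝒪 i₀
    have : f * ((Y * (s₁ : F)) ^ k * (e₁ : F)) / algebraMap R F ϖ
        = f / Y * ((s₁ : F)⁻¹ * ((Y * (s₁ : F)) ^ (k + 1) * (e₁ : F) / algebraMap R F ϖ)) := by
      rw [pow_succ]
      field_simp
    rw [this]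
    exact (𝒪 i₀).mul_mem _ _ (hunif f hf) ((𝒪 i₀).mul_mem _ _ (inv_mem_of_not_mem hC 𝔪 i₀ hle hs₁)
      (hC.le i₀ _ hεC))
  · intro i hi
    show (Y * (s₁ : F)) ^ k * (e₁ : F) / algebraMap R F ϖ ∈ 𝒪 i
    have h1 := he₁div i (hone i hi)
    rw [pow_one] at h1
    rw [mul_div_assoc]
    exact (𝒪 i).mul_mem _ _ ((𝒪 i).pow_mem (hC.le i _ hY₁) _) h1

end Fermat.Agent.GT.Loc
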