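import Fermat.Agent.GT.Loc.Over
import Fermat.Agent.GT.Loc.Node

/-!
GT-LOC, abstract layer, file `Reg`: REGULARITY AT LEVEL `q² N₀` (blueprint #1030 (9), (Inc)).

The three components are indexed by `Fin 3`: `0 = a = ∞`, `1 = b = mid` (multiplicity `e = q - 1`),
`2 = c = 0`.  `φ₁ : F1 → F` is the inclusion (`a, b ↦ ∞`, `c ↦ 0`), `φ₂ = V : F1 → F`
(`a ↦ ∞`, `b, c ↦ 0`).
-/

set_option autoImplicit false

namespace Fermat.Agent.GT.Loc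

open Fermat.Agent.GR.E Fermat.Agent.GS Fermat.Agent.GT

variable {R : Type*} [CommRing R] {F1 F : Type*} [Field F1] [Field F] [Algebra R F1] [Algebra R F]

/-- copy of `GT.mem_vertI` without the DVR hypotheses on `R`. -/
theorem Reg_mem_vertI {V : ValuationSubring F} {C : Subalgebra R F} (hle : ∀ x ∈ C, x ∈ V)
    (x : C) : x ∈ vertI V C ↔ (x : F) ∈ V.nonunits := by
  constructor
  · intro hx
    refine Submodule.span_induction (p := fun (y : C) _ => (y : F) ∈ V.nonunits)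
      (fun y hy => hy) ?_ ?_ ?_ hx
    · exact V.nonunits.zero_mem
    · intro y z _ _ hy hz
      exact V.nonunits.add_mem hy hz
    · intro a y _ hy
      exact basic_mul_mem_nonunits (hle _ a.2) hy
  · intro hx
    exact Ideal.subset_span hx

/-- copy of `GT.exists_vertI_le` without the DVR hypotheses on `R`. -/
theorem Reg_exists_vertI_le {ι : Type*} [Finite ι] {ϖ : R} {𝒪 : ι → ValuationSubring F}
    (hV : VertFam ϖ 𝒪) {C : Subalgebra R F}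
    (hC : SatChartI ϖ 𝒪 C) (𝔪 : Ideal C) [𝔪.IsPrime] (hϖ𝔪 : algebraMap R C ϖ ∈ 𝔪) :
    ∃ i, vertI (𝒪 i) C ≤ 𝔪 := by
  classical
  cases nonempty_fintype ι
  by_contra hcon
  push Not at hcon
  have hx : ∀ i, ∃ x : C, x ∈ vertI (𝒪 i) C ∧ x ∉ 𝔪 := fun i => SetLike.not_le_iff_exists.1 (hcon i)
  choose x hxv hxm using hx
  set y : C := ∏ i, x i with hy
  have hy𝔪 : y ∉ 𝔪 := by
    intro h
    obtain ⟨i, -, hi⟩ := Ideal.IsPrime.prod_mem_iff.1 h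
    exact hxm i hi
  have hyv : ∀ i, (y : F) ∈ (𝒪 i).nonunits := by
    intro i
    rw [← Reg_mem_vertI (hC.le i)]
    rw [hy, ← Finset.mul_prod_erase Finset.univ x (Finset.mem_univ i)]
    exact Ideal.mul_mem_right _ _ (hxv i)
  obtain ⟨e, he⟩ := hV.nilp
  have h1 : (y : F) ^ e / algebraMap R F ϖ ∈ C :=
    hC.sat _ (C.pow_mem y.2 e) fun i => he i _ (hyv i)
  have h2 : y ^ e = algebraMap R C ϖ * ⟨_, h1⟩ := by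
    apply Subtype.ext
    have := hV.ne_zero
    change (y : F) ^ e = algebraMap R F ϖ * ((y : F) ^ e / algebraMap R F ϖ)
    field_simp
  have h3 : y ^ e ∈ 𝔪 := by
    rw [h2]
    exact Ideal.mul_mem_right _ _ hϖ𝔪
  exact hy𝔪 (Ideal.IsPrime.mem_of_pow_mem inferInstance e h3)

/-- Everything which the abstract regularity theorem consumes. -/
structure Level2 (ϖ : R) (e : ℕ) (φ₁ φ₂ : F1 →ₐ[R] F) (𝒪oo 𝒪0 : ValuationSubring F1)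
    (C1 : Subalgebra R F1) (𝒪 : Fin 3 → ValuationSubring F) (C : Subalgebra R F) : Prop where
  e_pos : 0 < e
  vertFam : VertFam ϖ 𝒪
  sat : SatChartI ϖ 𝒪 C
  gauss_oo : GaussRing ϖ 𝒪oo
  gauss_0 : GaussRing ϖ 𝒪0
  le_oo : ∀ x ∈ C1, x ∈ 𝒪oo
  le_0 : ∀ x ∈ C1, x ∈ 𝒪0
  over₁ : Over ϖ φ₁ 𝒪oo 𝒪0 C1 𝒪 C 2
  over₂ : Over ϖ φ₂ 𝒪0 𝒪oo C1 𝒪 C 0
  node : ∀ 𝔫 : Ideal C1, 𝔫.IsMaximal → vert ϖ 𝒪oo C1 ≤ 𝔫 → vert ϖ 𝒪0 C1 ≤ 𝔫 →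
    RegNode ϖ 𝒪oo 𝒪0 C1 𝔫
  mid : ∀ (𝔪 : Ideal C) (h : 𝔪.IsMaximal), vertI (𝒪 1) C ≤ 𝔪 → ¬ vertI (𝒪 0) C ≤ 𝔪 →
    ¬ vertI (𝒪 2) C ≤ 𝔪 → haveI := h.isPrime; MidAt ϖ (𝒪 1) C 𝔪 e

variable {ϖ : R} {e : ℕ} {φ₁ φ₂ : F1 →ₐ[R] F} {𝒪oo 𝒪0 : ValuationSubring F1}
  {C1 : Subalgebra R F1} {𝒪 : Fin 3 → ValuationSubring F} {C : Subalgebra R F}

/-- `𝔪` lies on `c` and on (`a` or `b`) ⟹ its image under `φ₁` is a node. -/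
theorem Level2.node₁ (H : Level2 ϖ e φ₁ φ₂ 𝒪oo 𝒪0 C1 𝒪 C) (𝔪 : Ideal C)
    (hc : vertI (𝒪 2) C ≤ 𝔪) (hab : vertI (𝒪 0) C ≤ 𝔪 ∨ vertI (𝒪 1) C ≤ 𝔪) :
    vert ϖ 𝒪oo C1 ≤ 𝔪.comap (pull φ₁ C1 C H.over₁.map_mem) ∧
      vert ϖ 𝒪0 C1 ≤ 𝔪.comap (pull φ₁ C1 C H.over₁.map_mem) := by
  constructor
  · rcases hab with h | h
    · rw [← H.over₁.comap_vertI H.gauss_oo H.le_oo H.sat 0 (by decide)]
      exact Ideal.comap_mono h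
    · rw [← H.over₁.comap_vertI H.gauss_oo H.le_oo H.sat 1 (by decide)]
      exact Ideal.comap_mono h
  · rw [← H.over₁.comap_vertI₀ H.gauss_0 H.le_0 H.sat]
    exact Ideal.comap_mono hc

/-- `𝔪` lies on `a` and on (`b` or `c`) ⟹ its image under `φ₂` is a node. -/
theorem Level2.node₂ (H : Level2 ϖ e φ₁ φ₂ 𝒪oo 𝒪0 C1 𝒪 C) (𝔪 : Ideal C)
    (ha : vertI (𝒪 0) C ≤ 𝔪) (hbc : vertI (𝒪 1) C ≤ 𝔪 ∨ vertI (𝒪 2) C ≤ 𝔪) :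
    vert ϖ 𝒪oo C1 ≤ 𝔪.comap (pull φ₂ C1 C H.over₂.map_mem) ∧
      vert ϖ 𝒪0 C1 ≤ 𝔪.comap (pull φ₂ C1 C H.over₂.map_mem) := by
  constructor
  · rw [← H.over₂.comap_vertI₀ H.gauss_oo H.le_oo H.sat]
    exact Ideal.comap_mono ha
  · rcases hbc with h | h
    · rw [← H.over₂.comap_vertI H.gauss_0 H.le_0 H.sat 1 (by decide)]
      exact Ideal.comap_mono h
    · rw [← H.over₂.comap_vertI H.gauss_0 H.le_0 H.sat 2 (by decide)]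
      exact Ideal.comap_mono h

/-- (Inc) a maximal ideal containing two of the vertical primes contains all three. -/
theorem Level2.inc (H : Level2 ϖ e φ₁ φ₂ 𝒪oo 𝒪0 C1 𝒪 C) (𝔪 : Ideal C) (h𝔪 : 𝔪.IsMaximal)
    {i j : Fin 3} (hij : i ≠ j) (hi : vertI (𝒪 i) C ≤ 𝔪) (hj : vertI (𝒪 j) C ≤ 𝔪) :
    ∀ k, vertI (𝒪 k) C ≤ 𝔪 := by
  have key₁ : vertI (𝒪 2) C ≤ 𝔪 → (vertI (𝒪 0) C ≤ 𝔪 ∨ vertI (𝒪 1) C ≤ 𝔪) →
      ∀ k, vertI (𝒪 k) C ≤ 𝔪 := by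
    intro hc hab
    obtain ⟨h₁, h₂⟩ := H.node₁ 𝔪 hc hab
    exact H.over₁.vertI_le_of_regNode H.vertFam H.sat H.gauss_oo H.gauss_0 H.le_oo H.le_0 𝔪 h𝔪
      h₁ h₂ (H.node _ (H.over₁.comap_isMaximal 𝔪 h𝔪) h₁ h₂)
  have key₂ : vertI (𝒪 0) C ≤ 𝔪 → (vertI (𝒪 1) C ≤ 𝔪 ∨ vertI (𝒪 2) C ≤ 𝔪) →
      ∀ k, vertI (𝒪 k) C ≤ 𝔪 := by
    intro ha hbc
    obtain ⟨h₁, h₂⟩ := H.node₂ 𝔪 ha hbc
    exact H.over₂.vertI_le_of_regNode H.vertFam H.sat H.gauss_0 H.gauss_oo H.le_0 H.le_oo 𝔪 h𝔪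
      h₂ h₁ (H.node _ (H.over₂.comap_isMaximal 𝔪 h𝔪) h₁ h₂).symm
  fin_cases i <;> fin_cases j <;> first
    | exact absurd rfl hij
    | exact key₂ hi (Or.inl hj)
    | exact key₂ hi (Or.inr hj)
    | exact key₂ hj (Or.inl hi)
    | exact key₂ hj (Or.inr hi)
    | exact key₁ hi (Or.inr hj)
    | exact key₁ hj (Or.inr hi)

/-- (Inc) a triple point is the only point above its image under `φ₁`. -/
theorem Level2.unique₁ (H : Level2 ϖ e φ₁ φ₂ 𝒪oo 𝒪0 C1 𝒪 C) (𝔪 𝔪' : Ideal C)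
    (h𝔪 : 𝔪.IsMaximal) (h𝔪' : 𝔪'.IsMaximal) (h3 : ∀ k, vertI (𝒪 k) C ≤ 𝔪)
    (h : 𝔪.comap (pull φ₁ C1 C H.over₁.map_mem) = 𝔪'.comap (pull φ₁ C1 C H.over₁.map_mem)) :
    𝔪 = 𝔪' := by
  obtain ⟨h₁, h₂⟩ := H.node₁ 𝔪 (h3 2) (Or.inl (h3 0))
  exact H.over₁.unique_of_regNode H.vertFam H.sat H.le_0 𝔪 𝔪' h𝔪 h𝔪' h₂
    (H.node _ (H.over₁.comap_isMaximal 𝔪 h𝔪) h₁ h₂) h

/-- (Inc) a triple point is the only point above its image under `φ₂`. -/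
theorem Level2.unique₂ (H : Level2 ϖ e φ₁ φ₂ 𝒪oo 𝒪0 C1 𝒪 C) (𝔪 𝔪' : Ideal C)
    (h𝔪 : 𝔪.IsMaximal) (h𝔪' : 𝔪'.IsMaximal) (h3 : ∀ k, vertI (𝒪 k) C ≤ 𝔪)
    (h : 𝔪.comap (pull φ₂ C1 C H.over₂.map_mem) = 𝔪'.comap (pull φ₂ C1 C H.over₂.map_mem)) :
    𝔪 = 𝔪' := by
  obtain ⟨h₁, h₂⟩ := H.node₂ 𝔪 (h3 0) (Or.inl (h3 1))
  exact H.over₂.unique_of_regNode H.vertFam H.sat H.le_oo 𝔪 𝔪' h𝔪 h𝔪' h₁
    (H.node _ (H.over₂.comap_isMaximal 𝔪 h𝔪) h₁ h₂).symm h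

/-- REGULARITY at every closed point of the special fibre.
[`exists_vertI_le`; cases: `c` and (`a` or `b`): `over₁.regAt_of_regNode`; `a` and `b`:
`over₂.regAt_of_regNode` (with `RegNode.symm`); only `a` / only `c`: `prinAt_of_single`
(`over₂.gauss`, `over₁.gauss`); only `b`: `exists_prinAt_of_midAt`.] -/
theorem Level2.regAt (H : Level2 ϖ e φ₁ φ₂ 𝒪oo 𝒪0 C1 𝒪 C) (𝔪 : Ideal C) (h𝔪 : 𝔪.IsMaximal)
    (hϖ𝔪 : algebraMap R C ϖ ∈ 𝔪) : RegAt 𝒪 C 𝔪 := by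
  have := h𝔪.isPrime
  by_cases hc : vertI (𝒪 2) C ≤ 𝔪
  · by_cases hab : vertI (𝒪 0) C ≤ 𝔪 ∨ vertI (𝒪 1) C ≤ 𝔪
    · obtain ⟨h₁, h₂⟩ := H.node₁ 𝔪 hc hab
      obtain ⟨hle, X, hX⟩ := H.over₁.regAt_of_regNode H.vertFam H.sat H.le_0 𝔪 h₂
        (H.node _ (H.over₁.comap_isMaximal 𝔪 h𝔪) h₁ h₂)
      exact ⟨2, hle, X, hX⟩
    · push Not at hab
      refine ⟨2, hc, _, prinAt_of_single H.vertFam H.sat 𝔪 2 H.over₁.gauss ?_⟩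
      intro i hi
      fin_cases i
      · exact hab.1
      · exact hab.2
      · exact absurd rfl hi
  · by_cases ha : vertI (𝒪 0) C ≤ 𝔪
    · by_cases hb : vertI (𝒪 1) C ≤ 𝔪
      · obtain ⟨h₁, h₂⟩ := H.node₂ 𝔪 ha (Or.inl hb)
        obtain ⟨hle, X, hX⟩ := H.over₂.regAt_of_regNode H.vertFam H.sat H.le_oo 𝔪 h₁
          (H.node _ (H.over₂.comap_isMaximal 𝔪 h𝔪) h₁ h₂).symm
        exact ⟨0, hle, X, hX⟩
      · refine ⟨0, ha, _, prinAt_of_single H.vertFam H.sat 𝔪 0 H.over₂.gauss ?_⟩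
        intro i hi
        fin_cases i
        · exact absurd rfl hi
        · exact hb
        · exact hc
    · have hb : vertI (𝒪 1) C ≤ 𝔪 := by
        obtain ⟨i, hi⟩ := Reg_exists_vertI_le H.vertFam H.sat 𝔪 hϖ𝔪
        fin_cases i
        · exact absurd hi ha
        · exact hi
        · exact absurd hi hc
      refine ⟨1, hb, exists_prinAt_of_midAt H.vertFam H.sat 𝔪 1 hb ?_ H.e_pos
        (H.mid 𝔪 h𝔪 hb ha hc)⟩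
      intro i hi
      fin_cases i
      · exact ha
      · exact absurd rfl hi
      · exact hc

end Fermat.Agent.GT.Loc
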