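import Fermat.Agent.GT.Loc.Cross
import Fermat.Agent.GT.Val.Tower.Main

/-!
GT-LOC, semi-abstract layer, file `Three`: the three levels `F0 ⊆ F1 ⊆ F`
(`F0 = FF L N₀`, `F1 = FF L (q N₀)`, `F = FF L (q² N₀)`), the Atkin-Lehner involutions `w1 = w_q` of
`F1` and `w2 = w_{q²}` of `F`.

The second degeneracy map and the second norm are DEFINED by transport:
`φ₂ = w2 ∘ incl ∘ w1` (`= V : f(X) ↦ f(X^q)`, `EMB.wQ_sq_qExpand`),
`N₂ = w1 ∘ Nm_{F/F1} ∘ w2` (`= normT q ζ`, `EMB.normFF_wQ`).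

`Three` lists what is consumed from VAL (helper92) and GS-INST (helper63); the theorems produce the
fields `over₁`, `over₂` of `Level2` and the two `OverNorm`.
-/

set_option autoImplicit false

namespace Fermat.Agent.GT.Loc

open Fermat.Agent.GR.E Fermat.Agent.GS Fermat.Agent.GT

variable {R : Type*} [CommRing R] {F0 F1 F : Type*} [Field F0] [Field F1] [Field F]
  [Algebra R F0] [Algebra R F1] [Algebra R F] [Algebra F0 F1] [Algebra F1 F] [Algebra F0 F]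
  [IsScalarTower R F0 F1] [IsScalarTower R F1 F] [IsScalarTower R F0 F] [IsScalarTower F0 F1 F]

/-- the inclusion `F1 → F`. -/
def phiOne (R : Type*) [CommRing R] (F1 F : Type*) [Field F1] [Field F] [Algebra R F1]
    [Algebra R F] [Algebra F1 F] [IsScalarTower R F1 F] : F1 →ₐ[R] F :=
  IsScalarTower.toAlgHom R F1 F

/-- the second degeneracy map `w2 ∘ incl ∘ w1`. -/
def phiTwo (w1 : F1 ≃ₐ[R] F1) (w2 : F ≃ₐ[R] F) : F1 →ₐ[R] F :=
  (w2 : F →ₐ[R] F).comp ((phiOne R F1 F).comp (w1 : F1 →ₐ[R] F1))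

/-- the first norm: the field norm. -/
noncomputable def nmOne (F1 F : Type*) [Field F1] [Field F] [Algebra F1 F] : F →* F1 :=
  Algebra.norm F1

/-- the second norm `w1 ∘ Nm ∘ w2`. -/
noncomputable def nmTwo (w1 : F1 ≃ₐ[R] F1) (w2 : F ≃ₐ[R] F) : F →* F1 :=
  (w1 : F1 →* F1).comp ((nmOne F1 F).comp (w2 : F →* F))

@[simp] theorem phiOne_apply (x : F1) : phiOne R F1 F x = algebraMap F1 F x := rfl

@[simp] theorem phiTwo_apply (w1 : F1 ≃ₐ[R] F1) (w2 : F ≃ₐ[R] F) (x : F1) :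
    phiTwo w1 w2 x = w2 (algebraMap F1 F (w1 x)) := rfl

@[simp] theorem nmOne_apply (x : F) : nmOne F1 F x = Algebra.norm F1 x := rfl

omit [IsScalarTower R F1 F] in
@[simp] theorem nmTwo_apply (w1 : F1 ≃ₐ[R] F1) (w2 : F ≃ₐ[R] F) (x : F) :
    nmTwo w1 w2 x = w1 (Algebra.norm F1 (w2 x)) := rfl

/-- What is consumed from VAL and GS-INST, for one chart (base function `t ∈ F0`). -/
structure Three (ϖ : R) (q : ℕ) (𝒪0 : ValuationSubring F0) (𝒪oo 𝒪z : ValuationSubring F1)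
    (𝒪 : Fin 3 → ValuationSubring F) (w1 : F1 ≃ₐ[R] F1) (w2 : F ≃ₐ[R] F) (t : F0) : Prop where
  q_pos : 0 < q
  tower : Val.VTower ϖ 𝒪0 𝒪
  chart : Val.VChart ϖ 𝒪0 𝒪 t
  res0 : Val.ResEq 𝒪0 𝒪 0
  res1 : Val.ResEq 𝒪0 𝒪 1
  gauss_oo : GaussRing ϖ 𝒪oo
  gauss_z : GaussRing ϖ 𝒪z
  gauss0 : GaussRing ϖ (𝒪 0)
  gauss2 : GaussRing ϖ (𝒪 2)
  comap0 : ∀ x : F1, algebraMap F1 F x ∈ 𝒪 0 ↔ x ∈ 𝒪oo
  comap1 : ∀ x : F1, algebraMap F1 F x ∈ 𝒪 1 ↔ x ∈ 𝒪oo
  comap2 : ∀ x : F1, algebraMap F1 F x ∈ 𝒪 2 ↔ x ∈ 𝒪z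
  invol1 : ∀ x, w1 (w1 x) = x
  invol2 : ∀ x, w2 (w2 x) = x
  opp1 : ∀ x, x ∈ 𝒪z ↔ w1 x ∈ 𝒪oo
  opp2 : ∀ x, x ∈ 𝒪 2 ↔ w2 x ∈ 𝒪 0
  /-- the charts are stable under Atkin-Lehner -/
  stable1 : ∀ x ∈ GR.E.chart R ({algebraMap F0 F1 t} : Set F1),
    w1 x ∈ GR.E.chart R ({algebraMap F0 F1 t} : Set F1)
  stable2 : ∀ x ∈ GR.E.chart R ({algebraMap F0 F t} : Set F),
    w2 x ∈ GR.E.chart R ({algebraMap F0 F t} : Set F)
  /-- `V x` is integral at the middle valuation iff `x` is integral at `0`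
  (`EMB.iotaMid_qExpand`) -/
  mid_V : ∀ x : F1, w2 (algebraMap F1 F (w1 x)) ∈ 𝒪 1 ↔ x ∈ 𝒪z
  /-- `f(X^{q²}) ≡ f(X)` at the middle valuation (`f(ζ X) ≡ f(X)`) -/
  mid_sq : ∀ f ∈ 𝒪0, w2 (algebraMap F0 F f) - algebraMap F0 F f ∈ (𝒪 1).nonunits
  /-- `w_{q²}` fixes `f(X^q)`, `f ∈ F0` -/
  fix_V : ∀ f : F0, w2 (algebraMap F1 F (w1 (algebraMap F0 F1 f))) =
    algebraMap F1 F (w1 (algebraMap F0 F1 f))
  /-- `Glue.NormVal.red_ins` for the field norm -/
  red_ins : ∀ a ∈ 𝒪 2, algebraMap F1 F (Algebra.norm F1 a) - a ^ q ∈ (𝒪 2).nonunits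

variable {ϖ : R} {q : ℕ} {𝒪0 : ValuationSubring F0} {𝒪oo 𝒪z : ValuationSubring F1}
  {𝒪 : Fin 3 → ValuationSubring F} {w1 : F1 ≃ₐ[R] F1} {w2 : F ≃ₐ[R] F} {t : F0}

local notation "C1[" t "]" => GR.E.chart R ({algebraMap F0 F1 t} : Set F1)
local notation "C2[" t "]" => GR.E.chart R ({algebraMap F0 F t} : Set F)

/-! ### helpers for part A (valid over any commutative ring `R`) -/

section ThreeHelpers

variable {R : Type*} [CommRing R] {E E' : Type*} [Field E] [Field E'] [Algebra R E] [Algebra R E']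

/-- the map induced by an `R`-algebra map on the adjoined algebras. -/
def Three_adjoinMap (v : E →ₐ[R] E') (S : Set E) :
    Algebra.adjoin R S →+* Algebra.adjoin R (v '' S) where
  toFun a := ⟨v (a : E), by
    rw [← AlgHom.map_adjoin]
    exact ⟨a, a.2, rfl⟩⟩
  map_one' := by apply Subtype.ext; simp
  map_mul' := by intro a b; apply Subtype.ext; simp
  map_zero' := by apply Subtype.ext; simp
  map_add' := by intro a b; apply Subtype.ext; simp

theorem Three_adjoinMap_comp (v : E →ₐ[R] E') (S : Set E) :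
    (algebraMap (Algebra.adjoin R (v '' S)) E').comp (Three_adjoinMap v S)
      = (v : E →+* E').comp (algebraMap (Algebra.adjoin R S) E) := by
  ext a
  rfl

theorem Three_adjoinMap_surjective (v : E →ₐ[R] E') (S : Set E) :
    Function.Surjective (Three_adjoinMap v S) := by
  rintro ⟨b, hb⟩
  rw [← AlgHom.map_adjoin] at hb
  obtain ⟨a, ha, rfl⟩ := hb
  exact ⟨⟨a, ha⟩, rfl⟩

theorem Three_map_mem_chart (v : E →ₐ[R] E') {S : Set E} {x : E} (hx : x ∈ GR.E.chart R S) :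
    v x ∈ GR.E.chart R (v '' S) := by
  rw [mem_chart] at hx ⊢
  exact IsIntegral.map_of_comp_eq (Three_adjoinMap v S) (v : E →+* E')
    (Three_adjoinMap_comp v S) hx

/-- an element of the chart `chart R (v '' S)` is a root of a monic polynomial with coefficients in
`Algebra.adjoin R S`. -/
theorem Three_exists_monic (v : E →ₐ[R] E') {S : Set E} {z : E'}
    (hz : z ∈ GR.E.chart R (v '' S)) :
    ∃ p : Polynomial (Algebra.adjoin R S), p.Monic ∧
      Polynomial.eval₂ ((v : E →+* E').comp (algebraMap (Algebra.adjoin R S) E)) z p = 0 := by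
  rw [mem_chart] at hz
  obtain ⟨p, hp, hpz⟩ := hz
  have hl : p ∈ Polynomial.lifts (Three_adjoinMap v S) := by
    rw [Polynomial.mem_lifts]
    exact Polynomial.map_surjective _ (Three_adjoinMap_surjective _ _) p
  obtain ⟨p', hp', -, hmon⟩ := Polynomial.lifts_and_natDegree_eq_and_monic hl hp
  refine ⟨p', hmon, ?_⟩
  rw [← Three_adjoinMap_comp, ← Polynomial.eval₂_map, hp']
  exact hpz

theorem Three_chart_le_valuationSubring (V : ValuationSubring E)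
    (hR : ∀ r : R, algebraMap R E r ∈ V) {S : Set E} (hS : ∀ s ∈ S, s ∈ V) {x : E}
    (hx : x ∈ GR.E.chart R S) : x ∈ V := by
  rw [mem_chart] at hx
  have hle : ∀ a ∈ Algebra.adjoin R S, a ∈ V := by
    intro a ha
    induction ha using Algebra.adjoin_induction with
    | mem s hs => exact hS s hs
    | algebraMap r => exact hR r
    | add a b _ _ ha hb => exact add_mem ha hb
    | mul a b _ _ ha hb => exact mul_mem ha hb
  obtain ⟨p, hp, hpx⟩ := hx
  let g : Algebra.adjoin R S →+* V :=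
    { toFun := fun a => ⟨(a : E), hle a a.2⟩
      map_one' := rfl
      map_mul' := fun _ _ => rfl
      map_zero' := rfl
      map_add' := fun _ _ => rfl }
  have hint : IsIntegral V x := by
    refine ⟨p.map g, hp.map g, ?_⟩
    rw [Polynomial.eval₂_map]
    exact hpx
  have hcl : IsIntegrallyClosed V := inferInstance
  obtain ⟨y, hy⟩ := (isIntegrallyClosed_iff E).1 hcl hint
  rw [← hy]
  exact y.2

theorem Three_adjoin_le_chart (S : Set E) : Algebra.adjoin R S ≤ GR.E.chart R S := by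
  intro a ha
  rw [mem_chart]
  exact (isIntegral_algebraMap (R := Algebra.adjoin R S) (A := E) (x := ⟨a, ha⟩))

end ThreeHelpers

/-- the norm of an element of the chart lies in the chart (`Algebra.isIntegral_norm`). -/
theorem norm_mem_chart {c : F} (hc : c ∈ C2[t]) : Algebra.norm F1 c ∈ C1[t] := by
  have hc' : c ∈ GR.E.chart R ((IsScalarTower.toAlgHom R F1 F) '' ({algebraMap F0 F1 t} : Set F1)) := by
    rw [Set.image_singleton, IsScalarTower.coe_toAlgHom', ← IsScalarTower.algebraMap_apply]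
    exact hc
  obtain ⟨p, hp, hpc⟩ := Three_exists_monic (IsScalarTower.toAlgHom R F1 F) hc'
  rw [mem_chart]
  have hint : IsIntegral (Algebra.adjoin R ({algebraMap F0 F1 t} : Set F1)) c := ⟨p, hp, hpc⟩
  exact Algebra.isIntegral_norm F1 hint

theorem algebraMap_mem_chart₁₂ {x : F1} (hx : x ∈ C1[t]) : algebraMap F1 F x ∈ C2[t] := by
  have := Three_map_mem_chart (IsScalarTower.toAlgHom R F1 F) hx
  rwa [Set.image_singleton, IsScalarTower.coe_toAlgHom', ← IsScalarTower.algebraMap_apply] at this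

theorem algebraMap_mem_chart₀₁ {x : F0} (hx : x ∈ GR.E.chart R ({t} : Set F0)) :
    algebraMap F0 F1 x ∈ C1[t] := by
  have := Three_map_mem_chart (IsScalarTower.toAlgHom R F0 F1) hx
  rwa [Set.image_singleton] at this

theorem Three.nonunits2 (H : Three ϖ q 𝒪0 𝒪oo 𝒪z 𝒪 w1 w2 t) (x : F) :
    x ∈ (𝒪 2).nonunits ↔ w2 x ∈ (𝒪 0).nonunits := by
  rw [Over_mem_nonunits_iff, Over_mem_nonunits_iff, H.opp2, map_inv₀, map_eq_zero_iff w2 w2.injective]

theorem Three.over₁ (H : Three ϖ q 𝒪0 𝒪oo 𝒪z 𝒪 w1 w2 t) :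
    Over ϖ (phiOne R F1 F) 𝒪oo 𝒪z C1[t] 𝒪 C2[t] 2 := by
  have hmap : ∀ x ∈ C1[t], phiOne R F1 F x ∈ C2[t] := fun x hx => algebraMap_mem_chart₁₂ hx
  refine ⟨hmap, ?_, H.comap2, ?_, H.gauss2, ?_⟩
  · intro z
    have hz' : (z : F) ∈
        GR.E.chart R ((IsScalarTower.toAlgHom R F1 F) '' ({algebraMap F0 F1 t} : Set F1)) := by
      rw [Set.image_singleton, IsScalarTower.coe_toAlgHom', ← IsScalarTower.algebraMap_apply]
      exact z.2
    obtain ⟨p, hp, hpz⟩ := Three_exists_monic (IsScalarTower.toAlgHom R F1 F) hz'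
    refine ⟨p.map (Subalgebra.inclusion (Three_adjoin_le_chart _)).toRingHom, hp.map _, ?_⟩
    rw [Polynomial.eval₂_map]
    apply Subtype.ext
    have h1 := Polynomial.hom_eval₂ p
      ((pull (phiOne R F1 F) C1[t] C2[t] hmap).toRingHom.comp
        (Subalgebra.inclusion (Three_adjoin_le_chart ({algebraMap F0 F1 t} : Set F1))).toRingHom)
      (C2[t]).val.toRingHom z
    have h2 : ((C2[t]).val.toRingHom (Polynomial.eval₂
      ((pull (phiOne R F1 F) C1[t] C2[t] hmap).toRingHom.comp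
        (Subalgebra.inclusion (Three_adjoin_le_chart ({algebraMap F0 F1 t} : Set F1))).toRingHom)
      z p) : F) = 0 := by
      rw [h1]
      exact hpz
    exact h2
  · intro i hi x
    fin_cases i
    · exact H.comap0 x
    · exact H.comap1 x
    · exact absurd rfl hi
  · refine insep_of_red_ins (Nm := nmOne F1 F) H.q_pos ?_ (fun c hc => norm_mem_chart hc) H.red_ins
    intro x hx
    refine Three_chart_le_valuationSubring (𝒪 2) ?_ ?_ hx
    · intro r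
      rw [IsScalarTower.algebraMap_apply R F0 F, H.tower.comap]
      exact H.chart.good.le _ (Subalgebra.algebraMap_mem _ r)
    · intro s hs
      rw [Set.mem_singleton_iff.1 hs, H.tower.comap]
      exact H.chart.good.le _ (Three_adjoin_le_chart _ (Algebra.subset_adjoin rfl))

theorem Three.overNorm₁ [IsDomain R] [IsDiscreteValuationRing R] (hϖ : Irreducible ϖ)
    (H : Three ϖ q 𝒪0 𝒪oo 𝒪z 𝒪 w1 w2 t) :
    OverNorm (phiOne R F1 F) C1[t] 𝒪 C2[t] 2 (nmOne F1 F) := by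
  refine ⟨?_, fun c hc => norm_mem_chart hc, ⟨Module.finrank F1 F, fun s => ?_⟩⟩
  · intro i hi c hc
    have key : ∀ j : Fin 3, Val.ResEq 𝒪0 𝒪 j → ∃ c1 ∈ C1[t], c - phiOne R F1 F c1 ∈ (𝒪 j).nonunits := by
      intro j hj
      obtain ⟨g, hg, hcg⟩ := Val.VChart.exists_sub_mem hϖ H.tower H.chart hj hc
      refine ⟨algebraMap F0 F1 g, algebraMap_mem_chart₀₁ hg, ?_⟩
      rw [phiOne_apply, ← IsScalarTower.algebraMap_apply]
      exact hcg
    fin_cases i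
    · exact key 0 H.res0
    · exact key 1 H.res1
    · exact absurd rfl hi
  · rw [phiOne_apply, nmOne_apply, Algebra.norm_algebraMap]

/-- `Val.VChart.le` without the hypothesis that `R` is a DVR. -/
theorem Three_le (H : Three ϖ q 𝒪0 𝒪oo 𝒪z 𝒪 w1 w2 t) (i : Fin 3) :
    ∀ x ∈ C2[t], x ∈ 𝒪 i := by
  intro x hx
  refine Three_chart_le_valuationSubring (𝒪 i) (fun r => ?_) ?_ hx
  · rw [IsScalarTower.algebraMap_apply R F0 F, H.tower.comap]
    exact H.chart.good.le _ (Subalgebra.algebraMap_mem _ r)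
  · intro s hs
    rw [Set.mem_singleton_iff.1 hs, H.tower.comap]
    refine H.chart.good.le _ ?_
    rw [mem_chart]
    exact isIntegral_algebraMap (R := Algebra.adjoin R ({t} : Set F0))
      (x := ⟨t, Algebra.subset_adjoin (Set.mem_singleton t)⟩)

theorem Three_phiTwo_w1 (H : Three ϖ q 𝒪0 𝒪oo 𝒪z 𝒪 w1 w2 t) (x : F1) :
    phiTwo w1 w2 (w1 x) = w2 (algebraMap F1 F x) := by
  rw [phiTwo_apply, H.invol1]

theorem Three_phiTwo_mem (H : Three ϖ q 𝒪0 𝒪oo 𝒪z 𝒪 w1 w2 t) :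
    ∀ x ∈ C1[t], phiTwo w1 w2 x ∈ C2[t] := fun x hx =>
  H.stable2 _ (algebraMap_mem_chart₁₂ (H.stable1 x hx))

theorem Three_w2_mem2 (H : Three ϖ q 𝒪0 𝒪oo 𝒪z 𝒪 w1 w2 t) (x : F) :
    w2 x ∈ 𝒪 2 ↔ x ∈ 𝒪 0 := by
  rw [H.opp2, H.invol2]

theorem Three_red_ins₂ (H : Three ϖ q 𝒪0 𝒪oo 𝒪z 𝒪 w1 w2 t) :
    ∀ a ∈ 𝒪 0, phiTwo w1 w2 (nmTwo w1 w2 a) - a ^ q ∈ (𝒪 0).nonunits := by
  intro a ha
  have h1 := H.red_ins (w2 a) ((Three_w2_mem2 H a).2 ha)
  rw [H.nonunits2, map_sub, map_pow, H.invol2] at h1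
  rw [nmTwo_apply, Three_phiTwo_w1 H]
  exact h1

theorem Three_nmTwo_mem (H : Three ϖ q 𝒪0 𝒪oo 𝒪z 𝒪 w1 w2 t) :
    ∀ c ∈ C2[t], nmTwo w1 w2 c ∈ C1[t] := fun c hc =>
  H.stable1 _ (norm_mem_chart (H.stable2 c hc))

theorem Three.over₂ (H : Three ϖ q 𝒪0 𝒪oo 𝒪z 𝒪 w1 w2 t) :
    Over ϖ (phiTwo w1 w2) 𝒪z 𝒪oo C1[t] 𝒪 C2[t] 0 := by
  refine ⟨Three_phiTwo_mem H, ?_, ?_, ?_, H.gauss0, ?_⟩
  · -- integrality
    intro z
    obtain ⟨p, hp, hpz⟩ := H.over₁.integral ⟨w2 (z : F), H.stable2 _ z.2⟩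
    let W1 : C1[t] →ₐ[R] C1[t] :=
      ((w1 : F1 →ₐ[R] F1).comp (C1[t]).val).codRestrict C1[t] (fun x => H.stable1 x x.2)
    refine ⟨p.map W1.toRingHom, hp.map _, ?_⟩
    apply Subtype.ext
    let g : C2[t] →+* F := (w2 : F →+* F).comp (C2[t]).val.toRingHom
    have h1 : Polynomial.eval₂
        (g.comp (pull (phiOne R F1 F) C1[t] C2[t] H.over₁.map_mem).toRingHom)
        (g ⟨w2 (z : F), H.stable2 _ z.2⟩) p = 0 := by
      rw [← Polynomial.hom_eval₂, hpz, map_zero]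
    have h2 : g ⟨w2 (z : F), H.stable2 _ z.2⟩ = z := H.invol2 z
    rw [h2] at h1
    have h3 : ((C2[t]).val.toRingHom.comp
        (pull (phiTwo w1 w2) C1[t] C2[t] (Three_phiTwo_mem H)).toRingHom).comp W1.toRingHom =
        g.comp (pull (phiOne R F1 F) C1[t] C2[t] H.over₁.map_mem).toRingHom := by
      ext c
      exact Three_phiTwo_w1 H c
    show (C2[t]).val.toRingHom _ = 0
    rw [Polynomial.hom_eval₂, Polynomial.eval₂_map, h3]
    exact h1
  · intro x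
    rw [phiTwo_apply, ← H.opp2, H.comap2, H.opp1, H.invol1]
  · intro i hi x
    fin_cases i
    · exact absurd rfl hi
    · exact H.mid_V x
    · show phiTwo w1 w2 x ∈ 𝒪 2 ↔ x ∈ 𝒪z
      rw [phiTwo_apply, Three_w2_mem2 H, H.comap0, H.opp1]
  · exact insep_of_red_ins H.q_pos (Three_le H 0) (Three_nmTwo_mem H) (Three_red_ins₂ H)

theorem Three.overNorm₂ [IsDomain R] [IsDiscreteValuationRing R] (hϖ : Irreducible ϖ)
    (H : Three ϖ q 𝒪0 𝒪oo 𝒪z 𝒪 w1 w2 t) :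
    OverNorm (phiTwo w1 w2) C1[t] 𝒪 C2[t] 0 (nmTwo w1 w2) := by
  have hφ : ∀ g : F0, phiTwo w1 w2 (w1 (algebraMap F0 F1 g)) = w2 (algebraMap F0 F g) := by
    intro g
    rw [Three_phiTwo_w1 H, ← IsScalarTower.algebraMap_apply]
  refine ⟨?_, Three_nmTwo_mem H, ⟨Module.finrank F1 F, ?_⟩⟩
  · intro i hi c hc
    fin_cases i
    · exact absurd rfl hi
    · show ∃ c1 ∈ C1[t], c - phiTwo w1 w2 c1 ∈ (𝒪 1).nonunits
      obtain ⟨g, hg, hcg⟩ := H.chart.exists_sub_mem hϖ H.tower H.res1 hc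
      refine ⟨w1 (algebraMap F0 F1 g), H.stable1 _ (algebraMap_mem_chart₀₁ hg), ?_⟩
      rw [hφ]
      have h1 := H.mid_sq g (H.chart.good.le _ hg)
      have : c - w2 (algebraMap F0 F g) =
          (c - algebraMap F0 F g) - (w2 (algebraMap F0 F g) - algebraMap F0 F g) := by ring
      rw [this]
      exact (𝒪 1).nonunits.sub_mem hcg h1
    · show ∃ c1 ∈ C1[t], c - phiTwo w1 w2 c1 ∈ (𝒪 2).nonunits
      obtain ⟨g, hg, hcg⟩ := H.chart.exists_sub_mem hϖ H.tower H.res0 (H.stable2 c hc)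
      refine ⟨w1 (algebraMap F0 F1 g), H.stable1 _ (algebraMap_mem_chart₀₁ hg), ?_⟩
      rw [hφ, H.nonunits2, map_sub, H.invol2]
      exact hcg
  · intro s
    rw [nmTwo_apply, phiTwo_apply, H.invol2, Algebra.norm_algebraMap, map_pow, H.invol1]

end Fermat.Agent.GT.Loc
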