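import Fermat.Agent.GT.Loc.Defs

/-! GT-LOC, abstract layer, file `Unit`: the local rings `locAt C 𝔪` and the UNIT PRINCIPLE. -/

set_option autoImplicit false

namespace Fermat.Agent.GT.Loc

open Fermat.Agent.GR.E Fermat.Agent.GS Fermat.Agent.GT

variable {R : Type*} [CommRing R] {F : Type*} [Field F] [Algebra R F] {ι : Type*}
variable {ϖ : R} {𝒪 : ι → ValuationSubring F} {C : Subalgebra R F}

/-- `GT.mem_vertI` without the hypotheses `IsDomain R`, `IsDiscreteValuationRing R`. -/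
theorem Unit_mem_vertI {V : ValuationSubring F} {C : Subalgebra R F} (hle : ∀ x ∈ C, x ∈ V)
    (x : C) : x ∈ vertI V C ↔ (x : F) ∈ V.nonunits := by
  constructor
  · intro hx
    refine Submodule.span_induction (p := fun (y : C) _ => (y : F) ∈ V.nonunits)
      (fun y hy => hy) ?_ ?_ ?_ hx
    · exact V.nonunits.zero_mem
    · intro y z _ _ hy hz
      exact V.nonunits.add_mem hy hz
    · intro a y _ hy
      exact basic_mul_mem_nonunits (hle _ a.2) hy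
  · intro hx
    exact Ideal.subset_span hx

/-- `GT.SatChartI.sat_pow` without the hypotheses `IsDomain R`, `IsDiscreteValuationRing R`. -/
theorem Unit_sat_pow {C : Subalgebra R F} (hC : SatChartI ϖ 𝒪 C) (m : ℕ) {x : F}
    (hx : x ∈ C) (h : ∀ i, x / algebraMap R F ϖ ^ m ∈ 𝒪 i) : x / algebraMap R F ϖ ^ m ∈ C := by
  induction m with
  | zero => simpa using hx
  | succ m ih =>
    by_cases h0 : algebraMap R F ϖ = 0
    · rw [h0, zero_pow (Nat.succ_ne_zero m), div_zero]; exact C.zero_mem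
    · have hϖ : ∀ i, algebraMap R F ϖ ∈ 𝒪 i := fun i => hC.le i _ (C.algebraMap_mem ϖ)
      have e1 : x / algebraMap R F ϖ ^ m = x / algebraMap R F ϖ ^ (m + 1) * algebraMap R F ϖ := by
        rw [pow_succ]; field_simp
      have e2 : x / algebraMap R F ϖ ^ (m + 1) = x / algebraMap R F ϖ ^ m / algebraMap R F ϖ := by
        rw [pow_succ]; field_simp
      have h1 : x / algebraMap R F ϖ ^ m ∈ C :=
        ih (fun i => by rw [e1]; exact mul_mem (h i) (hϖ i))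
      rw [e2]
      refine hC.sat _ h1 fun i => ?_
      rw [← e2]; exact h i

/-- an element of `C` outside `𝔪` is a unit of every `𝒪 i` whose centre is contained in `𝔪`. -/
theorem inv_mem_of_not_mem (hC : SatChartI ϖ 𝒪 C) (𝔪 : Ideal C) (i : ι)
    (hi : vertI (𝒪 i) C ≤ 𝔪) {s : C} (hs : s ∉ 𝔪) : (s : F)⁻¹ ∈ 𝒪 i := by
  have h1 : (s : F) ∉ (𝒪 i).nonunits := fun h => hs (hi ((Unit_mem_vertI (hC.le i) s).2 h))
  rw [ValuationSubring.mem_nonunits_iff_or, not_or, not_not] at h1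
  exact h1.2

theorem locAt_le_of_vertI_le (hC : SatChartI ϖ 𝒪 C) (𝔪 : Ideal C) [𝔪.IsPrime] (i : ι)
    (hi : vertI (𝒪 i) C ≤ 𝔪) : ∀ x ∈ locAt C 𝔪, x ∈ 𝒪 i := by
  rintro x ⟨s, hs, hx⟩
  have hs0 : (s : F) ≠ 0 := Loc_coe_ne_zero 𝔪 hs
  have : x = x * (s : F) * (s : F)⁻¹ := by field_simp
  rw [this]
  exact (𝒪 i).mul_mem _ _ (hC.le i _ hx) (inv_mem_of_not_mem hC 𝔪 i hi hs)

theorem inMaxLoc_of_mem_nonunits (hC : SatChartI ϖ 𝒪 C) (𝔪 : Ideal C) [𝔪.IsPrime] (i : ι)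
    (hi : vertI (𝒪 i) C ≤ 𝔪) {x : F} (hx : x ∈ locAt C 𝔪) (hx' : x ∈ (𝒪 i).nonunits) :
    InMaxLoc C 𝔪 x := by
  obtain ⟨s, hs, hc⟩ := hx
  refine ⟨s, ⟨_, hc⟩, hs, hi ((Unit_mem_vertI (hC.le i) _).2 ?_), rfl⟩
  change x * (s : F) ∈ (𝒪 i).nonunits
  rw [mul_comm]
  exact basic_mul_mem_nonunits (hC.le i _ s.2) hx'

theorem inv_mem_locAt_of_not_inMaxLoc (𝔪 : Ideal C) [𝔪.IsPrime] {x : F} (hx : x ∈ locAt C 𝔪)
    (h : ¬ InMaxLoc C 𝔪 x) : x⁻¹ ∈ locAt C 𝔪 := by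
  obtain ⟨s, hs, hc⟩ := hx
  have ht : (⟨_, hc⟩ : C) ∉ 𝔪 := fun ht => h ⟨s, ⟨_, hc⟩, hs, ht, rfl⟩
  have hx0 : x ≠ 0 := by
    rintro rfl
    apply ht
    have : (⟨_, hc⟩ : C) = 0 := Subtype.ext (zero_mul _)
    rw [this]
    exact 𝔪.zero_mem
  refine ⟨⟨_, hc⟩, ht, ?_⟩
  change x⁻¹ * (x * (s : F)) ∈ C
  rw [inv_mul_cancel_left₀ hx0]
  exact s.2

theorem not_inMaxLoc_of_inv_mem (𝔪 : Ideal C) [𝔪.IsPrime] {x : F} (hx : x ∈ locAt C 𝔪)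
    (hx' : x⁻¹ ∈ locAt C 𝔪) (hx0 : x ≠ 0) : ¬ InMaxLoc C 𝔪 x := by
  have h𝔪 : 𝔪.IsPrime := inferInstance
  rintro ⟨s, t, hs, ht, hst⟩
  obtain ⟨s', hs', hc⟩ := hx'
  have : s * s' = t * ⟨_, hc⟩ := by
    apply Subtype.ext
    change (s : F) * (s' : F) = (t : F) * (x⁻¹ * (s' : F))
    rw [← hst]
    field_simp
  have h1 : s * s' ∈ 𝔪 := by
    rw [this]
    exact 𝔪.mul_mem_right _ ht
  exact (h𝔪.mem_or_mem h1).elim hs hs'

theorem InMaxLoc.add (𝔪 : Ideal C) [𝔪.IsPrime] {x y : F} (hx : InMaxLoc C 𝔪 x)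
    (hy : InMaxLoc C 𝔪 y) : InMaxLoc C 𝔪 (x + y) := by
  have h𝔪 : 𝔪.IsPrime := inferInstance
  obtain ⟨s, t, hs, ht, hst⟩ := hx
  obtain ⟨s', t', hs', ht', hst'⟩ := hy
  refine ⟨s * s', t * s' + t' * s, fun h => (h𝔪.mem_or_mem h).elim hs hs',
    𝔪.add_mem (𝔪.mul_mem_right _ ht) (𝔪.mul_mem_right _ ht'), ?_⟩
  push_cast
  rw [← hst, ← hst']
  ring

theorem InMaxLoc.mul_mem (𝔪 : Ideal C) [𝔪.IsPrime] {x y : F} (hx : InMaxLoc C 𝔪 x)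
    (hy : y ∈ locAt C 𝔪) : InMaxLoc C 𝔪 (x * y) := by
  have h𝔪 : 𝔪.IsPrime := inferInstance
  obtain ⟨s, t, hs, ht, hst⟩ := hx
  obtain ⟨s', hs', hc⟩ := hy
  refine ⟨s * s', t * ⟨_, hc⟩, fun h => (h𝔪.mem_or_mem h).elim hs hs', 𝔪.mul_mem_right _ ht, ?_⟩
  push_cast
  rw [← hst]
  ring

theorem InMaxLoc.neg (𝔪 : Ideal C) {x : F} (hx : InMaxLoc C 𝔪 x) : InMaxLoc C 𝔪 (-x) := by
  obtain ⟨s, t, hs, ht, hst⟩ := hx
  refine ⟨s, -t, hs, 𝔪.neg_mem ht, ?_⟩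
  push_cast
  rw [← hst]
  ring

theorem inMaxLoc_coe_iff (𝔪 : Ideal C) [𝔪.IsPrime] (c : C) : InMaxLoc C 𝔪 (c : F) ↔ c ∈ 𝔪 := by
  have h𝔪 : 𝔪.IsPrime := inferInstance
  constructor
  · rintro ⟨s, t, hs, ht, hst⟩
    have : c * s = t := Subtype.ext hst
    have h1 : c * s ∈ 𝔪 := this ▸ ht
    exact (h𝔪.mem_or_mem h1).resolve_right hs
  · intro hc
    exact ⟨1, c, fun h => h𝔪.ne_top ((Ideal.eq_top_iff_one _).2 h), hc, by simp⟩

/-- an element of `C ∖ 𝔪` which is divisible by `ϖ ^ k` along all the components which do not pass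
through `𝔪`  (product of `e_i ^ (E k)`, `e_i ∈ vertI (𝒪 i) C ∖ 𝔪`, `E` from `VertFam.nilp`). -/
theorem exists_not_mem_forall_div_mem [Finite ι] (hV : VertFam ϖ 𝒪) (hC : SatChartI ϖ 𝒪 C)
    (𝔪 : Ideal C) [𝔪.IsPrime] (k : ℕ) :
    ∃ e : C, e ∉ 𝔪 ∧ ∀ i, ¬ vertI (𝒪 i) C ≤ 𝔪 → (e : F) / algebraMap R F ϖ ^ k ∈ 𝒪 i := by
  have h𝔪 : 𝔪.IsPrime := inferInstance
  classical
  cases nonempty_fintype ι
  obtain ⟨E, hE⟩ := hV.nilp
  have h1 : ∀ i, ∃ x : C, x ∉ 𝔪 ∧ (¬ vertI (𝒪 i) C ≤ 𝔪 → x ∈ vertI (𝒪 i) C) := by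
    intro i
    by_cases hi : vertI (𝒪 i) C ≤ 𝔪
    · exact ⟨1, fun h => h𝔪.ne_top ((Ideal.eq_top_iff_one _).2 h), fun h => absurd hi h⟩
    · obtain ⟨x, hx, hx'⟩ := SetLike.not_le_iff_exists.1 hi
      exact ⟨x, hx', fun _ => hx⟩
  choose x hx hx' using h1
  refine ⟨∏ i, x i ^ (E * k), ?_, ?_⟩
  · rw [Ideal.IsPrime.prod_mem_iff]
    rintro ⟨i, -, hi⟩
    exact hx i (h𝔪.mem_of_pow_mem _ hi)
  · intro i hi
    rw [← Finset.mul_prod_erase Finset.univ _ (Finset.mem_univ i)]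
    have e1 : (((x i ^ (E * k) * ∏ j ∈ Finset.univ.erase i, x j ^ (E * k) : C)) : F) /
        algebraMap R F ϖ ^ k = ((x i : F) ^ E / algebraMap R F ϖ) ^ k *
          ((∏ j ∈ Finset.univ.erase i, x j ^ (E * k) : C) : F) := by
      push_cast
      rw [div_pow, ← pow_mul]
      ring
    rw [e1]
    exact (𝒪 i).mul_mem _ _
      ((𝒪 i).pow_mem (hE i _ ((Unit_mem_vertI (hC.le i) _).1 (hx' i hi))) k) (hC.le i _ (Subtype.mem _))

/-- THE UNIT PRINCIPLE (blueprint #1030 (7)): a function which is regular near `𝔪` on the generic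
fibre and integral along the components through `𝔪` is regular at `𝔪`.
[`z = s₀ f e` with `e` from `exists_not_mem_forall_div_mem` lies in all the `𝒪 i` and
`ϖ ^ k z ∈ C`; `SatChartI.sat_pow`.] -/
theorem mem_locAt_of_forall_mem [Finite ι] (hV : VertFam ϖ 𝒪) (hC : SatChartI ϖ 𝒪 C)
    (𝔪 : Ideal C) [𝔪.IsPrime] {f : F} {s₀ : C} (hs₀ : s₀ ∉ 𝔪) {k : ℕ}
    (hf : algebraMap R F ϖ ^ k * ((s₀ : F) * f) ∈ C)
    (h : ∀ i, vertI (𝒪 i) C ≤ 𝔪 → f ∈ 𝒪 i) : f ∈ locAt C 𝔪 := by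
  have h𝔪 : 𝔪.IsPrime := inferInstance
  obtain ⟨e, he, hek⟩ := exists_not_mem_forall_div_mem hV hC 𝔪 k
  have h0 : algebraMap R F ϖ ^ k ≠ 0 := pow_ne_zero _ hV.ne_zero
  have h1 : algebraMap R F ϖ ^ k * ((s₀ : F) * f) * (e : F) ∈ C := C.mul_mem hf e.2
  have h2 := Unit_sat_pow hC k h1 (fun i => by
    by_cases hi : vertI (𝒪 i) C ≤ 𝔪
    · have : algebraMap R F ϖ ^ k * ((s₀ : F) * f) * (e : F) / algebraMap R F ϖ ^ k =
          (s₀ : F) * f * (e : F) := by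
        field_simp
      rw [this]
      exact (𝒪 i).mul_mem _ _ ((𝒪 i).mul_mem _ _ (hC.le i _ s₀.2) (h i hi)) (hC.le i _ e.2)
    · rw [mul_div_assoc]
      exact (𝒪 i).mul_mem _ _ (hC.le i _ hf) (hek i hi))
  refine ⟨s₀ * e, fun hm => (h𝔪.mem_or_mem hm).elim hs₀ he, ?_⟩
  have : f * ((s₀ * e : C) : F) =
      algebraMap R F ϖ ^ k * ((s₀ : F) * f) * (e : F) / algebraMap R F ϖ ^ k := by
    push_cast
    field_simp
  rw [this]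
  exact h2

end Fermat.Agent.GT.Loc
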